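import Fermat.Agent.S43.BadQ
import Fermat.Agent.S36.NU.H88_WQ
import Fermat.Agent.GTor.H2_Equivariance
import Fermat.Agent.BAD.H88_VM

/-!
# S43, leaf W-HECKE (helper88): `w_q` commutes with the Hecke operators `T_ℓ`, `ℓ ∤ M q`

The Atkin–Lehner involution `w_q` of level `M q` lifts to the Atkin–Lehner involution `w_q` of
level `M q ℓ` (`= W_q` for the factorisation `(M ℓ) · q`), compatibly with both degeneracy maps
`α, β : F_{M q} → F_{M q ℓ}`; hence it commutes with the correspondence `T_ℓ` (helper2's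
`pic0_correspondence_smul`).
-/

set_option autoImplicit false
set_option synthInstance.maxHeartbeats 400000
set_option maxHeartbeats 1000000
set_option linter.unusedSectionVars false
set_option linter.style.haveILetI false

noncomputable section

namespace Fermat.Agent.S43.H88

open Fermat.Agent.S24 Fermat.Agent.BAD.H88 Fermat.Agent.S36.NU.H88 ModularCurve AlgebraicCurve
open Fermat.Agent.S43.BadQ AlgebraicCurve.SemilinearAut

section Lift

variable (q M : ℕ) (a b : ℤ) (hab : a * q + b * M = 1) (hq : q.Prime) [NeZero (M * q)]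
variable (ℓ : ℕ) [NeZero ℓ] (a' b' : ℤ) (hab' : a' * q + b' * ((M * ℓ : ℕ) : ℤ) = 1)

theorem level_eq : M * q * ℓ = M * ℓ * q := by ring

/-- `w_q` at level `M q ℓ`. -/
def wUp : FN (M * q * ℓ) ≃ₐ[Kbar] FN (M * q * ℓ) :=
  wQ (M * q * ℓ) q (M * ℓ) a' b' (level_eq q M ℓ) hab'

include hab hq

/-- `w_q` at level `M q ℓ` extends `w_q` at level `M q` along `α`. -/
theorem wUp_comp_alpha :
    (wUp q M ℓ a' b' hab').toAlgHom.comp (heckeAlphaBar Kbar (M * q) ℓ)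
      = (heckeAlphaBar Kbar (M * q) ℓ).comp (wq q M a b hab hq).toAlgHom := by
  apply algHom_ext_of_adjoin _ (adjoin_jdF (M * q))
  rintro x ⟨D, hD0, hD, rfl⟩
  rw [AlgHom.comp_apply, AlgHom.comp_apply, alpha_jdF]
  rcases dvd_cases q M a b hab hq D hD with ⟨e, he⟩ | ⟨d, e, rfl, he⟩
  · haveI : NeZero (D * q) := ⟨(Nat.mul_pos (Nat.pos_of_ne_zero (NeZero.ne D)) hq.pos).ne'⟩
    have h1 : (wq q M a b hab hq).toAlgHom (jdF (M * q) D hD)
        = jdF (M * q) (D * q) (Nat.mul_dvd_mul_right ⟨e, he⟩ q) :=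
      wqHom_jdF q M a b hab hq D ⟨e, he⟩
    rw [h1, alpha_jdF]
    exact wQ_jdF' (M * q * ℓ) q (M * ℓ) a' b' (level_eq q M ℓ) hab' D (D * q) D (e * ℓ) 1 q
      (mul_one D).symm rfl (by rw [he]; ring) (one_mul q).symm _ _
  · have hdpos : 0 < d := by
      rcases Nat.eq_zero_or_pos d with h | h
      · exfalso; apply NeZero.ne (d * q); rw [h, zero_mul]
      · exact h
    haveI : NeZero d := ⟨hdpos.ne'⟩
    have h1 : (wq q M a b hab hq).toAlgHom (jdF (M * q) (d * q) hD)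
        = jdF (M * q) d (Dvd.dvd.mul_right ⟨e, he⟩ q) :=
      wqHom_jdF_mul q M a b hab hq d ⟨e, he⟩
    rw [h1, alpha_jdF]
    exact wQ_jdF' (M * q * ℓ) q (M * ℓ) a' b' (level_eq q M ℓ) hab' (d * q) d d (e * ℓ) q 1
      rfl (mul_one d).symm (by rw [he]; ring) (mul_one q).symm _ _

/-- `w_q` at level `M q ℓ` extends `w_q` at level `M q` along `β`. -/
theorem wUp_comp_beta :
    (wUp q M ℓ a' b' hab').toAlgHom.comp (heckeBetaBar Kbar (M * q) ℓ)
      = (heckeBetaBar Kbar (M * q) ℓ).comp (wq q M a b hab hq).toAlgHom := by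
  apply algHom_ext_of_adjoin _ (adjoin_jdF (M * q))
  rintro x ⟨D, hD0, hD, rfl⟩
  have hℓ0 : 0 < ℓ := Nat.pos_of_ne_zero (NeZero.ne ℓ)
  haveI : NeZero (D * ℓ) := ⟨(Nat.mul_pos (Nat.pos_of_ne_zero (NeZero.ne D)) hℓ0).ne'⟩
  rw [AlgHom.comp_apply, AlgHom.comp_apply, beta_jdF]
  rcases dvd_cases q M a b hab hq D hD with ⟨e, he⟩ | ⟨d, e, rfl, he⟩
  · haveI : NeZero (D * q) := ⟨(Nat.mul_pos (Nat.pos_of_ne_zero (NeZero.ne D)) hq.pos).ne'⟩
    haveI : NeZero (D * q * ℓ) :=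
      ⟨(Nat.mul_pos (Nat.mul_pos (Nat.pos_of_ne_zero (NeZero.ne D)) hq.pos) hℓ0).ne'⟩
    have h1 : (wq q M a b hab hq).toAlgHom (jdF (M * q) D hD)
        = jdF (M * q) (D * q) (Nat.mul_dvd_mul_right ⟨e, he⟩ q) :=
      wqHom_jdF q M a b hab hq D ⟨e, he⟩
    rw [h1, beta_jdF]
    exact wQ_jdF' (M * q * ℓ) q (M * ℓ) a' b' (level_eq q M ℓ) hab' (D * ℓ) (D * q * ℓ)
      (D * ℓ) e 1 q (mul_one _).symm (by ring) (by rw [he]; ring) (one_mul q).symm _ _
  · have hdpos : 0 < d := by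
      rcases Nat.eq_zero_or_pos d with h | h
      · exfalso; apply NeZero.ne (d * q); rw [h, zero_mul]
      · exact h
    haveI : NeZero d := ⟨hdpos.ne'⟩
    haveI : NeZero (d * ℓ) := ⟨(Nat.mul_pos hdpos hℓ0).ne'⟩
    have h1 : (wq q M a b hab hq).toAlgHom (jdF (M * q) (d * q) hD)
        = jdF (M * q) d (Dvd.dvd.mul_right ⟨e, he⟩ q) :=
      wqHom_jdF_mul q M a b hab hq d ⟨e, he⟩
    rw [h1, beta_jdF]
    exact wQ_jdF' (M * q * ℓ) q (M * ℓ) a' b' (level_eq q M ℓ) hab' (d * q * ℓ) (d * ℓ)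
      (d * ℓ) e q 1 (by ring) (mul_one _).symm (by rw [he]; ring) (mul_one q).symm _ _

theorem intertwines_alpha :
    IntertwinesAlong ((heckeAlphaBar Kbar (M * q) ℓ : _ →ₐ[Kbar] _) : _ →+* _)
      (wS q M a b hab hq) (SemilinearAut.ofAlgAut (wUp q M ℓ a' b' hab')) := by
  intro x
  exact congrArg (fun f : FN (M * q) →ₐ[Kbar] FN (M * q * ℓ) => f x)
    (wUp_comp_alpha q M a b hab hq ℓ a' b' hab')

theorem intertwines_beta :
    IntertwinesAlong ((heckeBetaBar Kbar (M * q) ℓ : _ →ₐ[Kbar] _) : _ →+* _)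
      (wS q M a b hab hq) (SemilinearAut.ofAlgAut (wUp q M ℓ a' b' hab')) := by
  intro x
  exact congrArg (fun f : FN (M * q) →ₐ[Kbar] FN (M * q * ℓ) => f x)
    (wUp_comp_beta q M a b hab hq ℓ a' b' hab')

end Lift

/-- **W-HECKE.** -/
theorem stmt_WHecke : Stmt_WHecke := by
  intro q M a b hab hq _ ℓ hℓN x
  haveI : NeZero (ℓ : ℕ) := ⟨ℓ.2.ne_zero⟩
  rw [heckeOperatorBar_apply, heckeOperatorBar_apply]
  by_cases hI : HeckeInputsAlong Kbar (M * q) ℓ
  · obtain ⟨hα, hβ, hP, hfin, hFI, hN⟩ := hI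
    -- Bezout at level `M ℓ`
    have hqℓ : (q : ℕ) ≠ ℓ := by
      rintro h
      exact hℓN (h ▸ Dvd.intro_left M rfl)
    have hcop : Nat.Coprime q (M * ℓ) := by
      apply Nat.Coprime.mul_right
      · exact (Nat.Prime.coprime_iff_not_dvd hq).mpr (q_not_dvd_M q M a b hab hq)
      · exact (Nat.coprime_primes hq ℓ.2).mpr hqℓ
    obtain ⟨a', b', hab'⟩ : ∃ a' b' : ℤ, a' * q + b' * ((M * ℓ : ℕ) : ℤ) = 1 := by
      have h := Nat.isCoprime_iff_coprime.mpr hcop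
      obtain ⟨u, v, huv⟩ := h
      exact ⟨u, v, huv⟩
    rw [heckeOperatorAlong_eq hα hβ hFI hfin hN]
    exact Fermat.Agent.GTor.H2.pic0_correspondence_smul (wS q M a b hab hq)
      (SemilinearAut.ofAlgAut (wUp q M ℓ a' b' hab')) _ _ hβ hα hFI hfin hN
      (intertwines_beta q M a b hab hq ℓ a' b' hab')
      (intertwines_alpha q M a b hab hq ℓ a' b' hab') x
  · rw [heckeOperatorAlong_of_not hI, AddMonoidHom.zero_apply, AddMonoidHom.zero_apply,
      smul_zero]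

end Fermat.Agent.S43.H88
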