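/-
S43 wiring (cluster L, helper37): the frozen type of S43 from a CORE statement that only has to
produce the lower-level eigenform with the congruence for ALMOST ALL primes, and only against the
standard integral Frey model `P.freyCurveInt`.

`result_of_core : Stmt_LowerCore → <frozen type of S43>`.

Glue used: rescaling an integral model by `m` (`a_i ↦ m^i a_i`) keeps it an integral model of the same
curve, multiplies `Δ` by `m¹²` (so every prime dividing `m` becomes bad) and does not change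
`apOfModel ℓ` for primes `ℓ ∤ m`.
-/
import Mathlib
import Fermat.Prelude.Def_FLTPrelim_FreyPackage
import Fermat.Prelude.Def_FLTPrelim_GaloisRep
import Fermat.Prelude.Def_FLTPrelim_Modularity
import Fermat.Prelude.Def_FLTPrelim_ModularRep
import Fermat.Prelude.Def_FLTPrelim_Ramification
import Fermat.Prelude.Def_FreyPackage_IsConductorLevel
import Fermat.Agent.Lib.PointVariableChange
import Fermat.Agent.S04.H59_FreySemistable

set_option autoImplicit false
open WeierstrassCurve WeierstrassCurve.Affine WeierstrassCurve.Affine.Point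
open CuspForm ModularFormClass UpperHalfPlane

namespace Fermat.Agent.S43

/-- The integral model rescaled by `m`: `a_i ↦ m^i a_i`. -/
def scaleModel (W : WeierstrassCurve ℤ) (m : ℤ) : WeierstrassCurve ℤ :=
  ⟨m * W.a₁, m ^ 2 * W.a₂, m ^ 3 * W.a₃, m ^ 4 * W.a₄, m ^ 6 * W.a₆⟩

theorem scaleModel_Δ (W : WeierstrassCurve ℤ) (m : ℤ) :
    (scaleModel W m).Δ = m ^ 12 * W.Δ := by
  simp only [scaleModel, WeierstrassCurve.Δ, WeierstrassCurve.b₂, WeierstrassCurve.b₄,
    WeierstrassCurve.b₆, WeierstrassCurve.b₈]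
  ring

/-- Over a field, the rescaled curve is the variable change by `u = m⁻¹`. -/
theorem scale_eq_variableChange {F : Type*} [Field F] (W : WeierstrassCurve F) (m : F)
    (hm : m ≠ 0) :
    (⟨m * W.a₁, m ^ 2 * W.a₂, m ^ 3 * W.a₃, m ^ 4 * W.a₄, m ^ 6 * W.a₆⟩ : WeierstrassCurve F)
      = (⟨(Units.mk0 m hm)⁻¹, 0, 0, 0⟩ : VariableChange F) • W := by
  ext <;>
    simp [variableChange_a₁, variableChange_a₂, variableChange_a₃, variableChange_a₄,
      variableChange_a₆]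

theorem scaleModel_map {F : Type*} [Field F] (φ : ℤ →+* F) (W : WeierstrassCurve ℤ) (m : ℤ)
    (hm : φ m ≠ 0) :
    (scaleModel W m).map φ
      = (⟨(Units.mk0 (φ m) hm)⁻¹, 0, 0, 0⟩ : VariableChange F) • (W.map φ) := by
  rw [← scale_eq_variableChange]
  ext <;> simp [scaleModel, WeierstrassCurve.map]

theorem scaleModel_isIntegralModelOf {W : WeierstrassCurve ℤ} {E : WeierstrassCurve ℚ}
    (h : W.IsIntegralModelOf E) {m : ℤ} (hm : m ≠ 0) :
    (scaleModel W m).IsIntegralModelOf E := by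
  obtain ⟨C, hC⟩ := h
  have hm' : (Int.castRingHom ℚ) m ≠ 0 := by simpa using hm
  refine ⟨(⟨(Units.mk0 ((Int.castRingHom ℚ) m) hm')⁻¹, 0, 0, 0⟩ : VariableChange ℚ) * C, ?_⟩
  rw [mul_smul, hC, scaleModel_map]

theorem scaleModel_isGoodPrimeFor {W : WeierstrassCurve ℤ} {m : ℤ} {ℓ : ℕ} (hℓ : ℓ.Prime)
    (h : (scaleModel W m).IsGoodPrimeFor ℓ) : ¬ (ℓ : ℤ) ∣ m ∧ W.IsGoodPrimeFor ℓ := by
  unfold WeierstrassCurve.IsGoodPrimeFor at h ⊢
  rw [scaleModel_Δ] at h
  have hp : Prime (ℓ : ℤ) := Nat.prime_iff_prime_int.1 hℓ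
  constructor
  · intro hd
    exact h (Dvd.dvd.mul_right (dvd_pow hd (by norm_num)) _)
  · intro hd
    exact h (Dvd.dvd.mul_left hd _)

theorem card_variableChange {F : Type*} [Field F] (W : WeierstrassCurve F)
    (C : VariableChange F) : (C • W).card = W.card := by
  classical
  unfold WeierstrassCurve.card
  exact Nat.card_congr (Fermat.Agent.Lib.PointVariableChange.equiv W.toAffine C).toEquiv

theorem scaleModel_apOfModel (W : WeierstrassCurve ℤ) {m : ℤ} {ℓ : ℕ} (hℓ : ℓ.Prime)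
    (hm : ¬ (ℓ : ℤ) ∣ m) : (scaleModel W m).apOfModel ℓ = W.apOfModel ℓ := by
  have : Fact ℓ.Prime := ⟨hℓ⟩
  have hm' : (Int.castRingHom (ZMod ℓ)) m ≠ 0 := by
    intro h0
    apply hm
    have : ((m : ℤ) : ZMod ℓ) = 0 := by simpa using h0
    exact (ZMod.intCast_zmod_eq_zero_iff_dvd m ℓ).1 this
  unfold WeierstrassCurve.apOfModel WeierstrassCurve.reductionMod
    WeierstrassCurve.traceOfFrobenius
  rw [scaleModel_map (Int.castRingHom (ZMod ℓ)) W m hm', card_variableChange]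

/-- CORE of S43 (= Ribet's theorem for the Frey curve, congruence for almost all primes). -/
def Stmt_LowerCore : Prop :=
  ∀ (P : FreyPackage) (N q : ℕ), P.IsConductorLevel N → q.Prime → q ≠ 2 → q ≠ P.p → q ∣ N →
    GaloisRepIsIrreducible (K := AlgebraicClosure ℚ) ℚ P.freyCurve P.p →
    P.ModularRepOfLevel N → P.GaloisRepUnramifiedAt q →
    ∃ (g : CuspForm (CongruenceSubgroup.Gamma0 (N / q)) 2) (𝔪 : Ideal (integralClosure ℤ ℂ))
      (S : Finset ℕ),
      g.IsNormalizedEigenform ∧ 𝔪.IsMaximal ∧ (P.p : integralClosure ℤ ℂ) ∈ 𝔪 ∧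
      ∀ ℓ : ℕ, ℓ.Prime → ℓ ∉ S → ¬ ℓ ∣ N → ℓ ≠ P.p →
        ¬ (ℓ : ℤ) ∣ P.freyCurveInt.Δ →
        ∃ a : integralClosure ℤ ℂ, (a : ℂ) = ModularFormClass.qCoeff g ℓ ∧
          a - ((P.freyCurveInt.apOfModel ℓ : ℤ) : integralClosure ℤ ℂ) ∈ 𝔪

/-- The frozen type of S43 from the core. -/
theorem result_of_core (hcore : Stmt_LowerCore) (P : FreyPackage) {N q : ℕ}
    (hcond : P.IsConductorLevel N) (hq : q.Prime) (hq2 : q ≠ 2) (hqp : q ≠ P.p) (hqN : q ∣ N)
    (hirr : GaloisRepIsIrreducible (K := AlgebraicClosure ℚ) ℚ P.freyCurve P.p)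
    (hmod : P.ModularRepOfLevel N) (hunr : P.GaloisRepUnramifiedAt q) :
    ∃ M : ℕ, M ∣ N ∧ ¬ q ∣ M ∧ P.ModularRepOfLevel M := by
  obtain ⟨g, 𝔪, S, hg, hmax, hp, hcong⟩ := hcore P N q hcond hq hq2 hqp hqN hirr hmod hunr
  have hNq : N / q * q = N := Nat.div_mul_cancel hqN
  have hqM : ¬ q ∣ N / q := by
    intro hd
    have : q * q ∣ N := by
      obtain ⟨k, hk⟩ := hd
      exact ⟨k, by rw [← hNq, hk]; ring⟩
    exact hcond.sq_not_dvd hq (by rwa [pow_two])
  refine ⟨N / q, Nat.div_dvd_of_dvd hqN, hqM, ?_⟩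
  -- the multiplier making `q` and the exceptional primes bad
  set m : ℤ := (q : ℤ) * ∏ s ∈ S, ((if s = 0 then 1 else s : ℕ) : ℤ) with hm
  have hm0 : m ≠ 0 := by
    rw [hm]
    refine mul_ne_zero (by exact_mod_cast hq.ne_zero) ?_
    refine Finset.prod_ne_zero_iff.2 (fun s _ => ?_)
    split_ifs with h
    · norm_num
    · exact_mod_cast h
  have hqm : (q : ℤ) ∣ m := Dvd.intro _ rfl
  have hSm : ∀ s ∈ S, s ≠ 0 → ((s : ℕ) : ℤ) ∣ m := by
    intro s hs hs0
    rw [hm]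
    refine Dvd.dvd.mul_left ?_ _
    have := Finset.dvd_prod_of_mem (fun s => ((if s = 0 then 1 else s : ℕ) : ℤ)) hs
    simpa [hs0] using this
  refine ⟨g, scaleModel P.freyCurveInt m, 𝔪, hg,
    scaleModel_isIntegralModelOf (Fermat.Agent.S04.H59.freyCurveInt_isIntegralModelOf P) hm0,
    hmax, hp, ?_⟩
  intro ℓ hℓ hgood hℓM hℓp
  obtain ⟨hℓm, hgood'⟩ := scaleModel_isGoodPrimeFor hℓ hgood
  have hℓq : ℓ ≠ q := by
    rintro rfl
    exact hℓm hqm
  have hℓS : ℓ ∉ S := by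
    intro hs
    exact hℓm (hSm ℓ hs hℓ.ne_zero)
  have hℓN : ¬ ℓ ∣ N := by
    intro hd
    rw [← hNq] at hd
    rcases (Nat.Prime.dvd_mul hℓ).1 hd with h | h
    · exact hℓM h
    · exact hℓq ((Nat.prime_dvd_prime_iff_eq hℓ hq).1 h)
  obtain ⟨a, ha, hac⟩ := hcong ℓ hℓ hℓS hℓN hℓp hgood'
  refine ⟨a, ha, ?_⟩
  rw [scaleModel_apOfModel P.freyCurveInt hℓ hℓm]
  exact hac

end Fermat.Agent.S43
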