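/-
S43 wiring, version 2 (cluster L, helper37), in helper93's `HeckeGaloisModule` framework
(`Fermat/Agent/S44/Defs.lean`).

* `HeckeGaloisModule.HasToricPartAt N q A` : the abstract form of BAD_q needed for Mazur's
  principle at a prime `q ∥ N`, `q ≠ p`: a subspace `T` (the toric part) and an operator `U`
  (`U_q`) commuting with the Galois action, with `U² = 1` on `T`, every Frobenius at `q` acting on
  `T` as `q • U`, and: an inertia-invariant non-Eisenstein eigenvector outside `T` comes from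
  level `N / q` (finite part modulo toric part embeds into two copies of level `N / q`; the
  component group is Eisenstein).
* `HeckeGaloisModule.RemovesQ N q A` : Mazur's principle at `q`, module form, for a module on which
  the Frobenius elements at `q` do NOT all act through one scalar.
* `removesQ_of_toric` : `HasToricPartAt → RemovesQ` (pure algebra, `p` odd).
* `Stmt_BadQ`  : `J₀(N)[p]` has a toric part at `q` (package BAD_q, level lowering slice).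
* `Stmt_Pivot` : the exceptional case (all Frobenius elements at `q` act on `E[p]` through one
  scalar; then `q ≡ 1 mod p`), item 66.
* `result_of_leaves : Stmt_TateModP → Stmt_BadQ → Stmt_Pivot → <frozen type of S43>`.
-/
import Fermat.Agent.S43.Wiring
import Fermat.Agent.S44.Final

set_option autoImplicit false

open WeierstrassCurve WeierstrassCurve.Affine WeierstrassCurve.Affine.Point
open scoped WeierstrassCurve.Affine

namespace Fermat.Agent.S43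

open Fermat.Agent.S44

/-- **BAD_q, abstract form (level lowering slice).**  See the header. -/
def _root_.Fermat.Agent.S44.HeckeGaloisModule.HasToricPartAt {p : ℕ} (H : HeckeGaloisModule p)
    (N q : ℕ) (A : ValuationSubring (AlgebraicClosure ℚ)) : Prop :=
  ∃ (T : Submodule (ZMod p) H.J) (U : Module.End (ZMod p) H.J),
    (∀ σ : GQ, U * H.gal σ = H.gal σ * U) ∧
    (∀ x ∈ T, U x ∈ T ∧ U (U x) = x) ∧
    (∀ σ : GQ, A.IsFrobeniusAt σ q → ∀ x ∈ T, H.gal σ x = (q : ZMod p) • U x) ∧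
    (∀ (S : Finset ℕ) (t : ℕ → ℤ) (x : H.J), x ∉ T →
      (∀ σ ∈ A.inertiaSubgroupIn ℚ, H.gal σ x = x) →
      (∀ ℓ : ℕ, ℓ.Prime → ℓ ∉ S → ¬ ℓ ∣ N → ℓ ≠ p → H.T ℓ x = ((t ℓ : ℤ) : ZMod p) • x) →
      (∃ ℓ : ℕ, ℓ.Prime ∧ ℓ ∉ S ∧ ¬ ℓ ∣ N ∧ ℓ ≠ p ∧ ((t ℓ : ℤ) : ZMod p) ≠ 1 + (ℓ : ZMod p)) →
      ∃ (g : CuspForm (CongruenceSubgroup.Gamma0 (N / q)) 2) (𝔪 : Ideal ZBar),
        g.IsNormalizedEigenform ∧ 𝔪.IsMaximal ∧ (p : ZBar) ∈ 𝔪 ∧
        ∀ ℓ : ℕ, ℓ.Prime → ℓ ∉ S → ¬ ℓ ∣ N → ℓ ≠ p →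
          ∃ a : ZBar, (a : ℂ) = ModularFormClass.qCoeff g ℓ ∧ a - ((t ℓ : ℤ) : ZBar) ∈ 𝔪)

/-- **Mazur's principle at `q`, module form.**  `V` irreducible, unramified at `A` (a place over
`q`), the Frobenius elements at `A` do not all act on `V` through one scalar; `V` embeds
Galois-equivariantly into `J` with Hecke eigenvalues `t ℓ`, not Eisenstein.  Then the system `t`
comes from an eigenform of level `N / q`. -/
def _root_.Fermat.Agent.S44.HeckeGaloisModule.RemovesQ {p : ℕ} (H : HeckeGaloisModule p)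
    (N q : ℕ) (A : ValuationSubring (AlgebraicClosure ℚ)) : Prop :=
  ∀ (V : Type) [AddCommGroup V] [Module (ZMod p) V] (ρ : GQ →* Module.End (ZMod p) V)
    (ι : V →ₗ[ZMod p] H.J) (S : Finset ℕ) (t : ℕ → ℤ),
    (∀ W : Submodule (ZMod p) V, (∀ σ : GQ, ∀ x ∈ W, ρ σ x ∈ W) → W = ⊥ ∨ W = ⊤) →
    (∀ σ ∈ A.inertiaSubgroupIn ℚ, ∀ v : V, ρ σ v = v) →
    (¬ ∃ c : ZMod p, ∀ σ : GQ, A.IsFrobeniusAt σ q → ∀ v : V, ρ σ v = c • v) →
    Function.Injective ι →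
    (∀ (σ : GQ) (v : V), ι (ρ σ v) = H.gal σ (ι v)) →
    (∀ ℓ : ℕ, ℓ.Prime → ℓ ∉ S → ¬ ℓ ∣ N → ℓ ≠ p →
      ∀ v : V, H.T ℓ (ι v) = ((t ℓ : ℤ) : ZMod p) • ι v) →
    (∃ ℓ : ℕ, ℓ.Prime ∧ ℓ ∉ S ∧ ¬ ℓ ∣ N ∧ ℓ ≠ p ∧ ((t ℓ : ℤ) : ZMod p) ≠ 1 + (ℓ : ZMod p)) →
    ∃ (g : CuspForm (CongruenceSubgroup.Gamma0 (N / q)) 2) (𝔪 : Ideal ZBar),
      g.IsNormalizedEigenform ∧ 𝔪.IsMaximal ∧ (p : ZBar) ∈ 𝔪 ∧
      ∀ ℓ : ℕ, ℓ.Prime → ℓ ∉ S → ¬ ℓ ∣ N → ℓ ≠ p →
        ∃ a : ZBar, (a : ℂ) = ModularFormClass.qCoeff g ℓ ∧ a - ((t ℓ : ℤ) : ZBar) ∈ 𝔪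

/-- An equivariant map out of an irreducible module is zero or injective. -/
theorem injective_of_irreducible {p : ℕ} {V J : Type} [AddCommGroup V] [Module (ZMod p) V]
    [AddCommGroup J] [Module (ZMod p) J]
    (ρ : GQ →* Module.End (ZMod p) V) (gal : GQ →* Module.End (ZMod p) J)
    (hirr : ∀ W : Submodule (ZMod p) V, (∀ σ : GQ, ∀ x ∈ W, ρ σ x ∈ W) → W = ⊥ ∨ W = ⊤)
    (κ : V →ₗ[ZMod p] J) (hκ : ∀ (σ : GQ) (v : V), κ (ρ σ v) = gal σ (κ v))
    (hne : ∃ v, κ v ≠ 0) : Function.Injective κ := by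
  rcases hirr (LinearMap.ker κ) (fun σ x hx => by
    rw [LinearMap.mem_ker] at hx ⊢
    rw [hκ, hx, _root_.map_zero]) with h | h
  · exact LinearMap.ker_eq_bot.mp h
  · exfalso
    obtain ⟨v, hv⟩ := hne
    apply hv
    have : v ∈ LinearMap.ker κ := by rw [h]; trivial
    exact LinearMap.mem_ker.mp this

/-- **Mazur's principle at `q`** from the abstract structure. -/
theorem removesQ_of_toric {p : ℕ} (hp : p.Prime) (hp2 : p ≠ 2) (H : HeckeGaloisModule p)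
    (N q : ℕ) (A : ValuationSubring (AlgebraicClosure ℚ))
    (hbad : H.HasToricPartAt N q A) : H.RemovesQ N q A := by
  have : Fact p.Prime := ⟨hp⟩
  intro V _ _ ρ ι S t hirr hunr hnexc hinj hequiv hT hNE
  obtain ⟨T, U, hUgal, hUT, hFrob, hlow⟩ := hbad
  by_cases hcase : ∃ v : V, ι v ∉ T
  · obtain ⟨v, hv⟩ := hcase
    refine hlow S t (ι v) hv (fun σ hσ => ?_) (fun ℓ hℓ hℓS hℓN hℓp => hT ℓ hℓ hℓS hℓN hℓp v) hNE
    rw [← hequiv, hunr σ hσ v]
  · exfalso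
    push Not at hcase
    have h2 : (2 : ZMod p) ≠ 0 := by
      intro h
      have h' : ((2 : ℕ) : ZMod p) = 0 := by exact_mod_cast h
      rw [ZMod.natCast_eq_zero_iff] at h'
      exact hp2 ((Nat.prime_dvd_prime_iff_eq hp Nat.prime_two).mp h')
    -- the two eigen-components of `ι` for `U`
    have key : ∀ ε : ZMod p, ε * ε = 1 → (∃ v, ι v + ε • U (ι v) ≠ 0) →
        ∀ σ : GQ, A.IsFrobeniusAt σ q → ∀ v : V, ρ σ v = ((q : ZMod p) * ε) • v := by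
      intro ε hε hne σ hσ v
      set κ : V →ₗ[ZMod p] H.J := ι + ε • (U ∘ₗ ι) with hκ
      have hκv : ∀ w, κ w = ι w + ε • U (ι w) := fun w => rfl
      have hκeq : ∀ (τ : GQ) (w : V), κ (ρ τ w) = H.gal τ (κ w) := by
        intro τ w
        rw [hκv, hκv, hequiv, map_add, map_smul]
        congr 2
        have := congrArg (fun f : Module.End (ZMod p) H.J => f (ι w)) (hUgal τ)
        simpa using this
      have hκinj : Function.Injective κ := injective_of_irreducible ρ H.gal hirr κ hκeq hne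
      have hκT : ∀ w, κ w ∈ T := fun w => by
        rw [hκv]
        exact T.add_mem (hcase w) (T.smul_mem _ (hUT _ (hcase w)).1)
      have hUκ : ∀ w, U (κ w) = ε • κ w := by
        intro w
        rw [hκv, map_add, map_smul, (hUT _ (hcase w)).2, smul_add, smul_smul, hε, one_smul, add_comm]
      apply hκinj
      rw [hκeq, hFrob σ hσ _ (hκT v), hUκ, smul_smul, map_smul]
    apply hnexc
    by_cases hplus : ∃ v, ι v + (1 : ZMod p) • U (ι v) ≠ 0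
    · exact ⟨(q : ZMod p) * 1, key 1 (by ring) hplus⟩
    · push Not at hplus
      have hminus : ∃ v, ι v + (-1 : ZMod p) • U (ι v) ≠ 0 := by
        by_contra hcon
        push Not at hcon
        -- then `2 ι = 0`, so `V = 0`, and `⊥ = ⊤`
        have hι0 : ∀ v, ι v = 0 := by
          intro v
          have h1 := hplus v
          have h3 := hcon v
          have h4 : (2 : ZMod p) • ι v = 0 := by
            have : (2 : ZMod p) • ι v = (ι v + (1 : ZMod p) • U (ι v)) + (ι v + (-1 : ZMod p) • U (ι v)) := by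
              rw [two_smul]; module
            rw [this, h1, h3, add_zero]
          rcases smul_eq_zero.mp h4 with h | h
          · exact absurd h h2
          · exact h
        have hV0 : ∀ v : V, v = 0 := fun v => hinj (by rw [hι0 v, _root_.map_zero])
        obtain ⟨ℓ, -, -, -, -, hℓ⟩ := hNE
        -- every scalar works on the zero module
        exact hnexc ⟨0, fun σ _ v => by rw [hV0 v]; simp⟩
      exact ⟨(q : ZMod p) * (-1), key (-1) (by ring) hminus⟩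

/-- **Package BAD_q (level lowering slice).**  The structure of `J₀(N)[p]` at a place over a prime
`q ∥ N`, `q ≠ p`. -/
def Stmt_BadQ : Prop :=
  ∀ (p : ℕ), p.Prime → p ≠ 2 → ∀ (N : ℕ) [NeZero N] (q : ℕ), q.Prime → q ≠ p →
    q ∣ N → ¬ q ^ 2 ∣ N →
    ∀ A : ValuationSubring (AlgebraicClosure ℚ), A.LiesOverPrime q →
      (jzModule N p).HasToricPartAt N q A

/-- The conclusion of the core of S43, relative to a model `W`. -/
def LowerConcl (p N q : ℕ) (W : WeierstrassCurve ℤ) : Prop :=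
  ∃ (g : CuspForm (CongruenceSubgroup.Gamma0 (N / q)) 2) (𝔪 : Ideal (integralClosure ℤ ℂ))
    (S : Finset ℕ),
    g.IsNormalizedEigenform ∧ 𝔪.IsMaximal ∧ (p : integralClosure ℤ ℂ) ∈ 𝔪 ∧
    ∀ ℓ : ℕ, ℓ.Prime → ℓ ∉ S → ¬ ℓ ∣ N → ℓ ≠ p → W.IsGoodPrimeFor ℓ →
      ∃ a : integralClosure ℤ ℂ, (a : ℂ) = ModularFormClass.qCoeff g ℓ ∧
        a - ((W.apOfModel ℓ : ℤ) : integralClosure ℤ ℂ) ∈ 𝔪

/-- **Package PIVOT (item 66): the exceptional case.**  If all Frobenius elements at a place over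
`q` act on the `p`-torsion of the Frey curve through one scalar (this forces `q ≡ 1 mod p`), the
level can still be lowered at `q`. -/
def Stmt_Pivot : Prop :=
  ∀ (P : FreyPackage) (N q : ℕ), P.IsConductorLevel N → q.Prime → q ≠ 2 → q ≠ P.p → q ∣ N →
    GaloisRepIsIrreducible (K := AlgebraicClosure ℚ) ℚ P.freyCurve P.p →
    P.GaloisRepUnramifiedAt q →
    ∀ (f : CuspForm (CongruenceSubgroup.Gamma0 N) 2) (W : WeierstrassCurve ℤ)
      (𝔪 : Ideal (integralClosure ℤ ℂ)),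
    f.IsNormalizedEigenform → W.IsIntegralModelOf P.freyCurve → 𝔪.IsMaximal →
    (P.p : integralClosure ℤ ℂ) ∈ 𝔪 →
    (∀ ℓ : ℕ, ℓ.Prime → W.IsGoodPrimeFor ℓ → ¬ ℓ ∣ N → ℓ ≠ P.p →
      ∃ a : integralClosure ℤ ℂ, (a : ℂ) = ModularFormClass.qCoeff f ℓ ∧
        a - ((W.apOfModel ℓ : ℤ) : integralClosure ℤ ℂ) ∈ 𝔪) →
    ∀ A : ValuationSubring (AlgebraicClosure ℚ), A.LiesOverPrime q →
    (∃ c : ZMod P.p, ∀ σ : GQ, A.IsFrobeniusAt σ q → ∀ v : Tors P.freyCurve P.p,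
      galoisRepModuleEnd (S := ℚ) (K := AlgebraicClosure ℚ) P.freyCurve.toAffine P.p σ v
        = c • v) →
    LowerConcl P.p N q W

/-- **The core of S43 from the packages.** -/
theorem lowerConcl_of (h1 : Stmt_TateModP) (h2 : Stmt_BadQ) (h3 : Stmt_Pivot)
    (P : FreyPackage) {N q : ℕ} (hcond : P.IsConductorLevel N) (hq : q.Prime) (hq2 : q ≠ 2)
    (hqp : q ≠ P.p) (hqN : q ∣ N)
    (hirr : GaloisRepIsIrreducible (K := AlgebraicClosure ℚ) ℚ P.freyCurve P.p)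
    (hunr : P.GaloisRepUnramifiedAt q)
    (f : CuspForm (CongruenceSubgroup.Gamma0 N) 2) (W : WeierstrassCurve ℤ)
    (𝔪 : Ideal (integralClosure ℤ ℂ)) (hf : f.IsNormalizedEigenform)
    (hW : W.IsIntegralModelOf P.freyCurve)
    (h𝔪 : 𝔪.IsMaximal) (hp𝔪 : (P.p : integralClosure ℤ ℂ) ∈ 𝔪)
    (hcong : ∀ ℓ : ℕ, ℓ.Prime → W.IsGoodPrimeFor ℓ → ¬ ℓ ∣ N → ℓ ≠ P.p →
      ∃ a : integralClosure ℤ ℂ, (a : ℂ) = ModularFormClass.qCoeff f ℓ ∧
        a - ((W.apOfModel ℓ : ℤ) : integralClosure ℤ ℂ) ∈ 𝔪) :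
    LowerConcl P.p N q W := by
  have hp : P.p.Prime := P.pp
  have hp2 : P.p ≠ 2 := by have := P.hp5; omega
  have hΔ : W.Δ ≠ 0 := integralModel_Δ_ne_zero P hW
  have : NeZero N := ⟨hcond.pos.ne'⟩
  obtain ⟨A, hAq⟩ := stmt_PlaceOver q hq
  by_cases hexc : ∃ c : ZMod P.p, ∀ σ : GQ, A.IsFrobeniusAt σ q → ∀ v : Tors P.freyCurve P.p,
      galoisRepModuleEnd (S := ℚ) (K := AlgebraicClosure ℚ) P.freyCurve.toAffine P.p σ v = c • v
  · exact h3 P N q hcond hq hq2 hqp hqN hirr hunr f W 𝔪 hf hW h𝔪 hp𝔪 hcong A hAq hexc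
  · obtain ⟨hcont, hES, hsupp⟩ := h1 P.p hp hp2 N
    set S : Finset ℕ := W.Δ.natAbs.primeFactors with hS
    have hgood : ∀ ℓ : ℕ, ℓ.Prime → ℓ ∉ S → W.IsGoodPrimeFor ℓ := fun ℓ hℓ h =>
      prime_not_mem_of_good hℓ hΔ h
    obtain ⟨x, hx0, hx⟩ := hsupp f 𝔪 S (fun ℓ => W.apOfModel ℓ) hf h𝔪 hp𝔪
      (fun ℓ hℓ hℓS hℓN hℓp => hcong ℓ hℓ (hgood ℓ hℓ hℓS) hℓN hℓp)
    obtain ⟨ι, hinj, hequiv, hT⟩ := Fermat.Agent.L.H52.recovery P.p hp hp2 N hcond.pos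
      (jzModule N P.p) hcont hES P.freyCurve W hW hirr S hgood x hx0 hx
    have hNE : ∃ ℓ : ℕ, ℓ.Prime ∧ ℓ ∉ S ∧ ¬ ℓ ∣ N ∧ ℓ ≠ P.p ∧
        ((W.apOfModel ℓ : ℤ) : ZMod P.p) ≠ 1 + (ℓ : ZMod P.p) := by
      obtain ⟨ℓ, hℓ, hℓW, hℓN, hℓp, hne⟩ := stmt_NonEis P W hW N hcond.pos hirr
      refine ⟨ℓ, hℓ, ?_, hℓN, hℓp, hne⟩
      intro hmem
      rw [hS, Nat.mem_primeFactors] at hmem
      exact hℓW (Int.natCast_dvd.mpr hmem.2.1)
    have hq2N : ¬ q ^ 2 ∣ N := hcond.sq_not_dvd hq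
    have hrem := removesQ_of_toric hp hp2 (jzModule N P.p) N q A
      (h2 P.p hp hp2 N q hq hqp hqN hq2N A hAq)
    obtain ⟨g, 𝔪', hg, h𝔪', hp𝔪', hgc⟩ := hrem (Tors P.freyCurve P.p)
      (galoisRepModuleEnd (S := ℚ) (K := AlgebraicClosure ℚ) P.freyCurve.toAffine P.p)
      ι S (fun ℓ => W.apOfModel ℓ)
      (fun W' hW' => hirr.2 W' (fun σ x hx => hW' σ x hx))
      (fun σ hσ v => hunr A hAq σ hσ v)
      hexc hinj (fun σ v => hequiv σ v) hT hNE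
    exact ⟨g, 𝔪', S, hg, h𝔪', hp𝔪', fun ℓ hℓ hℓS hℓN hℓp _ => hgc ℓ hℓ hℓS hℓN hℓp⟩

/-- The frozen type of S43 from `LowerConcl` for the model of the given witness. -/
theorem result_of_lowerConcl (P : FreyPackage) {N q : ℕ}
    (hcond : P.IsConductorLevel N) (hq : q.Prime) (hqN : q ∣ N)
    (W : WeierstrassCurve ℤ) (hW : W.IsIntegralModelOf P.freyCurve)
    (h : LowerConcl P.p N q W) :
    ∃ M : ℕ, M ∣ N ∧ ¬ q ∣ M ∧ P.ModularRepOfLevel M := by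
  obtain ⟨g, 𝔪, S, hg, hmax, hp, hcong⟩ := h
  have hNq : N / q * q = N := Nat.div_mul_cancel hqN
  have hqM : ¬ q ∣ N / q := by
    intro hd
    have : q * q ∣ N := by
      obtain ⟨k, hk⟩ := hd
      exact ⟨k, by rw [← hNq, hk]; ring⟩
    exact hcond.sq_not_dvd hq (by rwa [pow_two])
  refine ⟨N / q, Nat.div_dvd_of_dvd hqN, hqM, ?_⟩
  set m : ℤ := (q : ℤ) * ∏ s ∈ S, ((if s = 0 then 1 else s : ℕ) : ℤ) with hm
  have hm0 : m ≠ 0 := by
    rw [hm]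
    refine mul_ne_zero (by exact_mod_cast hq.ne_zero) ?_
    refine Finset.prod_ne_zero_iff.2 (fun s _ => ?_)
    split_ifs with h
    · norm_num
    · exact_mod_cast h
  have hqm : (q : ℤ) ∣ m := Dvd.intro _ rfl
  have hSm : ∀ s ∈ S, s ≠ 0 → ((s : ℕ) : ℤ) ∣ m := by
    intro s hs hs0
    rw [hm]
    refine Dvd.dvd.mul_left ?_ _
    have := Finset.dvd_prod_of_mem (fun s => ((if s = 0 then 1 else s : ℕ) : ℤ)) hs
    simpa [hs0] using this
  refine ⟨g, scaleModel W m, 𝔪, hg, scaleModel_isIntegralModelOf hW hm0, hmax, hp, ?_⟩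
  intro ℓ hℓ hgood hℓM hℓp
  obtain ⟨hℓm, hgood'⟩ := scaleModel_isGoodPrimeFor hℓ hgood
  have hℓq : ℓ ≠ q := by
    rintro rfl
    exact hℓm hqm
  have hℓS : ℓ ∉ S := by
    intro hs
    exact hℓm (hSm ℓ hs hℓ.ne_zero)
  have hℓN : ¬ ℓ ∣ N := by
    intro hd
    rw [← hNq] at hd
    rcases (Nat.Prime.dvd_mul hℓ).1 hd with h | h
    · exact hℓM h
    · exact hℓq ((Nat.prime_dvd_prime_iff_eq hℓ hq).1 h)
  obtain ⟨a, ha, hac⟩ := hcong ℓ hℓ hℓS hℓN hℓp hgood'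
  refine ⟨a, ha, ?_⟩
  rw [scaleModel_apOfModel W hℓ hℓm]
  exact hac

/-- **S43 from the three open leaves**: the Tate package mod `p` of `J₀(N)` (shared with S44),
the structure of `J₀(N)[p]` at `q ∥ N` (BAD_q), and the exceptional case (PIVOT).  The conclusion
is the frozen statement S43. -/
theorem result_of_leaves (h1 : Stmt_TateModP) (h2 : Stmt_BadQ) (h3 : Stmt_Pivot)
    (P : FreyPackage) {N q : ℕ}
    (hcond : P.IsConductorLevel N) (hq : q.Prime) (hq2 : q ≠ 2) (hqp : q ≠ P.p) (hqN : q ∣ N)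
    (hirr : GaloisRepIsIrreducible (K := AlgebraicClosure ℚ) ℚ P.freyCurve P.p)
    (hmod : P.ModularRepOfLevel N) (hunr : P.GaloisRepUnramifiedAt q) :
    ∃ M : ℕ, M ∣ N ∧ ¬ q ∣ M ∧ P.ModularRepOfLevel M := by
  obtain ⟨f, W, 𝔪, hf, hW, h𝔪, hp𝔪, hcong⟩ := hmod
  exact result_of_lowerConcl P hcond hq hqN W hW
    (lowerConcl_of h1 h2 h3 P hcond hq hq2 hqp hqN hirr hunr f W 𝔪 hf hW h𝔪 hp𝔪 hcong)

end Fermat.Agent.S43
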