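/-
S43, package BAD_q, level lowering slice: interface and wiring (cluster L, helper37).
Plan: `NOTES/plan/L_S43_BADQ.md`.

Setting: `N = M q`, `q ∤ M`, `A` a valuation ring of `ℚ̄` over `q`, `p ≥ 5` a prime, `p ≠ q`.
`w = wS q M a b hab hq` is the Atkin-Lehner involution `w_q` of `F_N · ℚ̄` (helper88), as a semilinear
automorphism; `K1 = InK1 A N p` (helper91) is the set of classes with a Kummer function which is
`≡ 1` for the Gauss valuation.

* `toric`           : the toric part `T = K1 ∩ w K1` of `J₀(N)[p]`, a `ZMod p`-submodule;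
* `Fin1`            : the finite part `G` (the reduction of the Kummer function has a divisor
                      divisible by `p`);
* `Stmt_WHecke`     : `w` commutes with the Hecke operators `T_ℓ`, `ℓ ∤ N`;
* `Stmt_FrobToric`  : every Frobenius at `A` acts on `T` as `ε q w`, `ε = ± 1`;
* `Stmt_CompEis`    : inertia-fixed, non-Eisenstein eigenvectors lie in `G`;
* `Stmt_Old`        : an eigenvector in `G` outside `K1` comes from level `N / q`;
* `badQ5_of_leaves` : the four leaves give `Stmt_BadQ5` (= `Stmt_BadQ` of `S43/Wiring2.lean` for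
                      `p ≥ 5`);
* `result_of_leaves5` : `Stmt_TateModP → Stmt_BadQ5 → Stmt_Pivot → <frozen type of S43>`.
-/
import Fermat.Agent.S43.Wiring2
import Fermat.Agent.BAD.Defs
import Fermat.Agent.BAD.H88_WqGal

set_option autoImplicit false
set_option synthInstance.maxHeartbeats 400000
set_option maxHeartbeats 1000000

noncomputable section

open AlgebraicCurve ModularCurve

namespace Fermat.Agent.S43.BadQ

open Fermat.Agent.BAD Fermat.Agent.S44 Fermat.Agent.S28.H73 Fermat.Agent.RED.H73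

/-! ## `K1` is a subgroup -/

section K1

variable (A : ValuationSubring (AlgebraicClosure ℚ)) (N n : ℕ)

/-- **The finite part**: the class `x` has a Kummer function which is a unit for the Gauss
valuation and whose reduction has a divisor divisible by `n`. -/
def Fin1 (x : JZero N) : Prop :=
  ∃ (D : Divisor.degZero (K := AlgebraicClosure ℚ) (F := ↥(FNbar N))) (f : ↥(gaussV A N)),
    x = Pic0.mk D ∧ gaussRes A N f ≠ 0 ∧
    (∀ P : Place (AlgebraicClosure ℚ) ↥(FNbar N),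
      (n : ℤ) * (D : Divisor (AlgebraicClosure ℚ) ↥(FNbar N)) P = P.ord ((f : ↥(FNbar N)))) ∧
    ∀ Q : Place (kV A) ↥(redField A (FNbar N) (hasScale_laurentBaseChange A N)),
      (n : ℤ) ∣ Q.ord (gaussRes A N f)

theorem inK1_zero : InK1 A N n (0 : JZero N) := by
  refine ⟨0, 1, rfl, map_one _, fun P => ?_⟩
  show (n : ℤ) * (0 : Divisor (AlgebraicClosure ℚ) ↥(FNbar N)) P = P.ord (1 : ↥(FNbar N))
  rw [Place.ord_one, Finsupp.zero_apply, mul_zero]

variable {A N n}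

theorem ne_zero_of_gaussRes_eq_one {f : ↥(gaussV A N)} (h : gaussRes A N f = 1) :
    (f : ↥(FNbar N)) ≠ 0 := by
  intro h0
  have : f = 0 := Subtype.ext h0
  rw [this, map_zero] at h
  exact zero_ne_one h

theorem InK1.add {x y : JZero N} (hx : InK1 A N n x) (hy : InK1 A N n y) :
    InK1 A N n (x + y) := by
  obtain ⟨D, f, rfl, hf, hD⟩ := hx
  obtain ⟨E, g, rfl, hg, hE⟩ := hy
  refine ⟨D + E, f * g, (Pic0.mk_add D E).symm, by rw [map_mul, hf, hg, mul_one], fun P => ?_⟩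
  have h1 : (((f * g : ↥(gaussV A N)) : ↥(FNbar N))) = (f : ↥(FNbar N)) * (g : ↥(FNbar N)) := rfl
  rw [h1, Place.ord_mul _ (ne_zero_of_gaussRes_eq_one hf) (ne_zero_of_gaussRes_eq_one hg),
    ← hD P, ← hE P]
  show (n : ℤ) * ((D : Divisor (AlgebraicClosure ℚ) ↥(FNbar N)) +
    (E : Divisor (AlgebraicClosure ℚ) ↥(FNbar N))) P = _
  rw [Finsupp.add_apply, mul_add]

theorem InK1.neg {x : JZero N} (hx : InK1 A N n x) : InK1 A N n (-x) := by
  obtain ⟨D, f, rfl, hf, hD⟩ := hx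
  have hf0 := ne_zero_of_gaussRes_eq_one hf
  have hu : IsUnit f := by
    by_contra hnu
    have hm : f ∈ IsLocalRing.maximalIdeal ↥(gaussV A N) := (IsLocalRing.mem_maximalIdeal f).2 hnu
    rw [← ker_gaussResF' A (hasScale_laurentBaseChange A N), RingHom.mem_ker] at hm
    have h0 : gaussRes A N f = 0 := hm
    rw [hf] at h0
    exact one_ne_zero h0
  obtain ⟨u, rfl⟩ := hu
  refine ⟨-D, ((u⁻¹ : (↥(gaussV A N))ˣ) : ↥(gaussV A N)), rfl, ?_, fun P => ?_⟩
  · have h1 : gaussRes A N ((u⁻¹ : (↥(gaussV A N))ˣ) : ↥(gaussV A N)) * gaussRes A N (u : ↥(gaussV A N)) = 1 := by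
      rw [← map_mul, Units.inv_mul, map_one]
    rw [hf, mul_one] at h1
    exact h1
  · have h2 : (((u⁻¹ : (↥(gaussV A N))ˣ) : ↥(gaussV A N)) : ↥(FNbar N)) =
        ((u : ↥(gaussV A N)) : ↥(FNbar N))⁻¹ := by
      have h3 : (((u⁻¹ : (↥(gaussV A N))ˣ) : ↥(gaussV A N)) : ↥(FNbar N)) *
          ((u : ↥(gaussV A N)) : ↥(FNbar N)) = 1 := by
        have := congrArg (fun z : ↥(gaussV A N) => (z : ↥(FNbar N))) (Units.inv_mul u)
        exact this
      exact eq_inv_of_mul_eq_one_left h3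
    rw [h2, Place.ord_inv, ← hD P]
    show (n : ℤ) * (-(D : Divisor (AlgebraicClosure ℚ) ↥(FNbar N))) P = _
    rw [Finsupp.neg_apply, mul_neg]

end K1

/-! ## The Atkin-Lehner involution on `J₀(M q)` -/

section W

variable (q M : ℕ) (a b : ℤ) (hab : a * q + b * M = 1) (hq : q.Prime) [NeZero (M * q)]

/-- `w_q` as a semilinear automorphism of `F_{M q} · ℚ̄`. -/
def wS : SemilinearAut (AlgebraicClosure ℚ) ↥(FNbar (M * q)) :=
  SemilinearAut.ofAlgAut (H88.wq q M a b hab hq)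

theorem wS_mul_self : wS q M a b hab hq * wS q M a b hab hq = 1 := by
  unfold wS
  rw [← map_mul]
  have h : H88.wq q M a b hab hq * H88.wq q M a b hab hq = 1 :=
    AlgEquiv.ext fun x => H88.wq_wq q M a b hab hq x
  rw [h, map_one]

theorem wS_comm_gal (σ : GalQ) :
    wS q M a b hab hq * galF (M * q) σ = galF (M * q) σ * wS q M a b hab hq := by
  apply Subtype.ext
  apply Prod.ext
  · apply RingEquiv.ext
    intro x
    exact H88.wq_arith q M a b hab hq σ x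
  · show (1 : RingAut (AlgebraicClosure ℚ)) * σ.toRingEquiv = σ.toRingEquiv * 1
    rw [one_mul, mul_one]

variable (p : ℕ)

/-- `w_q` on `J₀(M q)[p]`. -/
def wTors : Module.End (ZMod p) (JTors (M * q) p) :=
  SemilinearAut.torsionRep _ _ p (wS q M a b hab hq)

theorem coe_wTors_apply (x : JTors (M * q) p) :
    ((wTors q M a b hab hq p x : JTors (M * q) p) : JZero (M * q)) =
      wS q M a b hab hq • (x : JZero (M * q)) := rfl

theorem wTors_mul_self : wTors q M a b hab hq p * wTors q M a b hab hq p = 1 := by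
  unfold wTors
  rw [← map_mul, wS_mul_self, map_one]

theorem wTors_wTors (x : JTors (M * q) p) :
    wTors q M a b hab hq p (wTors q M a b hab hq p x) = x := by
  have := congrArg (fun f : Module.End (ZMod p) (JTors (M * q) p) => f x)
    (wTors_mul_self q M a b hab hq p)
  exact this

theorem wTors_comm_gal (σ : GQ) :
    wTors q M a b hab hq p * JZero.torsionGaloisRep (M * q) p σ =
      JZero.torsionGaloisRep (M * q) p σ * wTors q M a b hab hq p := by
  show SemilinearAut.torsionRep _ _ p (wS q M a b hab hq) *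
      SemilinearAut.torsionRep _ _ p (galF (M * q) σ) =
    SemilinearAut.torsionRep _ _ p (galF (M * q) σ) *
      SemilinearAut.torsionRep _ _ p (wS q M a b hab hq)
  rw [← map_mul, ← map_mul, wS_comm_gal]

variable (A : ValuationSubring (AlgebraicClosure ℚ))

/-- **The toric part** `T = K1 ∩ w K1` of `J₀(M q)[p]`, as a subgroup. -/
def toricAdd : AddSubgroup (JTors (M * q) p) where
  carrier := {x | InK1 A (M * q) p (x : JZero (M * q)) ∧
    InK1 A (M * q) p (wS q M a b hab hq • (x : JZero (M * q)))}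
  zero_mem' := by
    refine ⟨inK1_zero A (M * q) p, ?_⟩
    show InK1 A (M * q) p (wS q M a b hab hq • (0 : JZero (M * q)))
    rw [show wS q M a b hab hq • (0 : JZero (M * q)) = 0 from
      smul_zero (A := JZero (M * q)) (wS q M a b hab hq)]
    exact inK1_zero A (M * q) p
  add_mem' := by
    rintro x y ⟨hx, hx'⟩ ⟨hy, hy'⟩
    refine ⟨InK1.add hx hy, ?_⟩
    show InK1 A (M * q) p (wS q M a b hab hq • ((x : JZero (M * q)) + (y : JZero (M * q))))
    rw [show wS q M a b hab hq • ((x : JZero (M * q)) + (y : JZero (M * q))) =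
      wS q M a b hab hq • (x : JZero (M * q)) + wS q M a b hab hq • (y : JZero (M * q)) from
      smul_add (A := JZero (M * q)) (wS q M a b hab hq) _ _]
    exact InK1.add hx' hy'
  neg_mem' := by
    rintro x ⟨hx, hx'⟩
    refine ⟨InK1.neg hx, ?_⟩
    show InK1 A (M * q) p (wS q M a b hab hq • (-(x : JZero (M * q))))
    rw [show wS q M a b hab hq • (-(x : JZero (M * q))) =
      -(wS q M a b hab hq • (x : JZero (M * q))) from
      smul_neg (A := JZero (M * q)) (wS q M a b hab hq) _]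
    exact InK1.neg hx'

/-- **The toric part** `T = K1 ∩ w K1` of `J₀(M q)[p]`. -/
def toric : Submodule (ZMod p) (JTors (M * q) p) :=
  AddSubgroup.toZModSubmodule p (toricAdd q M a b hab hq p A)

theorem mem_toric_iff (x : JTors (M * q) p) :
    x ∈ toric q M a b hab hq p A ↔ InK1 A (M * q) p (x : JZero (M * q)) ∧
      InK1 A (M * q) p (wS q M a b hab hq • (x : JZero (M * q))) := Iff.rfl

end W

/-! ## The leaves -/

/-- **W-ACT (Hecke part).**  The Atkin-Lehner involution `w_q` commutes with the Hecke operators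
`T_ℓ`, `ℓ ∤ M q`, on `J₀(M q)`. -/
def Stmt_WHecke : Prop :=
  ∀ (q M : ℕ) (a b : ℤ) (hab : a * q + b * M = 1) (hq : q.Prime) [NeZero (M * q)]
    (ℓ : Nat.Primes), ¬ (ℓ : ℕ) ∣ M * q → ∀ x : JZero (M * q),
      heckeOperatorBar (M * q) ℓ (wS q M a b hab hq • x) =
        wS q M a b hab hq • heckeOperatorBar (M * q) ℓ x

/-- **FROB-T.**  There is a sign `ε = ± 1` such that every Frobenius element at a place `A` over
`q` acts on the toric part `T = K1 ∩ w K1` of `J₀(M q)[p]` as `ε q w_q`. -/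
def Stmt_FrobToric : Prop :=
  ∃ ε : ℤ, (ε = 1 ∨ ε = -1) ∧
    ∀ (p : ℕ), p.Prime → 5 ≤ p →
    ∀ (q M : ℕ) (a b : ℤ) (hab : a * q + b * M = 1) (hq : q.Prime) [NeZero (M * q)], q ≠ p →
    ∀ A : ValuationSubring (AlgebraicClosure ℚ), A.LiesOverPrime q →
    ∀ σ : GQ, A.IsFrobeniusAt σ q → ∀ x : JZero (M * q), (p : ℤ) • x = 0 →
      InK1 A (M * q) p x → InK1 A (M * q) p (wS q M a b hab hq • x) →
      σ • x = (ε * (q : ℤ)) • (wS q M a b hab hq • x)

/-- **COMP-EIS.**  An inertia-fixed common eigenvector of the Hecke operators in `J₀(N)[p]` which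
is not Eisenstein lies in the finite part (the component group is Eisenstein). -/
def Stmt_CompEis : Prop :=
  ∀ (p : ℕ), p.Prime → 5 ≤ p → ∀ (N : ℕ) [NeZero N] (q : ℕ), q.Prime → q ≠ p →
    q ∣ N → ¬ q ^ 2 ∣ N →
    ∀ A : ValuationSubring (AlgebraicClosure ℚ), A.LiesOverPrime q →
    ∀ (S : Finset ℕ) (t : ℕ → ℤ) (x : (jzModule N p).J),
      (∀ σ ∈ A.inertiaSubgroupIn ℚ, (jzModule N p).gal σ x = x) →
      (∀ ℓ : ℕ, ℓ.Prime → ℓ ∉ S → ¬ ℓ ∣ N → ℓ ≠ p →
        (jzModule N p).T ℓ x = ((t ℓ : ℤ) : ZMod p) • x) →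
      (∃ ℓ : ℕ, ℓ.Prime ∧ ℓ ∉ S ∧ ¬ ℓ ∣ N ∧ ℓ ≠ p ∧ ((t ℓ : ℤ) : ZMod p) ≠ 1 + (ℓ : ZMod p)) →
      Fin1 A N p (jzModule.pt N p x)

/-- **OLD.**  A common eigenvector of the Hecke operators in the finite part of `J₀(N)[p]` whose
reduction on the component of `∞` is not trivial comes from level `N / q`. -/
def Stmt_Old : Prop :=
  ∀ (p : ℕ), p.Prime → 5 ≤ p → ∀ (N : ℕ) [NeZero N] (q : ℕ), q.Prime → q ≠ p →
    q ∣ N → ¬ q ^ 2 ∣ N →
    ∀ A : ValuationSubring (AlgebraicClosure ℚ), A.LiesOverPrime q →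
    ∀ (S : Finset ℕ) (t : ℕ → ℤ) (x : (jzModule N p).J),
      Fin1 A N p (jzModule.pt N p x) → ¬ InK1 A N p (jzModule.pt N p x) →
      (∀ ℓ : ℕ, ℓ.Prime → ℓ ∉ S → ¬ ℓ ∣ N → ℓ ≠ p →
        (jzModule N p).T ℓ x = ((t ℓ : ℤ) : ZMod p) • x) →
      ∃ (g : CuspForm (CongruenceSubgroup.Gamma0 (N / q)) 2) (𝔪 : Ideal ZBar),
        g.IsNormalizedEigenform ∧ 𝔪.IsMaximal ∧ (p : ZBar) ∈ 𝔪 ∧
        ∀ ℓ : ℕ, ℓ.Prime → ℓ ∉ S → ¬ ℓ ∣ N → ℓ ≠ p →
          ∃ a : ZBar, (a : ℂ) = ModularFormClass.qCoeff g ℓ ∧ a - ((t ℓ : ℤ) : ZBar) ∈ 𝔪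

/-- **Package BAD_q (level lowering slice), `p ≥ 5`.** -/
def Stmt_BadQ5 : Prop :=
  ∀ (p : ℕ), p.Prime → 5 ≤ p → ∀ (N : ℕ) [NeZero N] (q : ℕ), q.Prime → q ≠ p →
    q ∣ N → ¬ q ^ 2 ∣ N →
    ∀ A : ValuationSubring (AlgebraicClosure ℚ), A.LiesOverPrime q →
      (jzModule N p).HasToricPartAt N q A

/-! ## The wiring -/

section Wiring

variable (q M : ℕ) (a b : ℤ) (hab : a * q + b * M = 1) (hq : q.Prime) [NeZero (M * q)] (p : ℕ)

/-- `w_q` commutes with the Hecke operators on `J₀(M q)[p]`. -/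
theorem wTors_T (hW : Stmt_WHecke) {ℓ : ℕ} (hℓ : ℓ.Prime) (hℓN : ¬ ℓ ∣ M * q)
    (x : (jzModule (M * q) p).J) :
    (jzModule (M * q) p).T ℓ (wTors q M a b hab hq p x) =
      wTors q M a b hab hq p ((jzModule (M * q) p).T ℓ x) := by
  rw [jzModule.T_eq (M * q) p hℓ hℓN]
  apply Subtype.ext
  exact hW q M a b hab hq ⟨ℓ, hℓ⟩ hℓN _

theorem wTors_gal (σ : GQ) (x : (jzModule (M * q) p).J) :
    (jzModule (M * q) p).gal σ (wTors q M a b hab hq p x) =
      wTors q M a b hab hq p ((jzModule (M * q) p).gal σ x) := by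
  have := congrArg (fun f : Module.End (ZMod p) (JTors (M * q) p) => f x)
    (wTors_comm_gal q M a b hab hq p σ)
  exact this.symm

/-- Scalar multiplication by an integer on the torsion module. -/
theorem coe_intCast_smul (N : ℕ) (k : ℤ) (x : JTors N p) :
    ((((k : ℤ) : ZMod p) • x : JTors N p) : JZero N) = k • (x : JZero N) := by
  rw [Int.cast_smul_eq_zsmul]
  rfl

variable (A : ValuationSubring (AlgebraicClosure ℚ))

include hab hq in
/-- **The wiring at level `M q`.** -/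
theorem hasToric_of_leaves (hW : Stmt_WHecke) (hF : Stmt_FrobToric) (hC : Stmt_CompEis)
    (hO : Stmt_Old) (hp : p.Prime) (hp5 : 5 ≤ p) (hqp : q ≠ p) (hqN : q ∣ M * q)
    (hq2 : ¬ q ^ 2 ∣ M * q) (hA : A.LiesOverPrime q) :
    (jzModule (M * q) p).HasToricPartAt (M * q) q A := by
  obtain ⟨ε, hε, hF⟩ := hF
  have hε2 : (((ε : ℤ) : ZMod p)) * ((ε : ℤ) : ZMod p) = 1 := by
    rcases hε with rfl | rfl <;> simp
  set w : Module.End (ZMod p) (JTors (M * q) p) := wTors q M a b hab hq p with hw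
  refine ⟨toric q M a b hab hq p A, ((ε : ℤ) : ZMod p) • w, ?_, ?_, ?_, ?_⟩
  · intro σ
    show (((ε : ℤ) : ZMod p) • w) * JZero.torsionGaloisRep (M * q) p σ =
      JZero.torsionGaloisRep (M * q) p σ * (((ε : ℤ) : ZMod p) • w)
    rw [smul_mul_assoc, mul_smul_comm, hw, wTors_comm_gal]
  · intro (x : JTors (M * q) p) hx
    have hx' := (mem_toric_iff q M a b hab hq p A x).1 hx
    have hwx : w x ∈ toric q M a b hab hq p A := by
      refine (mem_toric_iff q M a b hab hq p A (w x)).2 ⟨hx'.2, ?_⟩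
      have h1 : wS q M a b hab hq • ((w x : JTors (M * q) p) : JZero (M * q)) =
          ((w (w x) : JTors (M * q) p) : JZero (M * q)) := rfl
      rw [h1, hw, wTors_wTors]
      exact hx'.1
    constructor
    · exact (toric q M a b hab hq p A).smul_mem _ hwx
    · show ((ε : ℤ) : ZMod p) • w (((ε : ℤ) : ZMod p) • w x) = x
      rw [map_smul, smul_smul, hε2, one_smul, hw, wTors_wTors]
  · intro σ hσ (x : JTors (M * q) p) hx
    have hx' := (mem_toric_iff q M a b hab hq p A x).1 hx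
    have hx0 : (p : ℤ) • ((x : JTors (M * q) p) : JZero (M * q)) = 0 :=
      Pic0.mem_torsion.mp x.property
    have h := hF p hp hp5 q M a b hab hq hqp A hA σ hσ _ hx0 hx'.1 hx'.2
    show JZero.torsionGaloisRep (M * q) p σ x = (q : ZMod p) • (((ε : ℤ) : ZMod p) • w x)
    apply Subtype.ext
    rw [JZero.coe_torsionGaloisRep_apply, h, smul_smul]
    have h2 : (q : ZMod p) * ((ε : ℤ) : ZMod p) = (((ε * (q : ℤ) : ℤ)) : ZMod p) := by
      push_cast
      ring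
    rw [h2, coe_intCast_smul]
    rfl
  · intro S t x hxT hI hT hNE
    have hFx := hC p hp hp5 (M * q) q hq hqp hqN hq2 A hA S t x hI hT hNE
    by_cases h1 : InK1 A (M * q) p (jzModule.pt (M * q) p x)
    · -- then `w x ∉ K1`
      have h2 : ¬ InK1 A (M * q) p (jzModule.pt (M * q) p (w x)) := by
        intro h2
        exact hxT ((mem_toric_iff q M a b hab hq p A x).2 ⟨h1, h2⟩)
      have hI' : ∀ σ ∈ A.inertiaSubgroupIn ℚ, (jzModule (M * q) p).gal σ (w x) = w x := by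
        intro σ hσ
        rw [hw, wTors_gal, hI σ hσ]
      have hT' : ∀ ℓ : ℕ, ℓ.Prime → ℓ ∉ S → ¬ ℓ ∣ M * q → ℓ ≠ p →
          (jzModule (M * q) p).T ℓ (w x) = ((t ℓ : ℤ) : ZMod p) • w x := by
        intro ℓ hℓ hℓS hℓN hℓp
        rw [hw, wTors_T q M a b hab hq p hW hℓ hℓN, hT ℓ hℓ hℓS hℓN hℓp]
        exact map_smul (wTors q M a b hab hq p) _ _
      have hFw := hC p hp hp5 (M * q) q hq hqp hqN hq2 A hA S t (w x) hI' hT' hNE
      exact hO p hp hp5 (M * q) q hq hqp hqN hq2 A hA S t (w x) hFw h2 hT'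
    · exact hO p hp hp5 (M * q) q hq hqp hqN hq2 A hA S t x hFx h1 hT

end Wiring

/-- **`Stmt_BadQ5` from the four leaves.** -/
theorem badQ5_of_leaves (hW : Stmt_WHecke) (hF : Stmt_FrobToric) (hC : Stmt_CompEis)
    (hO : Stmt_Old) : Stmt_BadQ5 := by
  intro p hp hp5 N _ q hq hqp hqN hq2 A hA
  obtain ⟨M, rfl⟩ : ∃ M, N = M * q := ⟨N / q, (Nat.div_mul_cancel hqN).symm⟩
  have hqM : ¬ q ∣ M := by
    rintro ⟨k, rfl⟩
    exact hq2 ⟨k, by ring⟩
  have hcop : IsCoprime (q : ℤ) (M : ℤ) :=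
    Nat.isCoprime_iff_coprime.2 ((Nat.Prime.coprime_iff_not_dvd hq).2 hqM)
  obtain ⟨a, b, hab⟩ := hcop
  exact hasToric_of_leaves q M a b hab hq p A hW hF hC hO hp hp5 hqp hqN hq2 hA

/-! ## S43 from `Stmt_BadQ5` -/

section S43

open WeierstrassCurve WeierstrassCurve.Affine WeierstrassCurve.Affine.Point
open scoped WeierstrassCurve.Affine

/-- The core of S43 from the packages (`p ≥ 5` version of `S43.lowerConcl_of`). -/
theorem lowerConcl_of5 (h1 : Stmt_TateModP) (h2 : Stmt_BadQ5) (h3 : Stmt_Pivot)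
    (P : FreyPackage) {N q : ℕ} (hcond : P.IsConductorLevel N) (hq : q.Prime) (hq2 : q ≠ 2)
    (hqp : q ≠ P.p) (hqN : q ∣ N)
    (hirr : GaloisRepIsIrreducible (K := AlgebraicClosure ℚ) ℚ P.freyCurve P.p)
    (hunr : P.GaloisRepUnramifiedAt q)
    (f : CuspForm (CongruenceSubgroup.Gamma0 N) 2) (W : WeierstrassCurve ℤ)
    (𝔪 : Ideal (integralClosure ℤ ℂ)) (hf : f.IsNormalizedEigenform)
    (hW : W.IsIntegralModelOf P.freyCurve)
    (h𝔪 : 𝔪.IsMaximal) (hp𝔪 : (P.p : integralClosure ℤ ℂ) ∈ 𝔪)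
    (hcong : ∀ ℓ : ℕ, ℓ.Prime → W.IsGoodPrimeFor ℓ → ¬ ℓ ∣ N → ℓ ≠ P.p →
      ∃ a : integralClosure ℤ ℂ, (a : ℂ) = ModularFormClass.qCoeff f ℓ ∧
        a - ((W.apOfModel ℓ : ℤ) : integralClosure ℤ ℂ) ∈ 𝔪) :
    LowerConcl P.p N q W := by
  have hp : P.p.Prime := P.pp
  have hp5 : 5 ≤ P.p := P.hp5
  have hp2 : P.p ≠ 2 := by omega
  have hΔ : W.Δ ≠ 0 := integralModel_Δ_ne_zero P hW
  have : NeZero N := ⟨hcond.pos.ne'⟩
  obtain ⟨A, hAq⟩ := stmt_PlaceOver q hq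
  by_cases hexc : ∃ c : ZMod P.p, ∀ σ : GQ, A.IsFrobeniusAt σ q → ∀ v : Tors P.freyCurve P.p,
      galoisRepModuleEnd (S := ℚ) (K := AlgebraicClosure ℚ) P.freyCurve.toAffine P.p σ v = c • v
  · exact h3 P N q hcond hq hq2 hqp hqN hirr hunr f W 𝔪 hf hW h𝔪 hp𝔪 hcong A hAq hexc
  · obtain ⟨hcont, hES, hsupp⟩ := h1 P.p hp hp2 N
    set S : Finset ℕ := W.Δ.natAbs.primeFactors with hS
    have hgood : ∀ ℓ : ℕ, ℓ.Prime → ℓ ∉ S → W.IsGoodPrimeFor ℓ := fun ℓ hℓ h =>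
      prime_not_mem_of_good hℓ hΔ h
    obtain ⟨x, hx0, hx⟩ := hsupp f 𝔪 S (fun ℓ => W.apOfModel ℓ) hf h𝔪 hp𝔪
      (fun ℓ hℓ hℓS hℓN hℓp => hcong ℓ hℓ (hgood ℓ hℓ hℓS) hℓN hℓp)
    obtain ⟨ι, hinj, hequiv, hT⟩ := Fermat.Agent.L.H52.recovery P.p hp hp2 N hcond.pos
      (jzModule N P.p) hcont hES P.freyCurve W hW hirr S hgood x hx0 hx
    have hNE : ∃ ℓ : ℕ, ℓ.Prime ∧ ℓ ∉ S ∧ ¬ ℓ ∣ N ∧ ℓ ≠ P.p ∧
        ((W.apOfModel ℓ : ℤ) : ZMod P.p) ≠ 1 + (ℓ : ZMod P.p) := by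
      obtain ⟨ℓ, hℓ, hℓW, hℓN, hℓp, hne⟩ := stmt_NonEis P W hW N hcond.pos hirr
      refine ⟨ℓ, hℓ, ?_, hℓN, hℓp, hne⟩
      intro hmem
      rw [hS, Nat.mem_primeFactors] at hmem
      exact hℓW (Int.natCast_dvd.mpr hmem.2.1)
    have hq2N : ¬ q ^ 2 ∣ N := hcond.sq_not_dvd hq
    have hrem := removesQ_of_toric hp hp2 (jzModule N P.p) N q A
      (h2 P.p hp hp5 N q hq hqp hqN hq2N A hAq)
    obtain ⟨g, 𝔪', hg, h𝔪', hp𝔪', hgc⟩ := hrem (Tors P.freyCurve P.p)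
      (galoisRepModuleEnd (S := ℚ) (K := AlgebraicClosure ℚ) P.freyCurve.toAffine P.p)
      ι S (fun ℓ => W.apOfModel ℓ)
      (fun W' hW' => hirr.2 W' (fun σ x hx => hW' σ x hx))
      (fun σ hσ v => hunr A hAq σ hσ v)
      hexc hinj (fun σ v => hequiv σ v) hT hNE
    exact ⟨g, 𝔪', S, hg, h𝔪', hp𝔪', fun ℓ hℓ hℓS hℓN hℓp _ => hgc ℓ hℓ hℓS hℓN hℓp⟩

/-- **S43 from the Tate package mod `p`, BAD_q for `p ≥ 5` and PIVOT.**  The conclusion is the
frozen statement S43. -/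
theorem result_of_leaves5 (h1 : Stmt_TateModP) (h2 : Stmt_BadQ5) (h3 : Stmt_Pivot)
    (P : FreyPackage) {N q : ℕ}
    (hcond : P.IsConductorLevel N) (hq : q.Prime) (hq2 : q ≠ 2) (hqp : q ≠ P.p) (hqN : q ∣ N)
    (hirr : GaloisRepIsIrreducible (K := AlgebraicClosure ℚ) ℚ P.freyCurve P.p)
    (hmod : P.ModularRepOfLevel N) (hunr : P.GaloisRepUnramifiedAt q) :
    ∃ M : ℕ, M ∣ N ∧ ¬ q ∣ M ∧ P.ModularRepOfLevel M := by
  obtain ⟨f, W, 𝔪, hf, hW, h𝔪, hp𝔪, hcong⟩ := hmod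
  exact result_of_lowerConcl P hcond hq hqN W hW
    (lowerConcl_of5 h1 h2 h3 P hcond hq hq2 hqp hqN hirr hunr f W 𝔪 hf hW h𝔪 hp𝔪 hcong)

/-- **S43 from the leaves of BAD_q.** -/
theorem result_of_badq_leaves (h1 : Stmt_TateModP) (hW : Stmt_WHecke) (hF : Stmt_FrobToric)
    (hC : Stmt_CompEis) (hO : Stmt_Old) (h3 : Stmt_Pivot)
    (P : FreyPackage) {N q : ℕ}
    (hcond : P.IsConductorLevel N) (hq : q.Prime) (hq2 : q ≠ 2) (hqp : q ≠ P.p) (hqN : q ∣ N)
    (hirr : GaloisRepIsIrreducible (K := AlgebraicClosure ℚ) ℚ P.freyCurve P.p)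
    (hmod : P.ModularRepOfLevel N) (hunr : P.GaloisRepUnramifiedAt q) :
    ∃ M : ℕ, M ∣ N ∧ ¬ q ∣ M ∧ P.ModularRepOfLevel M :=
  result_of_leaves5 h1 (badQ5_of_leaves hW hF hC hO) h3 P hcond hq hq2 hqp hqN hirr hmod hunr

end S43

end Fermat.Agent.S43.BadQ
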