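/-
S43, package BAD_q, leaf FROB-T: assembly (cluster L, helper37).
Plan: `NOTES/plan/L_S43_BADQ.md`.

* `Stmt_ModSSDW` : the modular side: a semistable Deuring datum for `F_{M q} · ℚ̄` at a place `A`
  over `q` (as in helper91's `BAD.Stmt_ModSSD`) for which every Frobenius element `σ` at `A` and
  the Atkin-Lehner involution `w_q` form a Frobenius-swap pair (helper28's `SSD.IsFrobSwap`,
  exponent `q`).
* `frobToric_of : Stmt_ModSSDW → Stmt_FrobToric` (with the sign `ε = -1`), from helper28's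
  `H28.glueFrobW_two`.
-/
import Fermat.Agent.S43.BadQ
import Fermat.Agent.BAD.H28_GlueW
import Fermat.Agent.BAD.H91_Assemble

set_option autoImplicit false
set_option synthInstance.maxHeartbeats 400000
set_option maxHeartbeats 1000000

noncomputable section

open AlgebraicCurve ModularCurve

namespace Fermat.Agent.S43.BadQ

open Fermat.Agent.BAD Fermat.Agent.S44 Fermat.Agent.S28.H73 Fermat.Agent.RED.H73

/-- **The modular side of FROB-T at `(q, M, A)`**: a semistable Deuring datum for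
`F_{M q} · ℚ̄` at `A` for which every Frobenius element at `A` and `w_q` form a Frobenius-swap
pair of exponent `q`. -/
def ModSSDWAt (q M : ℕ) (a b : ℤ) (hab : a * q + b * M = 1) (hq : q.Prime) [NeZero (M * q)]
    (A : ValuationSubring (AlgebraicClosure ℚ)) : Prop :=
  ∃ (F₁ F₂ : Type) (_ : Field F₁) (_ : Algebra (kV A) F₁) (_ : Field F₂)
    (_ : Algebra (kV A) F₂)
    (S : SSD (AlgebraicClosure ℚ) ↥(FNbar (M * q)) (kV A) F₁ F₂)
    (_ : RED.H17.FFHyp (AlgebraicClosure ℚ) ↥(FNbar (M * q))) (_ : RED.H17.FFHyp (kV A) F₁)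
    (_ : RED.H17.FFHyp (kV A) F₂) (g g₁ g₂ : ℕ) (c c₁ c₂ : ℤ),
    RED.H17.IsGenus (AlgebraicClosure ℚ) ↥(FNbar (M * q)) g c ∧
    RED.H17.IsGenus (kV A) F₁ g₁ c₁ ∧ RED.H17.IsGenus (kV A) F₂ g₂ c₂ ∧
    g + 1 ≤ g₁ + g₂ + S.nodes.card ∧
    (∀ f : ↥(FNbar (M * q)), f ∈ gaussV A (M * q) → f ∈ S.c₁.V) ∧
    (∀ (f : ↥(gaussV A (M * q))) (hf : (f : ↥(FNbar (M * q))) ∈ S.c₁.V),
      gaussRes A (M * q) f = 1 → S.c₁.red ⟨(f : ↥(FNbar (M * q))), hf⟩ = 1) ∧
    ∀ σ : GQ, A.IsFrobeniusAt σ q →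
      ∃ (τ₁ : F₁ →+* F₁) (τ₂ : F₂ →+* F₂) (ι : F₁ →+* F₂) (ι' : F₂ →+* F₁),
        S.IsFrobSwap (galF (M * q) σ) (wS q M a b hab hq) τ₁ τ₂ ι ι' q

/-- **The modular side of FROB-T** (all levels). -/
def Stmt_ModSSDW : Prop :=
  ∀ (q M : ℕ) (a b : ℤ) (hab : a * q + b * M = 1) (hq : q.Prime) [NeZero (M * q)]
    (A : ValuationSubring (AlgebraicClosure ℚ)), A.LiesOverPrime q →
    ModSSDWAt q M a b hab hq A

/-- **The modular side of FROB-T at the tame levels** (where helper91's datum `modT` exists). -/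
def Stmt_ModSSDW_tame : Prop :=
  ∀ (q M : ℕ) (a b : ℤ) (hab : a * q + b * M = 1) (hq : q.Prime) [NeZero (M * q)],
    ¬ q ∣ M → (5 ≤ q ∨ (q = 3 ∧ 2 ∣ M) ∨ (q = 2 ∧ 3 ∣ M)) →
    ∀ A : ValuationSubring (AlgebraicClosure ℚ), A.LiesOverPrime q →
    ModSSDWAt q M a b hab hq A

/-- **FROB-T at `(p, q, M, A)`** with the sign `ε`. -/
def FrobToricAt (ε : ℤ) (p q M : ℕ) (a b : ℤ) (hab : a * q + b * M = 1) (hq : q.Prime)
    [NeZero (M * q)] (A : ValuationSubring (AlgebraicClosure ℚ)) : Prop :=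
  ∀ σ : GQ, A.IsFrobeniusAt σ q → ∀ x : JZero (M * q), (p : ℤ) • x = 0 →
    InK1 A (M * q) p x → InK1 A (M * q) p (wS q M a b hab hq • x) →
    σ • x = (ε * (q : ℤ)) • (wS q M a b hab hq • x)

/-- **FROB-T at the tame levels.** -/
def Stmt_FrobToric_tame : Prop :=
  ∀ (p : ℕ), p.Prime → 5 ≤ p →
    ∀ (q M : ℕ) (a b : ℤ) (hab : a * q + b * M = 1) (hq : q.Prime) [NeZero (M * q)], q ≠ p →
    ¬ q ∣ M → (5 ≤ q ∨ (q = 3 ∧ 2 ∣ M) ∨ (q = 2 ∧ 3 ∣ M)) →
    ∀ A : ValuationSubring (AlgebraicClosure ℚ), A.LiesOverPrime q →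
      FrobToricAt (-1) p q M a b hab hq A

/-- `Stmt_FrobToric` is FROB-T at all levels, with one sign. -/
theorem stmt_FrobToric_iff : Stmt_FrobToric ↔ ∃ ε : ℤ, (ε = 1 ∨ ε = -1) ∧
    ∀ (p : ℕ), p.Prime → 5 ≤ p →
    ∀ (q M : ℕ) (a b : ℤ) (hab : a * q + b * M = 1) (hq : q.Prime) [NeZero (M * q)], q ≠ p →
    ∀ A : ValuationSubring (AlgebraicClosure ℚ), A.LiesOverPrime q →
      FrobToricAt ε p q M a b hab hq A := Iff.rfl

section Aux

variable {K F : Type*} [Field K] [Field F] [Algebra K F]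

/-- the order of `g f` at `P` is the order of `f` at `g⁻¹ P`. -/
theorem ord_smul_eq (g : SemilinearAut K F) (P : Place K F) (f : F) :
    P.ord (g • f) = (g⁻¹ • P).ord f := by
  have h := SemilinearAut.ord_smul g (g⁻¹ • P) f
  rwa [smul_inv_smul] at h

theorem smul_ne_zero' (g : SemilinearAut K F) {f : F} (hf : f ≠ 0) : g • f ≠ 0 := by
  intro h0
  apply hf
  have h1 := congrArg (fun z => g⁻¹ • z) h0
  simp only [inv_smul_smul, smul_zero] at h1
  exact h1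

theorem ord_pow_nat (P : Place K F) (f : F) (n : ℕ) : P.ord (f ^ n) = (n : ℤ) * P.ord f := by
  have := Place.ord_zpow P f (n : ℤ)
  rwa [zpow_natCast] at this

end Aux

/-- **FROB-T from the modular datum, at one level**: every Frobenius at `A` acts on the toric
part as `- q w_q`. -/
theorem frobToricAt_of {p : ℕ} (hp : p.Prime) (q M : ℕ) (a b : ℤ) (hab : a * q + b * M = 1)
    (hq : q.Prime) [NeZero (M * q)] (hqp : q ≠ p)
    (A : ValuationSubring (AlgebraicClosure ℚ)) (hA : A.LiesOverPrime q)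
    (h : ModSSDWAt q M a b hab hq A) : FrobToricAt (-1) p q M a b hab hq A := by
  intro σ hσ x hx0 hK hK'
  obtain ⟨F₁, F₂, _, _, _, _, S, H, H₁, H₂, g, g₁, g₂, c, c₁, c₂, hR, hR₁, hR₂, hnum, hV, hred,
    hfs⟩ := h
  obtain ⟨τ₁, τ₂, ι, ι', hτ⟩ := hfs σ hσ
  obtain ⟨D, f, rfl, hf1, hD⟩ := hK
  obtain ⟨D', f', hx', hf'1, hD'⟩ := hK'
  have : IsAlgClosed (kV A) := isAlgClosed_kV A
  have hpk : ((p : ℕ) : kV A) ≠ 0 :=
    H91.natCast_kV_ne_zero A hq hA (fun hd => hqp ((Nat.prime_dvd_prime_iff_eq hq hp).1 hd))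
  have hp0 : (p : ℤ) ≠ 0 := by exact_mod_cast hp.ne_zero
  set W : SemilinearAut (AlgebraicClosure ℚ) ↥(FNbar (M * q)) := wS q M a b hab hq with hWdef
  have hWW : W * W = 1 := wS_mul_self q M a b hab hq
  have hWinv : W⁻¹ = W := inv_eq_of_mul_eq_one_left hWW
  have hf0 : ((f : ↥(gaussV A (M * q))) : ↥(FNbar (M * q))) ≠ 0 := ne_zero_of_gaussRes_eq_one hf1
  have hf'0 : ((f' : ↥(gaussV A (M * q))) : ↥(FNbar (M * q))) ≠ 0 :=
    ne_zero_of_gaussRes_eq_one hf'1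
  -- `D - W D'` is principal
  have h1 : (Pic0.mk D : JZero (M * q)) = W • (Pic0.mk D' : JZero (M * q)) := by
    rw [← hx', ← mul_smul, hWW, one_smul]
  have h2 : (Pic0.mk (D - SemilinearAut.degZeroSMulHom W D') : JZero (M * q)) = 0 := by
    have : (Pic0.mk (D - SemilinearAut.degZeroSMulHom W D') : JZero (M * q)) =
        Pic0.mk D - W • (Pic0.mk D' : JZero (M * q)) := by
      rw [SemilinearAut.pic0_smul_mk]; rfl
    rw [this, h1, sub_self]
  have h3 := (QuotientAddGroup.eq_zero_iff _).1 h2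
  rw [AddSubgroup.mem_addSubgroupOf] at h3
  obtain ⟨θ, hθ0, hθ⟩ := h3
  have hθP : ∀ P : Place (AlgebraicClosure ℚ) ↥(FNbar (M * q)),
      P.ord θ = (D : Divisor (AlgebraicClosure ℚ) ↥(FNbar (M * q))) P -
        (D' : Divisor (AlgebraicClosure ℚ) ↥(FNbar (M * q))) (W⁻¹ • P) := by
    intro P
    rw [← hθ P, AddSubgroup.coe_sub, SemilinearAut.coe_degZeroSMulHom, Finsupp.sub_apply,
      SemilinearAut.divisor_smul_apply]
  have hWf'0 : W • ((f' : ↥(gaussV A (M * q))) : ↥(FNbar (M * q))) ≠ 0 := smul_ne_zero' W hf'0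
  -- the constant
  set G : ↥(FNbar (M * q)) := (f : ↥(FNbar (M * q))) *
    (θ ^ p * (W • ((f' : ↥(gaussV A (M * q))) : ↥(FNbar (M * q)))))⁻¹ with hG
  have hden0 : θ ^ p * (W • ((f' : ↥(gaussV A (M * q))) : ↥(FNbar (M * q)))) ≠ 0 :=
    mul_ne_zero (pow_ne_zero _ hθ0) hWf'0
  have hGord : ∀ P : Place (AlgebraicClosure ℚ) ↥(FNbar (M * q)), P.ord G = 0 := by
    intro P
    rw [hG, Place.ord_mul _ hf0 (inv_ne_zero hden0), Place.ord_inv,
      Place.ord_mul _ (pow_ne_zero _ hθ0) hWf'0, ord_pow_nat, ord_smul_eq, ← hD P,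
      ← hD' (W⁻¹ • P), hθP P]
    ring
  obtain ⟨c₀, hc₀⟩ := H.const_of_regular (fun P => (hGord P).ge)
  have hG0 : G ≠ 0 := mul_ne_zero hf0 (inv_ne_zero hden0)
  have hc₀0 : c₀ ≠ 0 := by
    rintro rfl
    rw [map_zero] at hc₀
    exact hG0 hc₀
  have hrel : (f : ↥(FNbar (M * q))) = algebraMap (AlgebraicClosure ℚ) ↥(FNbar (M * q)) c₀ *
      θ ^ p * (W • ((f' : ↥(gaussV A (M * q))) : ↥(FNbar (M * q)))) := by
    rw [← hc₀, hG, mul_assoc, inv_mul_cancel_right₀ hden0]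
  -- membership and reductions
  have hfm : (f : ↥(FNbar (M * q))) ∈ S.c₁.V := hV _ f.2
  have hf'm : (f' : ↥(FNbar (M * q))) ∈ S.c₁.V := hV _ f'.2
  have hfr : S.c₁.rd (f : ↥(FNbar (M * q))) = 1 := by
    rw [S.c₁.rd_of_mem hfm]; exact hred f hfm hf1
  have hf'r : S.c₁.rd (f' : ↥(FNbar (M * q))) = 1 := by
    rw [S.c₁.rd_of_mem hf'm]; exact hred f' hf'm hf'1
  obtain ⟨t, ht⟩ := H28.glueFrobW_two S H H₁ H₂ g g₁ g₂ c c₁ c₂ hR hR₁ hR₂ hnum p hpk
    (galF (M * q) σ) W τ₁ τ₂ ι ι' q hτ (f : ↥(FNbar (M * q))) (f' : ↥(FNbar (M * q))) θ c₀ hc₀0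
    hθ0 hfm hfr hf'm hf'r hrel (fun P => ⟨_, (hD P).symm⟩)
  -- the divisor `σ D + q W D` is `div t`
  have hσf0 : galF (M * q) σ • (f : ↥(FNbar (M * q))) ≠ 0 := smul_ne_zero' _ hf0
  have hWf0 : W • (f : ↥(FNbar (M * q))) ≠ 0 := smul_ne_zero' W hf0
  have ht0 : t ≠ 0 := by
    rintro rfl
    rw [zero_pow hp.ne_zero] at ht
    exact (mul_ne_zero hσf0 (pow_ne_zero _ hWf0)) ht.symm
  set E : Divisor.degZero (K := AlgebraicClosure ℚ) (F := ↥(FNbar (M * q))) :=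
    SemilinearAut.degZeroSMulHom (galF (M * q) σ) D + q • SemilinearAut.degZeroSMulHom W D with hE
  have hprin : ((E : Divisor.degZero (K := AlgebraicClosure ℚ) (F := ↥(FNbar (M * q)))) :
      Divisor (AlgebraicClosure ℚ) ↥(FNbar (M * q))) ∈
      Divisor.principal (K := AlgebraicClosure ℚ) (F := ↥(FNbar (M * q))) := by
    refine ⟨t, ht0, fun P => ?_⟩
    have e : ((E : Divisor.degZero (K := AlgebraicClosure ℚ) (F := ↥(FNbar (M * q)))) :
        Divisor (AlgebraicClosure ℚ) ↥(FNbar (M * q))) P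
        = (D : Divisor (AlgebraicClosure ℚ) ↥(FNbar (M * q))) ((galF (M * q) σ)⁻¹ • P)
          + (q : ℤ) * (D : Divisor (AlgebraicClosure ℚ) ↥(FNbar (M * q))) (W⁻¹ • P) := by
      rw [hE, AddSubgroup.coe_add, AddSubgroup.coe_nsmul, SemilinearAut.coe_degZeroSMulHom,
        SemilinearAut.coe_degZeroSMulHom, Finsupp.add_apply, Finsupp.smul_apply,
        SemilinearAut.divisor_smul_apply, SemilinearAut.divisor_smul_apply, nsmul_eq_mul]
    rw [e]
    apply mul_left_cancel₀ hp0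
    rw [← ord_pow_nat, ht, Place.ord_mul _ hσf0 (pow_ne_zero _ hWf0), ord_pow_nat, ord_smul_eq,
      ord_smul_eq, ← hD, ← hD]
    ring
  have hzero : (Pic0.mk E : JZero (M * q)) = 0 :=
    (QuotientAddGroup.eq_zero_iff _).2 (AddSubgroup.mem_addSubgroupOf.2 hprin)
  have hsum : σ • (Pic0.mk D : JZero (M * q)) + (q : ℤ) • (W • (Pic0.mk D : JZero (M * q))) = 0 := by
    have e1 : σ • (Pic0.mk D : JZero (M * q)) =
        Pic0.mk (SemilinearAut.degZeroSMulHom (galF (M * q) σ) D) := rfl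
    have e2 : W • (Pic0.mk D : JZero (M * q)) = Pic0.mk (SemilinearAut.degZeroSMulHom W D) := rfl
    rw [e1, e2, ← hzero, hE]
    rw [Pic0.mk_add]
    congr 1
  have hfin : σ • (Pic0.mk D : JZero (M * q)) = -((q : ℤ) • (W • (Pic0.mk D : JZero (M * q)))) :=
    eq_neg_of_add_eq_zero_left hsum
  rw [hfin, neg_one_mul, neg_smul]

/-- **FROB-T from the modular datum** (all levels). -/
theorem frobToric_of (h : Stmt_ModSSDW) : Stmt_FrobToric :=
  ⟨-1, Or.inr rfl, fun _ hp _ q M a b hab hq _ hqp A hA =>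
    frobToricAt_of hp q M a b hab hq hqp A hA (h q M a b hab hq A hA)⟩

/-- **FROB-T at the tame levels from the modular datum at the tame levels.** -/
theorem frobToric_tame_of (h : Stmt_ModSSDW_tame) : Stmt_FrobToric_tame :=
  fun _ hp _ q M a b hab hq _ hqp hqM ht A hA =>
    frobToricAt_of hp q M a b hab hq hqp A hA (h q M a b hab hq hqM ht A hA)

/-- **FROB-T from FROB-T at all levels** (the descent from the tame levels is helper91's
`BAD/H91_DescW.lean`). -/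
theorem frobToric_of_at
    (h : ∀ (p : ℕ), p.Prime → 5 ≤ p →
      ∀ (q M : ℕ) (a b : ℤ) (hab : a * q + b * M = 1) (hq : q.Prime) [NeZero (M * q)], q ≠ p →
      ∀ A : ValuationSubring (AlgebraicClosure ℚ), A.LiesOverPrime q →
        FrobToricAt (-1) p q M a b hab hq A) : Stmt_FrobToric :=
  ⟨-1, Or.inr rfl, h⟩

end Fermat.Agent.S43.BadQ
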