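/-
S43 (row 37), package BAD_q: the wiring in PER-LEVEL form, for odd `q` and squarefree levels
(cluster L, helper37).  Plan: `NOTES/plan/L_S43_BADQ.md`.

The frozen statement S43 uses BAD_q only for `p ≥ 5`, `q` odd, `q ≠ p` and a squarefree level
`N = M q`.  The leaves are therefore needed in the following per-level forms only:

* `FrobToricAt (-1) p q M a b hab hq A`   (`S43/FrobToric.lean`);
* `CompEisAt p N A`  : the component group at `A` is Eisenstein;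
* `OldAt p N q A`    : the finite part modulo `K1` is old.

`result_of_at` : these three (for `q ≠ 2`, `N` squarefree) and PIVOT give the frozen statement
S43.  The Tate package mod `p` (helper93) and W-HECKE (helper88) are plugged in.
-/
import Fermat.Agent.S43.FrobToric
import Fermat.Agent.S43.H88_WHecke
import Fermat.Agent.S44.TateModP3

set_option autoImplicit false
set_option synthInstance.maxHeartbeats 400000
set_option maxHeartbeats 1000000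

noncomputable section

open AlgebraicCurve ModularCurve

namespace Fermat.Agent.S43.BadQ

open Fermat.Agent.BAD Fermat.Agent.S44 Fermat.Agent.L

/-- **COMP-EIS at `(p, N, A)`.** -/
def CompEisAt (p N : ℕ) [NeZero N] (A : ValuationSubring (AlgebraicClosure ℚ)) : Prop :=
  ∀ (S : Finset ℕ) (t : ℕ → ℤ) (x : (jzModule N p).J),
    (∀ σ ∈ A.inertiaSubgroupIn ℚ, (jzModule N p).gal σ x = x) →
    (∀ ℓ : ℕ, ℓ.Prime → ℓ ∉ S → ¬ ℓ ∣ N → ℓ ≠ p →
      (jzModule N p).T ℓ x = ((t ℓ : ℤ) : ZMod p) • x) →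
    (∃ ℓ : ℕ, ℓ.Prime ∧ ℓ ∉ S ∧ ¬ ℓ ∣ N ∧ ℓ ≠ p ∧ ((t ℓ : ℤ) : ZMod p) ≠ 1 + (ℓ : ZMod p)) →
    Fin1 A N p (jzModule.pt N p x)

/-- **OLD at `(p, N, q, A)`.** -/
def OldAt (p N q : ℕ) [NeZero N] (A : ValuationSubring (AlgebraicClosure ℚ)) : Prop :=
  ∀ (S : Finset ℕ) (t : ℕ → ℤ) (x : (jzModule N p).J),
    Fin1 A N p (jzModule.pt N p x) → ¬ InK1 A N p (jzModule.pt N p x) →
    (∀ ℓ : ℕ, ℓ.Prime → ℓ ∉ S → ¬ ℓ ∣ N → ℓ ≠ p →
      (jzModule N p).T ℓ x = ((t ℓ : ℤ) : ZMod p) • x) →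
    ∃ (g : CuspForm (CongruenceSubgroup.Gamma0 (N / q)) 2) (𝔪 : Ideal ZBar),
      g.IsNormalizedEigenform ∧ 𝔪.IsMaximal ∧ (p : ZBar) ∈ 𝔪 ∧
      ∀ ℓ : ℕ, ℓ.Prime → ℓ ∉ S → ¬ ℓ ∣ N → ℓ ≠ p →
        ∃ a : ZBar, (a : ℂ) = ModularFormClass.qCoeff g ℓ ∧ a - ((t ℓ : ℤ) : ZBar) ∈ 𝔪

theorem stmt_CompEis_iff : Stmt_CompEis ↔
    ∀ (p : ℕ), p.Prime → 5 ≤ p → ∀ (N : ℕ) [NeZero N] (q : ℕ), q.Prime → q ≠ p →
      q ∣ N → ¬ q ^ 2 ∣ N →
      ∀ A : ValuationSubring (AlgebraicClosure ℚ), A.LiesOverPrime q → CompEisAt p N A :=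
  Iff.rfl

theorem stmt_Old_iff : Stmt_Old ↔
    ∀ (p : ℕ), p.Prime → 5 ≤ p → ∀ (N : ℕ) [NeZero N] (q : ℕ), q.Prime → q ≠ p →
      q ∣ N → ¬ q ^ 2 ∣ N →
      ∀ A : ValuationSubring (AlgebraicClosure ℚ), A.LiesOverPrime q → OldAt p N q A :=
  Iff.rfl

section Wiring

variable (q M : ℕ) (a b : ℤ) (hab : a * q + b * M = 1) (hq : q.Prime) [NeZero (M * q)] (p : ℕ)
  (A : ValuationSubring (AlgebraicClosure ℚ))

include hab hq in
/-- **The wiring at level `M q`, per-level form.** -/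
theorem hasToricAt_of (hW : Stmt_WHecke) {ε : ℤ} (hε : ε = 1 ∨ ε = -1)
    (hF : FrobToricAt ε p q M a b hab hq A) (hC : CompEisAt p (M * q) A)
    (hO : OldAt p (M * q) q A) :
    (jzModule (M * q) p).HasToricPartAt (M * q) q A := by
  have hε2 : (((ε : ℤ) : ZMod p)) * ((ε : ℤ) : ZMod p) = 1 := by
    rcases hε with rfl | rfl <;> simp
  set w : Module.End (ZMod p) (JTors (M * q) p) := wTors q M a b hab hq p with hw
  refine ⟨toric q M a b hab hq p A, ((ε : ℤ) : ZMod p) • w, ?_, ?_, ?_, ?_⟩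
  · intro σ
    show (((ε : ℤ) : ZMod p) • w) * JZero.torsionGaloisRep (M * q) p σ =
      JZero.torsionGaloisRep (M * q) p σ * (((ε : ℤ) : ZMod p) • w)
    rw [smul_mul_assoc, mul_smul_comm, hw, wTors_comm_gal]
  · intro (x : JTors (M * q) p) hx
    have hx' := (mem_toric_iff q M a b hab hq p A x).1 hx
    have hwx : w x ∈ toric q M a b hab hq p A := by
      refine (mem_toric_iff q M a b hab hq p A (w x)).2 ⟨hx'.2, ?_⟩
      have h1 : wS q M a b hab hq • ((w x : JTors (M * q) p) : JZero (M * q)) =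
          ((w (w x) : JTors (M * q) p) : JZero (M * q)) := rfl
      rw [h1, hw, wTors_wTors]
      exact hx'.1
    constructor
    · exact (toric q M a b hab hq p A).smul_mem _ hwx
    · show ((ε : ℤ) : ZMod p) • w (((ε : ℤ) : ZMod p) • w x) = x
      rw [map_smul, smul_smul, hε2, one_smul, hw, wTors_wTors]
  · intro σ hσ (x : JTors (M * q) p) hx
    have hx' := (mem_toric_iff q M a b hab hq p A x).1 hx
    have hx0 : (p : ℤ) • ((x : JTors (M * q) p) : JZero (M * q)) = 0 :=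
      Pic0.mem_torsion.mp x.property
    have h := hF σ hσ _ hx0 hx'.1 hx'.2
    show JZero.torsionGaloisRep (M * q) p σ x = (q : ZMod p) • (((ε : ℤ) : ZMod p) • w x)
    apply Subtype.ext
    rw [JZero.coe_torsionGaloisRep_apply, h, smul_smul]
    have h2 : (q : ZMod p) * ((ε : ℤ) : ZMod p) = (((ε * (q : ℤ) : ℤ)) : ZMod p) := by
      push_cast
      ring
    rw [h2, coe_intCast_smul]
    rfl
  · intro S t x hxT hI hT hNE
    have hFx := hC S t x hI hT hNE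
    by_cases h1 : InK1 A (M * q) p (jzModule.pt (M * q) p x)
    · -- then `w x ∉ K1`
      have h2 : ¬ InK1 A (M * q) p (jzModule.pt (M * q) p (w x)) := by
        intro h2
        exact hxT ((mem_toric_iff q M a b hab hq p A x).2 ⟨h1, h2⟩)
      have hI' : ∀ σ ∈ A.inertiaSubgroupIn ℚ, (jzModule (M * q) p).gal σ (w x) = w x := by
        intro σ hσ
        rw [hw, wTors_gal, hI σ hσ]
      have hT' : ∀ ℓ : ℕ, ℓ.Prime → ℓ ∉ S → ¬ ℓ ∣ M * q → ℓ ≠ p →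
          (jzModule (M * q) p).T ℓ (w x) = ((t ℓ : ℤ) : ZMod p) • w x := by
        intro ℓ hℓ hℓS hℓN hℓp
        rw [hw, wTors_T q M a b hab hq p hW hℓ hℓN, hT ℓ hℓ hℓS hℓN hℓp]
        exact map_smul (wTors q M a b hab hq p) _ _
      have hFw := hC S t (w x) hI' hT' hNE
      exact hO S t (w x) hFw h2 hT'
    · exact hO S t x hFx h1 hT

end Wiring

/-- **Package BAD_q for S43**: `p ≥ 5`, `q` odd, `N` squarefree. -/
def Stmt_BadQ5odd : Prop :=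
  ∀ (p : ℕ), p.Prime → 5 ≤ p → ∀ (N : ℕ) [NeZero N] (q : ℕ), q.Prime → q ≠ 2 → q ≠ p →
    q ∣ N → Squarefree N →
    ∀ A : ValuationSubring (AlgebraicClosure ℚ), A.LiesOverPrime q →
      (jzModule N p).HasToricPartAt N q A

/-- The three leaves in the form needed by S43. -/
def Stmt_FrobToricOdd : Prop :=
  ∀ (p : ℕ), p.Prime → 5 ≤ p →
    ∀ (q M : ℕ) (a b : ℤ) (hab : a * q + b * M = 1) (hq : q.Prime) [NeZero (M * q)],
    q ≠ 2 → q ≠ p → Squarefree (M * q) →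
    ∀ A : ValuationSubring (AlgebraicClosure ℚ), A.LiesOverPrime q →
      FrobToricAt (-1) p q M a b hab hq A

def Stmt_CompEisOdd : Prop :=
  ∀ (p : ℕ), p.Prime → 5 ≤ p → ∀ (N : ℕ) [NeZero N] (q : ℕ), q.Prime → q ≠ 2 → q ≠ p →
    q ∣ N → Squarefree N →
    ∀ A : ValuationSubring (AlgebraicClosure ℚ), A.LiesOverPrime q → CompEisAt p N A

def Stmt_OldOdd : Prop :=
  ∀ (p : ℕ), p.Prime → 5 ≤ p → ∀ (N : ℕ) [NeZero N] (q : ℕ), q.Prime → q ≠ 2 → q ≠ p →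
    q ∣ N → Squarefree N →
    ∀ A : ValuationSubring (AlgebraicClosure ℚ), A.LiesOverPrime q → OldAt p N q A

/-- The tame case of `Stmt_FrobToricOdd` is `Stmt_FrobToric_tame`; the remaining case
`q = 3`, `M` odd is the descent from level `2 M q` (helper91, `BAD/H91_DescW.lean`). -/
theorem frobToricOdd_of_tame (h : Stmt_FrobToric_tame)
    (hdesc : ∀ (p : ℕ), p.Prime → 5 ≤ p →
      ∀ (M : ℕ) (a b : ℤ) (hab : a * 3 + b * M = 1) (hq : Nat.Prime 3) [NeZero (M * 3)],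
      3 ≠ p → ¬ 2 ∣ M → Squarefree (M * 3) →
      ∀ A : ValuationSubring (AlgebraicClosure ℚ), A.LiesOverPrime 3 →
        FrobToricAt (-1) p 3 M a b hab hq A) : Stmt_FrobToricOdd := by
  intro p hp hp5 q M a b hab hq _ hq2 hqp hsq A hA
  have hqM : ¬ q ∣ M := by
    rintro ⟨k, rfl⟩
    exact hq.not_isUnit (hsq q ⟨k, by ring⟩)
  by_cases h5 : 5 ≤ q
  · exact h p hp hp5 q M a b hab hq hqp hqM (Or.inl h5) A hA
  have hq3 : q = 3 := by
    have h2 := hq.two_le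
    have h4 : q ≠ 4 := by
      rintro rfl
      exact absurd hq (by decide)
    omega
  subst hq3
  by_cases h2M : 2 ∣ M
  · exact h p hp hp5 3 M a b hab hq hqp hqM (Or.inr (Or.inl ⟨rfl, h2M⟩)) A hA
  · exact hdesc p hp hp5 M a b hab hq hqp h2M hsq A hA

/-- **FROB-DESC** (descent of FROB-T to the only non-tame case of S43): FROB-T at the level
`3 M`, `M` odd, from FROB-T at the tame levels (in fact from the level `3 (2 M)`).

Proof (Kummer form, as `BAD.H91.b1core_descend`): `x = [D]`, `p D = div f`, `w x = [D']`,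
`p D' = div f'`, `f, f'` Gauss units with residue `1` in `F_{3M} ⊆ F_{6M}`.  The same functions
define classes `x₂, w x₂ ∈ K1` at level `6 M` (orders are multiplied by the ramification indices;
the Gauss valuation and `w_3` of level `6 M` restrict to those of level `3 M`).  FROB-T at level
`6 M` gives `t₂ ∈ F_{6M}` with `t₂ ^ p = c (σ f) (w f) ^ 3`; Kummer descent
(`RED.KD.H22.stmt_KD`, `6 M ∣ 36 · 3 M`) gives `t ∈ F_{3M}`, i.e. `σ x + 3 w x = 0`. -/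
def Stmt_FrobDesc : Prop :=
  Stmt_FrobToric_tame →
    ∀ (p : ℕ), p.Prime → 5 ≤ p →
      ∀ (M : ℕ) (a b : ℤ) (hab : a * 3 + b * M = 1) (hq : Nat.Prime 3) [NeZero (M * 3)],
      3 ≠ p → ¬ 2 ∣ M → Squarefree (M * 3) →
      ∀ A : ValuationSubring (AlgebraicClosure ℚ), A.LiesOverPrime 3 →
        FrobToricAt (-1) p 3 M a b hab hq A

/-- FROB-T in the form needed by S43 from the tame levels and the descent. -/
theorem frobToricOdd_of_tame_desc (h : Stmt_FrobToric_tame) (hd : Stmt_FrobDesc) :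
    Stmt_FrobToricOdd :=
  frobToricOdd_of_tame h (hd h)

/-- **S43 from the modular datum at the tame levels, the descent, COMP-EIS, OLD and PIVOT.** -/
theorem frobToricOdd_of_modSSDW_tame (h : Stmt_ModSSDW_tame) (hd : Stmt_FrobDesc) :
    Stmt_FrobToricOdd :=
  frobToricOdd_of_tame_desc (frobToric_tame_of h) hd

theorem compEisOdd_of (h : Stmt_CompEis) : Stmt_CompEisOdd :=
  fun p hp hp5 N _ q hq _ hqp hqN hsq A hA =>
    h p hp hp5 N q hq hqp hqN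
      (fun h2 => hq.not_isUnit ((hsq q) (by rwa [pow_two] at h2))) A hA

theorem oldOdd_of (h : Stmt_Old) : Stmt_OldOdd :=
  fun p hp hp5 N _ q hq _ hqp hqN hsq A hA =>
    h p hp hp5 N q hq hqp hqN
      (fun h2 => hq.not_isUnit ((hsq q) (by rwa [pow_two] at h2))) A hA

/-- **`Stmt_BadQ5odd` from the three leaves.** -/
theorem badQ5odd_of_at (hF : Stmt_FrobToricOdd) (hC : Stmt_CompEisOdd) (hO : Stmt_OldOdd) :
    Stmt_BadQ5odd := by
  intro p hp hp5 N _ q hq hq2 hqp hqN hsq A hA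
  obtain ⟨M, rfl⟩ : ∃ M, N = M * q := ⟨N / q, (Nat.div_mul_cancel hqN).symm⟩
  have hqM : ¬ q ∣ M := by
    rintro ⟨k, rfl⟩
    exact hq.not_isUnit (hsq q ⟨k, by ring⟩)
  have hcop : IsCoprime (q : ℤ) (M : ℤ) :=
    Nat.isCoprime_iff_coprime.2 ((Nat.Prime.coprime_iff_not_dvd hq).2 hqM)
  obtain ⟨a, b, hab⟩ := hcop
  exact hasToricAt_of q M a b hab hq p A Fermat.Agent.S43.H88.stmt_WHecke (Or.inr rfl)
    (hF p hp hp5 q M a b hab hq hq2 hqp hsq A hA) (hC p hp hp5 (M * q) q hq hq2 hqp hqN hsq A hA)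
    (hO p hp hp5 (M * q) q hq hq2 hqp hqN hsq A hA)

section S43

open WeierstrassCurve WeierstrassCurve.Affine WeierstrassCurve.Affine.Point
open scoped WeierstrassCurve.Affine

/-- The core of S43 from the packages (odd `q`, squarefree level). -/
theorem lowerConcl_of5odd (h1 : Stmt_TateModP) (h2 : Stmt_BadQ5odd) (h3 : Stmt_Pivot)
    (P : FreyPackage) {N q : ℕ} (hcond : P.IsConductorLevel N) (hq : q.Prime) (hq2 : q ≠ 2)
    (hqp : q ≠ P.p) (hqN : q ∣ N)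
    (hirr : GaloisRepIsIrreducible (K := AlgebraicClosure ℚ) ℚ P.freyCurve P.p)
    (hunr : P.GaloisRepUnramifiedAt q)
    (f : CuspForm (CongruenceSubgroup.Gamma0 N) 2) (W : WeierstrassCurve ℤ)
    (𝔪 : Ideal (integralClosure ℤ ℂ)) (hf : f.IsNormalizedEigenform)
    (hW : W.IsIntegralModelOf P.freyCurve)
    (h𝔪 : 𝔪.IsMaximal) (hp𝔪 : (P.p : integralClosure ℤ ℂ) ∈ 𝔪)
    (hcong : ∀ ℓ : ℕ, ℓ.Prime → W.IsGoodPrimeFor ℓ → ¬ ℓ ∣ N → ℓ ≠ P.p →
      ∃ a : integralClosure ℤ ℂ, (a : ℂ) = ModularFormClass.qCoeff f ℓ ∧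
        a - ((W.apOfModel ℓ : ℤ) : integralClosure ℤ ℂ) ∈ 𝔪) :
    LowerConcl P.p N q W := by
  have hp : P.p.Prime := P.pp
  have hp5 : 5 ≤ P.p := P.hp5
  have hp2 : P.p ≠ 2 := by omega
  have hΔ : W.Δ ≠ 0 := integralModel_Δ_ne_zero P hW
  have : NeZero N := ⟨hcond.pos.ne'⟩
  obtain ⟨A, hAq⟩ := stmt_PlaceOver q hq
  by_cases hexc : ∃ c : ZMod P.p, ∀ σ : GQ, A.IsFrobeniusAt σ q → ∀ v : Tors P.freyCurve P.p,
      galoisRepModuleEnd (S := ℚ) (K := AlgebraicClosure ℚ) P.freyCurve.toAffine P.p σ v = c • v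
  · exact h3 P N q hcond hq hq2 hqp hqN hirr hunr f W 𝔪 hf hW h𝔪 hp𝔪 hcong A hAq hexc
  · obtain ⟨hcont, hES, hsupp⟩ := h1 P.p hp hp2 N
    set S : Finset ℕ := W.Δ.natAbs.primeFactors with hS
    have hgood : ∀ ℓ : ℕ, ℓ.Prime → ℓ ∉ S → W.IsGoodPrimeFor ℓ := fun ℓ hℓ h =>
      prime_not_mem_of_good hℓ hΔ h
    obtain ⟨x, hx0, hx⟩ := hsupp f 𝔪 S (fun ℓ => W.apOfModel ℓ) hf h𝔪 hp𝔪
      (fun ℓ hℓ hℓS hℓN hℓp => hcong ℓ hℓ (hgood ℓ hℓ hℓS) hℓN hℓp)
    obtain ⟨ι, hinj, hequiv, hT⟩ := Fermat.Agent.L.H52.recovery P.p hp hp2 N hcond.pos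
      (jzModule N P.p) hcont hES P.freyCurve W hW hirr S hgood x hx0 hx
    have hNE : ∃ ℓ : ℕ, ℓ.Prime ∧ ℓ ∉ S ∧ ¬ ℓ ∣ N ∧ ℓ ≠ P.p ∧
        ((W.apOfModel ℓ : ℤ) : ZMod P.p) ≠ 1 + (ℓ : ZMod P.p) := by
      obtain ⟨ℓ, hℓ, hℓW, hℓN, hℓp, hne⟩ := stmt_NonEis P W hW N hcond.pos hirr
      refine ⟨ℓ, hℓ, ?_, hℓN, hℓp, hne⟩
      intro hmem
      rw [hS, Nat.mem_primeFactors] at hmem
      exact hℓW (Int.natCast_dvd.mpr hmem.2.1)
    have hrem := removesQ_of_toric hp hp2 (jzModule N P.p) N q A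
      (h2 P.p hp hp5 N q hq hq2 hqp hqN hcond.squarefree A hAq)
    obtain ⟨g, 𝔪', hg, h𝔪', hp𝔪', hgc⟩ := hrem (Tors P.freyCurve P.p)
      (galoisRepModuleEnd (S := ℚ) (K := AlgebraicClosure ℚ) P.freyCurve.toAffine P.p)
      ι S (fun ℓ => W.apOfModel ℓ)
      (fun W' hW' => hirr.2 W' (fun σ x hx => hW' σ x hx))
      (fun σ hσ v => hunr A hAq σ hσ v)
      hexc hinj (fun σ v => hequiv σ v) hT hNE
    exact ⟨g, 𝔪', S, hg, h𝔪', hp𝔪', fun ℓ hℓ hℓS hℓN hℓp _ => hgc ℓ hℓ hℓS hℓN hℓp⟩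

/-- **S43 from the three leaves in per-level form and PIVOT.**  The conclusion is the frozen
statement S43. -/
theorem result_of_at (hF : Stmt_FrobToricOdd) (hC : Stmt_CompEisOdd) (hO : Stmt_OldOdd)
    (h3 : Stmt_Pivot)
    (P : FreyPackage) {N q : ℕ}
    (hcond : P.IsConductorLevel N) (hq : q.Prime) (hq2 : q ≠ 2) (hqp : q ≠ P.p) (hqN : q ∣ N)
    (hirr : GaloisRepIsIrreducible (K := AlgebraicClosure ℚ) ℚ P.freyCurve P.p)
    (hmod : P.ModularRepOfLevel N) (hunr : P.GaloisRepUnramifiedAt q) :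
    ∃ M : ℕ, M ∣ N ∧ ¬ q ∣ M ∧ P.ModularRepOfLevel M := by
  obtain ⟨f, W, 𝔪, hf, hW, h𝔪, hp𝔪, hcong⟩ := hmod
  exact result_of_lowerConcl P hcond hq hqN W hW
    (lowerConcl_of5odd stmt_TateModP (badQ5odd_of_at hF hC hO) h3 P hcond hq hq2 hqp hqN hirr
      hunr f W 𝔪 hf hW h𝔪 hp𝔪 hcong)

end S43

end Fermat.Agent.S43.BadQ
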