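/-
S43, package BAD_q, leaf FROB-T / MOD-W, abstract part (helper37).

`T : TotData K L k E E` (helper79; both residue fields are `E`; modular: `E = F1`,
`red₂ = red₁ ∘ w_q`).

* `TotSwap T τ W τb Q` : `τ` (a Frobenius element) preserves the two valuation rings and induces
  `τb` on the reductions, `W` (the Atkin-Lehner involution) swaps the two valuation rings
  compatibly with the reductions, both permute the fibres of the nodes, the set of nodes is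
  stable under `β`, every node is fixed by `β²` (helper89's (Σ-fix)), and `τb` raises the values
  to the `Q`-th power from `z` to `β z` and from `β z` to `z`.
* `TotSwap.isFrobSwap` : then `(τ, W)` is a Frobenius-swap pair (helper28's `SSD.IsFrobSwap`,
  with `ι = ι' = id`) for `T.toSSD`.
* `totSwap_of` : the conditions at the nodes from `ord_{β z} ψ = ord_z (φ̄ ψ)`, `τb = φ̄`,
  `ρ (τ⁻¹ P) = β (ρ P)` and (Σ-fix); in particular the stability of the set of nodes under `β`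
  is automatic.
-/
import Fermat.Agent.S35.H89_TotFrob
import Fermat.Agent.BAD.H28_GlueW

set_option autoImplicit false
set_option linter.style.haveILetI false

noncomputable section

open AlgebraicCurve

attribute [local instance] Classical.propDecidable

namespace Fermat.Agent.S43.H37

open Fermat.Agent.RED.H17 Fermat.Agent.RED Fermat.Agent.BAD Fermat.Agent.BAD.H79

variable {K L k E : Type*} [Field K] [Field L] [Algebra K L] [Field k] [Field E]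
  [Algebra k E]

/-- `(τ, W)` is a Frobenius-swap pair of exponent `Q` for the total conservation datum `T`. -/
structure TotSwap (T : TotData K L k E E) (τ W : SemilinearAut K L) (τb : E →+* E) (Q : ℕ) :
    Prop where
  mem₁ : ∀ f : L, f ∈ T.b₁.V → τ • f ∈ T.b₁.V
  mem₂ : ∀ f : L, f ∈ T.b₂.V → τ • f ∈ T.b₂.V
  red₁ : ∀ (f : L) (h : f ∈ T.b₁.V) (h' : τ • f ∈ T.b₁.V),
    T.b₁.red ⟨_, h'⟩ = τb (T.b₁.red ⟨f, h⟩)
  red₂ : ∀ (f : L) (h : f ∈ T.b₂.V) (h' : τ • f ∈ T.b₂.V),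
    T.b₂.red ⟨_, h'⟩ = τb (T.b₂.red ⟨f, h⟩)
  wmem₁ : ∀ f : L, f ∈ T.b₁.V → W • f ∈ T.b₂.V
  wmem₂ : ∀ f : L, f ∈ T.b₂.V → W • f ∈ T.b₁.V
  wred₁ : ∀ (f : L) (h : f ∈ T.b₁.V) (h' : W • f ∈ T.b₂.V),
    T.b₂.red ⟨_, h'⟩ = T.b₁.red ⟨f, h⟩
  wred₂ : ∀ (f : L) (h : f ∈ T.b₂.V) (h' : W • f ∈ T.b₁.V),
    T.b₁.red ⟨_, h'⟩ = T.b₂.red ⟨f, h⟩
  node_τ : ∀ P : Place K L, T.IsNode (T.ρ P) → T.IsNode (T.ρ (τ⁻¹ • P))
  node_W : ∀ P : Place K L, T.IsNode (T.ρ P) → T.IsNode (T.ρ (W⁻¹ • P))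
  node_β : ∀ z : Place k E, T.IsNode z → T.IsNode (T.β z)
  fix : ∀ z : Place k E, T.IsNode z → T.β (T.β z) = z
  val₁ : ∀ z : Place k E, T.IsNode z → ∀ (ψ : E) (a : k), VanAt z (ψ - algebraMap k E a) →
    VanAt (T.β z) (τb ψ - algebraMap k E (a ^ Q))
  val₂ : ∀ z : Place k E, T.IsNode z → ∀ (ψ : E) (a : k),
    VanAt (T.β z) (ψ - algebraMap k E a) → VanAt z (τb ψ - algebraMap k E (a ^ Q))

/-- Over the fibre of a node, `IsNodeP` for `T.toSSD` is `IsNode (ρ P)`. -/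
theorem isNodeP_toSSD_iff [Infinite k] [IsAlgClosed K] {T : TotData K L k E E}
    (hP : HasPrincipalDivisors K L) (hd : ∀ v : Place K L, v.deg = 1)
    (hP₁ : HasPrincipalDivisors k E) (hd₁ : ∀ v : Place k E, v.deg = 1)
    (hne : ∃ z, T.IsNode z) (P : Place K L) :
    (T.toSSD hP hd hP₁ hd₁ hd₁ hne).IsNodeP P ↔ T.IsNode (T.ρ P) := by
  constructor
  · rintro ⟨s, hs, hr⟩
    rw [TotData.toSSD_nodes, TotData.mem_nodes] at hs
    rw [TotData.toSSD_c₁_r, TotData.r₁_eq_some_iff] at hr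
    rw [hr.1]
    exact hs.1
  · intro hz
    refine ⟨(T.ρ P, T.β (T.ρ P)), ?_, ?_⟩
    · rw [TotData.toSSD_nodes, TotData.mem_nodes]
      exact ⟨hz, rfl⟩
    · rw [TotData.toSSD_c₁_r, TotData.r₁_eq_some_iff]
      exact ⟨rfl, TotData.IsNode.onSide₁ hP hz⟩

/-- **A Frobenius-swap pair of the total conservation datum is a Frobenius-swap pair for the
semistable Deuring datum** (with `ι = ι' = id`). -/
theorem TotSwap.isFrobSwap [Infinite k] [IsAlgClosed K] {T : TotData K L k E E}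
    {τ W : SemilinearAut K L} {τb : E →+* E} {Q : ℕ} (h : TotSwap T τ W τb Q)
    (hP : HasPrincipalDivisors K L) (hd : ∀ v : Place K L, v.deg = 1)
    (hP₁ : HasPrincipalDivisors k E) (hd₁ : ∀ v : Place k E, v.deg = 1)
    (hne : ∃ z, T.IsNode z) :
    (T.toSSD hP hd hP₁ hd₁ hd₁ hne).IsFrobSwap τ W τb τb (RingHom.id E) (RingHom.id E) Q where
  mem₁ := h.mem₁
  mem₂ := h.mem₂
  red₁ := h.red₁
  red₂ := h.red₂
  node := fun P hPn =>
    (isNodeP_toSSD_iff hP hd hP₁ hd₁ hne _).2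
      (h.node_τ P ((isNodeP_toSSD_iff hP hd hP₁ hd₁ hne P).1 hPn))
  wmem₁ := h.wmem₁
  wmem₂ := h.wmem₂
  wred₁ := h.wred₁
  wred₂ := h.wred₂
  wnode := fun P hPn =>
    (isNodeP_toSSD_iff hP hd hP₁ hd₁ hne _).2
      (h.node_W P ((isNodeP_toSSD_iff hP hd hP₁ hd₁ hne P).1 hPn))
  val := by
    intro s' hs'
    rw [TotData.toSSD_nodes, TotData.mem_nodes] at hs'
    obtain ⟨hz', hs'2⟩ := hs'
    -- the node `s = (β z', z')`
    have hz : T.IsNode (T.β s'.1) := h.node_β _ hz'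
    have hfix : T.β (T.β s'.1) = s'.1 := h.fix _ hz'
    refine ⟨(T.β s'.1, s'.1), ?_, ?_, ?_, ?_, ?_⟩
    · rw [TotData.toSSD_nodes, TotData.mem_nodes]
      exact ⟨hz, hfix.symm⟩
    · intro ψ a hv
      have := h.val₁ (T.β s'.1) hz ψ a hv
      rwa [hfix] at this
    · intro ψ a hv
      have hv' : VanAt (T.β (T.β s'.1)) (ψ - algebraMap k E a) := by
        rw [hfix]
        exact hv
      have := h.val₂ (T.β s'.1) hz ψ a hv'
      rw [hs'2]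
      exact this
    · intro ψ a hv
      rw [hs'2]
      exact hv
    · intro ψ a hv
      exact hv

section Of

variable (φb : SemilinearAut k E)

/-- The set of nodes is stable under `β` if there is a Frobenius-like automorphism `τ` with
`ρ (τ⁻¹ P) = β (ρ P)`. -/
theorem isNode_β_of {T : TotData K L k E E} {τ : SemilinearAut K L} {q : ℕ}
    (hbase : ∀ a : k, φb • algebraMap k E a = algebraMap k E (a ^ q))
    (hβ : ∀ (z : Place k E) (ψ : E), (T.β z).ord ψ = z.ord (φb • ψ))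
    (hρ : ∀ P : Place K L, T.ρ (τ⁻¹ • P) = T.β (T.ρ P))
    (mem₁ : ∀ f : L, f ∈ T.b₁.V → τ • f ∈ T.b₁.V)
    (mem₂ : ∀ f : L, f ∈ T.b₂.V → τ • f ∈ T.b₂.V)
    (rd₁ : ∀ f : L, f ∈ T.b₁.V → T.p₁.rd (τ • f) = φb • T.p₁.rd f)
    (rd₂ : ∀ f : L, f ∈ T.b₂.V → T.p₂.rd (τ • f) = φb • T.p₂.rd f)
    {z : Place k E} (hz : T.IsNode z) : T.IsNode (T.β z) := by
  intro f hf a
  -- `τ f ∈ R_z`
  have hτf : T.InR z (τ • f) := by
    refine ⟨mem₁ f hf.1, mem₂ f hf.2.1, fun P hPz => ?_⟩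
    have h1 : RegAt (τ⁻¹ • P) f := hf.2.2 _ (by rw [hρ, hPz])
    have := (regAt_smul_iff τ (τ⁻¹ • P) f).mpr h1
    rwa [smul_inv_smul] at this
  have key := hz (τ • f) hτf (a ^ q)
  rw [rd₁ f hf.1, rd₂ f hf.2.1, ← hbase, ← smul_sub, ← smul_sub,
    Fermat.Agent.S35.H89.vanAt_smul_of_ord φb (fun z => T.β z) hβ,
    Fermat.Agent.S35.H89.vanAt_smul_of_ord φb (fun z => T.β z) hβ] at key
  exact key

/-- **The conditions at the nodes** from (Σ-fix) and the equivariance of `ρ`. -/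
theorem totSwap_of {T : TotData K L k E E} {τ W : SemilinearAut K L} {τb : E →+* E}
    (hτb : ∀ ψ : E, τb ψ = φb • ψ) {q : ℕ}
    (hbase : ∀ a : k, φb • algebraMap k E a = algebraMap k E (a ^ q))
    (hβ : ∀ (z : Place k E) (ψ : E), (T.β z).ord ψ = z.ord (φb • ψ))
    (hfix : ∀ z : Place k E, T.IsNode z → T.β (T.β z) = z)
    (hρ : ∀ P : Place K L, T.ρ (τ⁻¹ • P) = T.β (T.ρ P))
    (mem₁ : ∀ f : L, f ∈ T.b₁.V → τ • f ∈ T.b₁.V)
    (mem₂ : ∀ f : L, f ∈ T.b₂.V → τ • f ∈ T.b₂.V)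
    (red₁ : ∀ (f : L) (h : f ∈ T.b₁.V) (h' : τ • f ∈ T.b₁.V),
      T.b₁.red ⟨_, h'⟩ = τb (T.b₁.red ⟨f, h⟩))
    (red₂ : ∀ (f : L) (h : f ∈ T.b₂.V) (h' : τ • f ∈ T.b₂.V),
      T.b₂.red ⟨_, h'⟩ = τb (T.b₂.red ⟨f, h⟩))
    (wmem₁ : ∀ f : L, f ∈ T.b₁.V → W • f ∈ T.b₂.V)
    (wmem₂ : ∀ f : L, f ∈ T.b₂.V → W • f ∈ T.b₁.V)
    (wred₁ : ∀ (f : L) (h : f ∈ T.b₁.V) (h' : W • f ∈ T.b₂.V),
      T.b₂.red ⟨_, h'⟩ = T.b₁.red ⟨f, h⟩)
    (wred₂ : ∀ (f : L) (h : f ∈ T.b₂.V) (h' : W • f ∈ T.b₁.V),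
      T.b₁.red ⟨_, h'⟩ = T.b₂.red ⟨f, h⟩)
    (node_W : ∀ P : Place K L, T.IsNode (T.ρ P) → T.IsNode (T.ρ (W⁻¹ • P))) :
    TotSwap T τ W τb q := by
  have rd₁ : ∀ f : L, f ∈ T.b₁.V → T.p₁.rd (τ • f) = φb • T.p₁.rd f := by
    intro f hf
    rw [T.p₁.rd_of_mem (mem₁ f hf), T.p₁.rd_of_mem hf, ← hτb]
    exact red₁ f hf (mem₁ f hf)
  have rd₂ : ∀ f : L, f ∈ T.b₂.V → T.p₂.rd (τ • f) = φb • T.p₂.rd f := by
    intro f hf
    rw [T.p₂.rd_of_mem (mem₂ f hf), T.p₂.rd_of_mem hf, ← hτb]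
    exact red₂ f hf (mem₂ f hf)
  have hnode : ∀ z : Place k E, T.IsNode z → T.IsNode (T.β z) := fun z hz =>
    isNode_β_of φb hbase hβ hρ mem₁ mem₂ rd₁ rd₂ hz
  have e : ∀ (ψ : E) (a : k), τb ψ - algebraMap k E (a ^ q) = φb • (ψ - algebraMap k E a) := by
    intro ψ a
    rw [hτb, smul_sub, hbase]
  refine ⟨mem₁, mem₂, red₁, red₂, wmem₁, wmem₂, wred₁, wred₂, fun P hP => ?_, node_W, hnode,
    hfix, fun z hz ψ a hv => ?_, fun z hz ψ a hv => ?_⟩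
  · rw [hρ]
    exact hnode _ hP
  · rw [e, Fermat.Agent.S35.H89.vanAt_smul_of_ord φb (fun z => T.β z) hβ, hfix z hz]
    exact hv
  · rw [e, Fermat.Agent.S35.H89.vanAt_smul_of_ord φb (fun z => T.β z) hβ]
    exact hv

end Of

end Fermat.Agent.S43.H37
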