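import Fermat.Agent.S43.FrobToric
import Fermat.Agent.S43.H37_TotSwap
import Fermat.Agent.BAD.H91_WRho
import Fermat.Agent.S35.H44_FrobRed
import Fermat.Agent.S35.H52_FrobRho
import Fermat.Agent.S35.H30_SigmaFix

/-!
# S43, package BAD_q, leaf FROB-T / MOD-W at the tame levels (helper91)

`stmt_ModSSDW_tame : Stmt_ModSSDW_tame` : for `q ∤ M` tame and `A` over `q`, the semistable
Deuring datum of `F_{M q} · ℚ̄` at `A` (from the modular total conservation datum `modTot`), with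
every Frobenius element at `A` and `w_q` forming a Frobenius-swap pair of exponent `q`.

Inputs: helper44's (F-d), helper52's (F-b), helper30's (Σ-fix), helper37's `totSwap_of`,
helper91's `rhoW_eq_beta_mod` (`ρ (w_q⁻¹ P) = β (ρ P)` over a node), and the numerical data of
`H91.modSSD_body`.
-/

set_option autoImplicit false
set_option linter.style.haveILetI false
set_option synthInstance.maxHeartbeats 400000
set_option maxHeartbeats 400000
set_option linter.unusedSectionVars false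

noncomputable section

open HahnSeries IntermediateField AlgebraicCurve ModularCurve
open Fermat.Agent.S28.H73 Fermat.Agent.RED.H73 Fermat.Agent.RED Fermat.Agent.S24
open Fermat.Agent.BAD.H88 Fermat.Agent.BAD

namespace Fermat.Agent.S43.H91

open Fermat.Agent.S35.H89 Fermat.Agent.BAD.H91

/- speed: the algebra structure of `F1` over `kV A` is `SubalgebraClass.toAlgebra` over
`HahnSeries.powerSeriesAlgebra`; try these first (the same instance term is found, 5 s faster per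
query). -/
attribute [local instance 10000] SubalgebraClass.toAlgebra
attribute [local instance 10000] HahnSeries.powerSeriesAlgebra

section Mod

variable (A : ValuationSubring Kbar) (q M : ℕ) (a b : ℤ) (hab : a * q + b * M = 1)
  (hq : q.Prime) [NeZero M] [NeZero (M * q)] [NeZero q] (hA : A.LiesOverPrime q)
  (hqM : ¬ q ∣ M) (ht : TameAt M q)

/-- `j~` in `F₁` is fixed by the coefficientwise Frobenius. -/
theorem phiMod_jRed :
    phiMod A q M a b hab hq hA (H23.eRed A q M a b hab hq hA (jRed A M))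
      = H23.eRed A q M a b hab hq hA (jRed A M) := by
  refine BAD.H73.phiF1_of_int A q M hq hA M
    (H82.redField_eq_fullC q M a b hab hq A hA) _ (jqModC ℤ) ?_
  rw [H23.coe_eRed]
  exact (RED.H73.red_jF A M).trans (coeffMap_jqModC _).symm

/-- `β` preserves the order of `j~`. -/
theorem betaMod_ord_jRed (z : Place (kV A) (F1 A q M)) :
    (betaMod A q M a b hab hq hA z).ord (H23.eRed A q M a b hab hq hA (jRed A M))
      = z.ord (H23.eRed A q M a b hab hq hA (jRed A M)) :=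
  BAD.H73.betaF1_ord_of_fixed A q M hq hA M (H82.redField_eq_fullC q M a b hab hq A hA) z _
    (phiMod_jRed A q M a b hab hq hA)

/-- `τb = φ` on `F₁`. -/
theorem hτb_mod (ψ : F1 A q M) :
    (phiMod A q M a b hab hq hA : F1 A q M →+* F1 A q M) ψ
      = phiSemiMod A q M a b hab hq hA • ψ :=
  (phiSemiMod_smul A q M a b hab hq hA ψ).symm

theorem hbase_mod (c : kV A) :
    phiSemiMod A q M a b hab hq hA • algebraMap (kV A) (F1 A q M) c
      = algebraMap (kV A) (F1 A q M) (c ^ q) := by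
  rw [phiSemiMod_smul]
  exact BAD.H73.phiF1_algebraMap A q M hq hA M (H82.redField_eq_fullC q M a b hab hq A hA) c

theorem modTot_β (z : Place (kV A) (F1 A q M)) :
    (modTot A q M a b hab hq hA hqM ht).β z = betaMod A q M a b hab hq hA z := rfl

theorem modTot_ρ (P : Place Kbar (FN (M * q))) :
    (modTot A q M a b hab hq hA hqM ht).ρ P = rhoF1 a b hab hq hA hqM ht P := rfl

theorem modTot_V₁ : (modTot A q M a b hab hq hA hqM ht).b₁.V = V1 A q M := rfl

theorem modTot_V₂ : (modTot A q M a b hab hq hA hqM ht).b₂.V = V2 A q M a b hab hq := rfl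

theorem modTot_red₁ (f : FN (M * q)) (h : f ∈ (modTot A q M a b hab hq hA hqM ht).b₁.V) :
    (modTot A q M a b hab hq hA hqM ht).b₁.red ⟨f, h⟩ = red1 A q M ⟨f, h⟩ := rfl

theorem modTot_red₂ (f : FN (M * q)) (h : f ∈ (modTot A q M a b hab hq hA hqM ht).b₂.V) :
    (modTot A q M a b hab hq hA hqM ht).b₂.red ⟨f, h⟩ = red2 A q M a b hab hq ⟨f, h⟩ := rfl

theorem hβ_mod (z : Place (kV A) (F1 A q M)) (ψ : F1 A q M) :
    ((modTot A q M a b hab hq hA hqM ht).β z).ord ψ
      = z.ord (phiSemiMod A q M a b hab hq hA • ψ) := by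
  rw [modTot_β, phiSemiMod_smul]
  exact BAD.H73.betaF1_ord A q M hq hA M (H82.redField_eq_fullC q M a b hab hq A hA) z ψ

section Frob

variable (σ : GalQ) (hσ : A.IsFrobeniusAt σ q)

include hσ in
theorem hρ_mod (P : Place Kbar (FN (M * q))) :
    (modTot A q M a b hab hq hA hqM ht).ρ ((galF (M * q) σ)⁻¹ • P)
      = (modTot A q M a b hab hq hA hqM ht).β ((modTot A q M a b hab hq hA hqM ht).ρ P) := by
  have h := S35.H52.stmt_FrobRho A q M a b hab hq hA hqM ht σ hσ ((galF (M * q) σ)⁻¹ • P)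
  rw [smul_inv_smul] at h
  rw [modTot_β, modTot_ρ, modTot_ρ, h, Equiv.apply_symm_apply]

include hσ in
theorem hfix_mod (z : Place (kV A) (F1 A q M))
    (hz : (modTot A q M a b hab hq hA hqM ht).IsNode z) :
    (modTot A q M a b hab hq hA hqM ht).β ((modTot A q M a b hab hq hA hqM ht).β z) = z := by
  rw [modTot_β, modTot_β]
  exact S35.H30.sigmaFix_of S35.H52.stmt_FrobRho A q M a b hab hq hA hqM ht σ hσ z hz

include hσ in
theorem mem₁_mod (f : FN (M * q)) (hf : f ∈ (modTot A q M a b hab hq hA hqM ht).b₁.V) :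
    galF (M * q) σ • f ∈ (modTot A q M a b hab hq hA hqM ht).b₁.V :=
  (S35.H44.stmt_FrobRed A q M a b hab hq hA σ hσ).1 f hf

include hσ in
theorem mem₂_mod (f : FN (M * q)) (hf : f ∈ (modTot A q M a b hab hq hA hqM ht).b₂.V) :
    galF (M * q) σ • f ∈ (modTot A q M a b hab hq hA hqM ht).b₂.V :=
  (S35.H44.stmt_FrobRed A q M a b hab hq hA σ hσ).2.1 f hf

include hσ in
theorem red₁_mod (f : FN (M * q)) (h : f ∈ (modTot A q M a b hab hq hA hqM ht).b₁.V)
    (h' : galF (M * q) σ • f ∈ (modTot A q M a b hab hq hA hqM ht).b₁.V) :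
    (modTot A q M a b hab hq hA hqM ht).b₁.red ⟨_, h'⟩
      = (phiMod A q M a b hab hq hA : F1 A q M →+* F1 A q M)
        ((modTot A q M a b hab hq hA hqM ht).b₁.red ⟨f, h⟩) :=
  (S35.H44.stmt_FrobRed A q M a b hab hq hA σ hσ).2.2.1 f h h'

include hσ in
theorem red₂_mod (f : FN (M * q)) (h : f ∈ (modTot A q M a b hab hq hA hqM ht).b₂.V)
    (h' : galF (M * q) σ • f ∈ (modTot A q M a b hab hq hA hqM ht).b₂.V) :
    (modTot A q M a b hab hq hA hqM ht).b₂.red ⟨_, h'⟩
      = (phiMod A q M a b hab hq hA : F1 A q M →+* F1 A q M)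
        ((modTot A q M a b hab hq hA hqM ht).b₂.red ⟨f, h⟩) :=
  (S35.H44.stmt_FrobRed A q M a b hab hq hA σ hσ).2.2.2 f h h'

end Frob


section W

theorem wAux1 (f : FN (M * q)) (_h : f ∈ V1 A q M)
    (h' : wq q M a b hab hq f ∈ V2 A q M a b hab hq) :
    wq q M a b hab hq (wq q M a b hab hq f) ∈ V1 A q M :=
  (mem_V2_iff A q M a b hab hq _).1 h'

theorem wAux2 (f : FN (M * q)) (h : f ∈ V1 A q M)
    (h' : wq q M a b hab hq f ∈ V2 A q M a b hab hq) :
    red2 A q M a b hab hq ⟨wq q M a b hab hq f, h'⟩ = red1 A q M ⟨wq q M a b hab hq (wq q M a b hab hq f), wAux1 A q M a b hab hq f h h'⟩ :=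
  red2_mk A q M a b hab hq (wq q M a b hab hq f) h'

theorem wAux3 (f g : FN (M * q)) (h : f ∈ V1 A q M) (h' : g ∈ V1 A q M) (e : g = f) :
    red1 A q M ⟨g, h'⟩ = red1 A q M ⟨f, h⟩ := by
  subst e
  rfl

theorem wAux4 (f : FN (M * q)) (h : f ∈ V1 A q M)
    (h' : wq q M a b hab hq f ∈ V2 A q M a b hab hq) :
    red2 A q M a b hab hq ⟨wq q M a b hab hq f, h'⟩ = red1 A q M ⟨f, h⟩ :=
  (wAux2 A q M a b hab hq f h h').trans (wAux3 A q M _ _ h _ (wq_wq q M a b hab hq f))

theorem wS_smul_eq (f : FN (M * q)) : S43.BadQ.wS q M a b hab hq • f = wq q M a b hab hq f := rfl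

theorem wmem₁_mod (f : FN (M * q)) (hf : f ∈ (modTot A q M a b hab hq hA hqM ht).b₁.V) :
    S43.BadQ.wS q M a b hab hq • f ∈ (modTot A q M a b hab hq hA hqM ht).b₂.V := by
  rw [modTot_V₂, wS_smul_eq]
  rw [modTot_V₁] at hf
  exact (wq_mem_V2_iff A q M a b hab hq f).2 hf

theorem wmem₂_mod (f : FN (M * q)) (hf : f ∈ (modTot A q M a b hab hq hA hqM ht).b₂.V) :
    S43.BadQ.wS q M a b hab hq • f ∈ (modTot A q M a b hab hq hA hqM ht).b₁.V := by
  rw [modTot_V₁, wS_smul_eq]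
  rw [modTot_V₂] at hf
  exact (mem_V2_iff A q M a b hab hq f).1 hf

theorem wAux5 (f : FN (M * q)) (h : f ∈ (modTot A q M a b hab hq hA hqM ht).b₁.V)
    (h' : S43.BadQ.wS q M a b hab hq • f ∈ (modTot A q M a b hab hq hA hqM ht).b₂.V)
    (h₂ : wq q M a b hab hq f ∈ V2 A q M a b hab hq) :
    (modTot A q M a b hab hq hA hqM ht).b₂.red ⟨_, h'⟩
      = red2 A q M a b hab hq ⟨wq q M a b hab hq f, h₂⟩ := rfl

theorem wAux6 (f : FN (M * q)) (h : f ∈ (modTot A q M a b hab hq hA hqM ht).b₁.V)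
    (h₁ : f ∈ V1 A q M) :
    (modTot A q M a b hab hq hA hqM ht).b₁.red ⟨f, h⟩ = red1 A q M ⟨f, h₁⟩ := rfl

theorem wred₁_mod (f : FN (M * q)) (h : f ∈ (modTot A q M a b hab hq hA hqM ht).b₁.V)
    (h' : S43.BadQ.wS q M a b hab hq • f ∈ (modTot A q M a b hab hq hA hqM ht).b₂.V) :
    (modTot A q M a b hab hq hA hqM ht).b₂.red ⟨_, h'⟩
      = (modTot A q M a b hab hq hA hqM ht).b₁.red ⟨f, h⟩ := by
  have h₁ : f ∈ V1 A q M := by
    rw [modTot_V₁] at h
    exact h
  have h₂ : wq q M a b hab hq f ∈ V2 A q M a b hab hq :=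
    (wq_mem_V2_iff A q M a b hab hq f).2 h₁
  rw [wAux5 A q M a b hab hq hA hqM ht f h h' h₂, wAux6 A q M a b hab hq hA hqM ht f h h₁]
  exact wAux4 A q M a b hab hq f h₁ h₂

theorem wAux7 (f : FN (M * q)) (h : f ∈ (modTot A q M a b hab hq hA hqM ht).b₂.V)
    (h' : S43.BadQ.wS q M a b hab hq • f ∈ (modTot A q M a b hab hq hA hqM ht).b₁.V)
    (h₁ : wq q M a b hab hq f ∈ V1 A q M) :
    (modTot A q M a b hab hq hA hqM ht).b₁.red ⟨_, h'⟩
      = red1 A q M ⟨wq q M a b hab hq f, h₁⟩ := rfl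

theorem wAux8 (f : FN (M * q)) (h : f ∈ (modTot A q M a b hab hq hA hqM ht).b₂.V)
    (h₂ : f ∈ V2 A q M a b hab hq) :
    (modTot A q M a b hab hq hA hqM ht).b₂.red ⟨f, h⟩ = red2 A q M a b hab hq ⟨f, h₂⟩ := rfl

theorem wAux9 (f : FN (M * q)) (h₂ : f ∈ V2 A q M a b hab hq)
    (h₁ : wq q M a b hab hq f ∈ V1 A q M) :
    red2 A q M a b hab hq ⟨f, h₂⟩ = red1 A q M ⟨wq q M a b hab hq f, h₁⟩ :=
  red2_mk A q M a b hab hq f h₂

theorem wred₂_mod (f : FN (M * q)) (h : f ∈ (modTot A q M a b hab hq hA hqM ht).b₂.V)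
    (h' : S43.BadQ.wS q M a b hab hq • f ∈ (modTot A q M a b hab hq hA hqM ht).b₁.V) :
    (modTot A q M a b hab hq hA hqM ht).b₁.red ⟨_, h'⟩
      = (modTot A q M a b hab hq hA hqM ht).b₂.red ⟨f, h⟩ := by
  have h₂ : f ∈ V2 A q M a b hab hq := by
    rw [modTot_V₂] at h
    exact h
  have h₁ : wq q M a b hab hq f ∈ V1 A q M := (mem_V2_iff A q M a b hab hq f).1 h₂
  rw [wAux7 A q M a b hab hq hA hqM ht f h h' h₁, wAux8 A q M a b hab hq hA hqM ht f h h₂]
  exact (wAux9 A q M a b hab hq f h₂ h₁).symm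

theorem wS_eq_wSemi : S43.BadQ.wS q M a b hab hq = wSemi a b hab hq := rfl

end W

section Swap

variable (σ : GalQ) (hσ : A.IsFrobeniusAt σ q)

include hσ in
theorem rd₁_mod (f : FN (M * q)) (hf : f ∈ (modTot A q M a b hab hq hA hqM ht).b₁.V) :
    (modTot A q M a b hab hq hA hqM ht).p₁.rd (galF (M * q) σ • f)
      = phiSemiMod A q M a b hab hq hA • (modTot A q M a b hab hq hA hqM ht).p₁.rd f := by
  rw [(modTot A q M a b hab hq hA hqM ht).p₁.rd_of_mem
      (mem₁_mod A q M a b hab hq hA hqM ht σ hσ f hf),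
    (modTot A q M a b hab hq hA hqM ht).p₁.rd_of_mem hf]
  exact (red₁_mod A q M a b hab hq hA hqM ht σ hσ f hf _).trans
    (hτb_mod A q M a b hab hq hA _)

include hσ in
theorem rd₂_mod (f : FN (M * q)) (hf : f ∈ (modTot A q M a b hab hq hA hqM ht).b₂.V) :
    (modTot A q M a b hab hq hA hqM ht).p₂.rd (galF (M * q) σ • f)
      = phiSemiMod A q M a b hab hq hA • (modTot A q M a b hab hq hA hqM ht).p₂.rd f := by
  rw [(modTot A q M a b hab hq hA hqM ht).p₂.rd_of_mem
      (mem₂_mod A q M a b hab hq hA hqM ht σ hσ f hf),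
    (modTot A q M a b hab hq hA hqM ht).p₂.rd_of_mem hf]
  exact (red₂_mod A q M a b hab hq hA hqM ht σ hσ f hf _).trans
    (hτb_mod A q M a b hab hq hA _)

include hσ in
/-- The set of nodes is stable under `β`. -/
theorem isNode_β_mod {z : Place (kV A) (F1 A q M)}
    (hz : (modTot A q M a b hab hq hA hqM ht).IsNode z) :
    (modTot A q M a b hab hq hA hqM ht).IsNode ((modTot A q M a b hab hq hA hqM ht).β z) :=
  S43.H37.isNode_β_of (phiSemiMod A q M a b hab hq hA) (hbase_mod A q M a b hab hq hA)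
    (hβ_mod A q M a b hab hq hA hqM ht) (hρ_mod A q M a b hab hq hA hqM ht σ hσ)
    (mem₁_mod A q M a b hab hq hA hqM ht σ hσ) (mem₂_mod A q M a b hab hq hA hqM ht σ hσ)
    (rd₁_mod A q M a b hab hq hA hqM ht σ hσ) (rd₂_mod A q M a b hab hq hA hqM ht σ hσ) hz

/-- **Over a node, `ρ (w_q⁻¹ P) = β (ρ P)`** (for `modTot`). -/
theorem rhoW_modTot (P : Place Kbar (FN (M * q)))
    (hP : (modTot A q M a b hab hq hA hqM ht).IsNode
      ((modTot A q M a b hab hq hA hqM ht).ρ P)) :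
    (modTot A q M a b hab hq hA hqM ht).ρ ((S43.BadQ.wS q M a b hab hq)⁻¹ • P)
      = (modTot A q M a b hab hq hA hqM ht).β ((modTot A q M a b hab hq hA hqM ht).ρ P) := by
  rw [modTot_ρ, modTot_ρ, modTot_β, wS_eq_wSemi]
  exact rhoW_eq_beta_mod a b hab hq hA hqM ht (betaMod A q M a b hab hq hA)
    (BAD.H23.tot_mod A q M a b hab hq hA hqM ht (H82.redField_eq_fullC q M a b hab hq A hA))
    (betaMod_ord_jRed A q M a b hab hq hA) hP

include hσ in
/-- The set of nodes is stable under `w_q`. -/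
theorem node_W_mod (P : Place Kbar (FN (M * q)))
    (hP : (modTot A q M a b hab hq hA hqM ht).IsNode
      ((modTot A q M a b hab hq hA hqM ht).ρ P)) :
    (modTot A q M a b hab hq hA hqM ht).IsNode
      ((modTot A q M a b hab hq hA hqM ht).ρ ((S43.BadQ.wS q M a b hab hq)⁻¹ • P)) := by
  rw [rhoW_modTot A q M a b hab hq hA hqM ht P hP]
  exact isNode_β_mod A q M a b hab hq hA hqM ht σ hσ hP

include hσ in
/-- **`(σ, w_q)` is a Frobenius-swap pair for the modular total conservation datum.** -/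
theorem totSwap_mod :
    S43.H37.TotSwap (modTot A q M a b hab hq hA hqM ht) (galF (M * q) σ)
      (S43.BadQ.wS q M a b hab hq) (phiMod A q M a b hab hq hA : F1 A q M →+* F1 A q M) q :=
  S43.H37.totSwap_of (phiSemiMod A q M a b hab hq hA) (hτb_mod A q M a b hab hq hA)
    (hbase_mod A q M a b hab hq hA) (hβ_mod A q M a b hab hq hA hqM ht)
    (hfix_mod A q M a b hab hq hA hqM ht σ hσ) (hρ_mod A q M a b hab hq hA hqM ht σ hσ)
    (mem₁_mod A q M a b hab hq hA hqM ht σ hσ) (mem₂_mod A q M a b hab hq hA hqM ht σ hσ)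
    (red₁_mod A q M a b hab hq hA hqM ht σ hσ) (red₂_mod A q M a b hab hq hA hqM ht σ hσ)
    (wmem₁_mod A q M a b hab hq hA hqM ht) (wmem₂_mod A q M a b hab hq hA hqM ht)
    (wred₁_mod A q M a b hab hq hA hqM ht) (wred₂_mod A q M a b hab hq hA hqM ht)
    (node_W_mod A q M a b hab hq hA hqM ht σ hσ)

end Swap

section Final

omit [NeZero M] [NeZero q] in
theorem ffHyp_FN : RED.H17.FFHyp Kbar (FN (M * q)) :=
  RED.H17.ffHyp_of_isFF _ _ (H95.stmt_HKA_isFF (M * q))

include hab hq hA hqM ht in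
theorem ffHyp_F1 : RED.H17.FFHyp (kV A) (F1 A q M) := by
  haveI : IsAlgClosed (kV A) := isAlgClosed_kV A
  exact RED.H17.ffHyp_of_isFF _ _ (isFF_F1 a b hab hq hA hqM ht)

/-- **The nodes of the modular datum and the numerical inequality.** -/
theorem exists_nodes_modTot :
    ∃ Z : Finset (Place (kV A) (F1 A q M)), Z.Nonempty ∧
      (∀ z ∈ Z, (modTot A q M a b hab hq hA hqM ht).IsNode z) ∧
      ∀ (g g₁ : ℕ) (c c₁ : ℤ), RED.H17.IsGenus Kbar (FN (M * q)) g c →
        RED.H17.IsGenus (kV A) (F1 A q M) g₁ c₁ → g + 1 ≤ g₁ + g₁ + Z.card := by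
  haveI : IsAlgClosed (kV A) := isAlgClosed_kV A
  obtain ⟨Z, hZne, hZc, hZo, hnum⟩ :=
    Fermat.Agent.BAD.H30.num_final_tame M q hq ht hqM A hA (Dvd.intro_left M rfl)
  refine ⟨Z.map (kappa A q M a b hab hq hA).symm.toEmbedding, hZne.map, ?_, ?_⟩
  · intro z hz
    obtain ⟨z₀, hz₀, rfl⟩ := Finset.mem_map.mp hz
    exact isNode_modT a b hab hq hA hqM ht _ _ _ z₀ (hZc z₀ hz₀) (hZo z₀ hz₀)
  · intro g g₁ c c₁ hg hg₁
    have hg₁' : RED.H17.IsGenus (kV A) ↥(H91.redM A M) g₁ c₁ :=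
      isGenus_congr (H82.redField_eq_redField q M a b hab hq A hA) hg₁
    rw [Finset.card_map]
    exact Fermat.Agent.BAD.H17.genus_ineq hq hqM ht hA hg hg₁' Z.card hnum

theorem exists_node_modTot : ∃ z, (modTot A q M a b hab hq hA hqM ht).IsNode z := by
  obtain ⟨Z, ⟨z, hz⟩, hZ, -⟩ := exists_nodes_modTot A q M a b hab hq hA hqM ht
  exact ⟨z, hZ z hz⟩

/-- **The explicit modular semistable Deuring datum** of `F_{M q} · ℚ̄` at `A` (`q ∤ M` tame). -/
def modSSD : SSD Kbar (FN (M * q)) (kV A) (F1 A q M) (F1 A q M) :=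
  haveI : IsAlgClosed (kV A) := isAlgClosed_kV A
  haveI : Infinite (kV A) := IsAlgClosed.instInfinite
  (modTot A q M a b hab hq hA hqM ht).toSSD (ffHyp_FN q M).principal (ffHyp_FN q M).deg_one
    (ffHyp_F1 A q M a b hab hq hA hqM ht).principal (ffHyp_F1 A q M a b hab hq hA hqM ht).deg_one
    (ffHyp_F1 A q M a b hab hq hA hqM ht).deg_one (exists_node_modTot A q M a b hab hq hA hqM ht)

theorem modSSD_c₁_V : (modSSD A q M a b hab hq hA hqM ht).c₁.V = V1 A q M := rfl

theorem modSSD_c₂_V : (modSSD A q M a b hab hq hA hqM ht).c₂.V = V2 A q M a b hab hq := rfl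

theorem modSSD_card_ge {g g₁ : ℕ} {c c₁ : ℤ} (hg : RED.H17.IsGenus Kbar (FN (M * q)) g c)
    (hg₁ : RED.H17.IsGenus (kV A) (F1 A q M) g₁ c₁) :
    g + 1 ≤ g₁ + g₁ + (modSSD A q M a b hab hq hA hqM ht).nodes.card := by
  haveI : IsAlgClosed (kV A) := isAlgClosed_kV A
  haveI : Infinite (kV A) := IsAlgClosed.instInfinite
  obtain ⟨Z, -, hZ, hnum⟩ := exists_nodes_modTot A q M a b hab hq hA hqM ht
  have h1 := (modTot A q M a b hab hq hA hqM ht).card_le_toSSD_nodes (ffHyp_FN q M).principal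
    (ffHyp_FN q M).deg_one (ffHyp_F1 A q M a b hab hq hA hqM ht).principal
    (ffHyp_F1 A q M a b hab hq hA hqM ht).deg_one (ffHyp_F1 A q M a b hab hq hA hqM ht).deg_one
    (exists_node_modTot A q M a b hab hq hA hqM ht) Z hZ
  have h2 := hnum g g₁ c c₁ hg hg₁
  have h3 : Z.card ≤ (modSSD A q M a b hab hq hA hqM ht).nodes.card := h1
  omega

/-- **Every Frobenius element at `A` and `w_q` form a Frobenius-swap pair of exponent `q` for
the explicit modular datum.** -/
theorem modSSD_isFrobSwap (σ : GalQ) (hσ : A.IsFrobeniusAt σ q) :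
    (modSSD A q M a b hab hq hA hqM ht).IsFrobSwap (galF (M * q) σ)
      (S43.BadQ.wS q M a b hab hq) (phiMod A q M a b hab hq hA : F1 A q M →+* F1 A q M)
      (phiMod A q M a b hab hq hA : F1 A q M →+* F1 A q M) (RingHom.id (F1 A q M))
      (RingHom.id (F1 A q M)) q := by
  haveI : IsAlgClosed (kV A) := isAlgClosed_kV A
  haveI : Infinite (kV A) := IsAlgClosed.instInfinite
  exact (totSwap_mod A q M a b hab hq hA hqM ht σ hσ).isFrobSwap (ffHyp_FN q M).principal
    (ffHyp_FN q M).deg_one (ffHyp_F1 A q M a b hab hq hA hqM ht).principal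
    (ffHyp_F1 A q M a b hab hq hA hqM ht).deg_one (exists_node_modTot A q M a b hab hq hA hqM ht)

include hA hqM ht in
/-- **The modular side of FROB-T at a tame level.** -/
theorem modSSDWAt_tame : S43.BadQ.ModSSDWAt q M a b hab hq A := by
  haveI : IsAlgClosed (kV A) := isAlgClosed_kV A
  obtain ⟨g, c, hg⟩ := RED.H17.exists_isGenus _ _ (H95.stmt_HKA_isFF (M * q))
  obtain ⟨g₁, c₁, hg₁⟩ := RED.H17.exists_isGenus _ _ (isFF_F1 a b hab hq hA hqM ht)
  refine ⟨F1 A q M, F1 A q M, inferInstance, inferInstance, inferInstance, inferInstance,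
    modSSD A q M a b hab hq hA hqM ht, ffHyp_FN q M, ffHyp_F1 A q M a b hab hq hA hqM ht,
    ffHyp_F1 A q M a b hab hq hA hqM ht, g, g₁, g₁, c, c₁, c₁, hg, hg₁, hg₁,
    modSSD_card_ge A q M a b hab hq hA hqM ht hg hg₁, ?_, ?_, ?_⟩
  · intro f hf
    exact hf
  · intro f hf h1
    exact h1
  · intro σ hσ
    exact ⟨_, _, _, _, modSSD_isFrobSwap A q M a b hab hq hA hqM ht σ hσ⟩

end Final

end Mod

/-- **The modular side of FROB-T at the tame levels.** -/
theorem stmt_ModSSDW_tame : S43.BadQ.Stmt_ModSSDW_tame := by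
  intro q M a b hab hq _ hqM ht A hA
  haveI : NeZero M := ⟨fun h0 => NeZero.ne (M * q) (by rw [h0, zero_mul])⟩
  haveI : NeZero q := ⟨hq.ne_zero⟩
  exact modSSDWAt_tame A q M a b hab hq hA hqM ht

end Fermat.Agent.S43.H91
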