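/-
S43 (row 37): the current state of the wiring (cluster L, helper37).
Plan: `NOTES/plan/L_S43_BADQ.md`.

Proved inputs: the Tate package mod `p` (`S44.stmt_TateModP`, helper93 + G-RED + G-TOR), W-HECKE
(`S43.H88.stmt_WHecke`, helper88) and the reduction of FROB-T to the modular datum
(`frobToric_of`, with helper28's `H28.glueFrobW_two`).  So the frozen statement S43 follows from

* `Stmt_ModSSDW` : the semistable Deuring datum at `q ∥ N` with the Frobenius-swap clause;
* `Stmt_CompEis` : the component group is Eisenstein;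
* `Stmt_Old`     : the finite part modulo the toric part is old;
* `Stmt_Pivot`   : the exceptional case (item 66).
-/
import Fermat.Agent.S43.FrobToric
import Fermat.Agent.S43.H88_WHecke
import Fermat.Agent.S44.TateModP3

set_option autoImplicit false

open WeierstrassCurve WeierstrassCurve.Affine WeierstrassCurve.Affine.Point
open scoped WeierstrassCurve.Affine

namespace Fermat.Agent.S43.BadQ

open Fermat.Agent.S44

/-- **S43 from the open packages, `w_q`-Hecke compatibility as a hypothesis.** -/
theorem result_of_open' (hW : Stmt_WHecke) (hS : Stmt_ModSSDW) (hC : Stmt_CompEis)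
    (hO : Stmt_Old) (h3 : Stmt_Pivot)
    (P : FreyPackage) {N q : ℕ}
    (hcond : P.IsConductorLevel N) (hq : q.Prime) (hq2 : q ≠ 2) (hqp : q ≠ P.p) (hqN : q ∣ N)
    (hirr : GaloisRepIsIrreducible (K := AlgebraicClosure ℚ) ℚ P.freyCurve P.p)
    (hmod : P.ModularRepOfLevel N) (hunr : P.GaloisRepUnramifiedAt q) :
    ∃ M : ℕ, M ∣ N ∧ ¬ q ∣ M ∧ P.ModularRepOfLevel M :=
  result_of_badq_leaves stmt_TateModP hW (frobToric_of hS) hC hO h3 P hcond hq hq2 hqp hqN hirr
    hmod hunr

/-- **S43 from the four open packages.**  The conclusion is the frozen statement S43. -/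
theorem result_of_open (hS : Stmt_ModSSDW) (hC : Stmt_CompEis)
    (hO : Stmt_Old) (h3 : Stmt_Pivot)
    (P : FreyPackage) {N q : ℕ}
    (hcond : P.IsConductorLevel N) (hq : q.Prime) (hq2 : q ≠ 2) (hqp : q ≠ P.p) (hqN : q ∣ N)
    (hirr : GaloisRepIsIrreducible (K := AlgebraicClosure ℚ) ℚ P.freyCurve P.p)
    (hmod : P.ModularRepOfLevel N) (hunr : P.GaloisRepUnramifiedAt q) :
    ∃ M : ℕ, M ∣ N ∧ ¬ q ∣ M ∧ P.ModularRepOfLevel M :=
  result_of_open' Fermat.Agent.S43.H88.stmt_WHecke hS hC hO h3 P hcond hq hq2 hqp hqN hirr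
    hmod hunr

end Fermat.Agent.S43.BadQ
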