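import Fermat.Agent.S43.H13_FrobDescAbs
import Fermat.Agent.S43.BadQAt
import Fermat.Agent.BAD.H91_Descend
import Fermat.Agent.RED.KD.H22_KD
import Fermat.Agent.BAD.H82_KronF
import Fermat.Agent.RED.H17_LiftMove
import Fermat.Agent.RED.H51_Final
attribute [local instance 10000] SubalgebraClass.toAlgebra
attribute [local instance 10000] HahnSeries.powerSeriesAlgebra

/-!
# S43, leaf FROB-DESC (helper13): descent of FROB-T from the level `3 (2 M)` to the level `3 M`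

* `wq_inclusion` : the Atkin-Lehner involutions `w_q` of the levels `M q` and `M₂ q`, `M ∣ M₂`,
  are compatible with the inclusion `F_{M q} ⊆ F_{M₂ q}`;
* `inK1_pb` : the pullback of a class of `K1` is in `K1`;
* `stmt_FrobDesc : Stmt_FrobDesc`.
-/

set_option autoImplicit false
set_option linter.style.haveILetI false
set_option linter.unusedSectionVars false
set_option synthInstance.maxHeartbeats 400000
set_option maxHeartbeats 1000000

noncomputable section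

open HahnSeries IntermediateField AlgebraicCurve ModularCurve

namespace Fermat.Agent.S43.H13

open Fermat.Agent.BAD Fermat.Agent.S44 Fermat.Agent.S28.H73 Fermat.Agent.RED.H73
open Fermat.Agent.S24 Fermat.Agent.S43.BadQ Fermat.Agent.RED

/-! ## The Atkin-Lehner involution and the inclusion of levels -/

section W

variable (q M M₂ : ℕ) (a b a₂ b₂ : ℤ) (hab : a * q + b * M = 1) (hab₂ : a₂ * q + b₂ * M₂ = 1)
  (hq : q.Prime) [NeZero (M * q)] [NeZero (M₂ * q)] (hMM : M ∣ M₂)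

theorem inclusion_jdF {N N₂ : ℕ} [NeZero N] [NeZero N₂]
    (hle : modularFunctionFieldBar N ≤ modularFunctionFieldBar N₂) (d : ℕ) [NeZero d]
    (hd : d ∣ N) (hd₂ : d ∣ N₂) :
    IntermediateField.inclusion hle (jdF N d hd) = jdF N₂ d hd₂ := by
  apply Subtype.ext
  rw [IntermediateField.coe_inclusion, H82.coe_jdF, H82.coe_jdF]

include hMM in
/-- `w_q` of the level `M₂ q` restricts to `w_q` of the level `M q`, `M ∣ M₂`. -/
theorem wqHom_inclusion (hle : modularFunctionFieldBar (M * q) ≤ modularFunctionFieldBar (M₂ * q)) :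
    (H88.wqHom q M₂ a₂ b₂ hab₂ hq).comp (IntermediateField.inclusion hle)
      = (IntermediateField.inclusion hle).comp (H88.wqHom q M a b hab hq) := by
  apply H88.algHom_ext_of_adjoin _ (adjoin_jdF (M * q))
  rintro x ⟨D, hD0, hD, rfl⟩
  rw [AlgHom.comp_apply, AlgHom.comp_apply]
  rcases H88.dvd_cases q M a b hab hq D hD with ⟨e, he⟩ | ⟨d, e, rfl, he⟩
  · haveI : NeZero (D * q) := ⟨(Nat.mul_pos (Nat.pos_of_ne_zero (NeZero.ne D)) hq.pos).ne'⟩
    have hDM : D ∣ M := ⟨e, he⟩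
    have hDM₂ : D ∣ M₂ := hDM.trans hMM
    rw [H88.wqHom_jdF q M a b hab hq D hDM,
      inclusion_jdF hle D hD (Dvd.dvd.mul_right hDM₂ q),
      inclusion_jdF hle (D * q) (Nat.mul_dvd_mul_right hDM q) (Nat.mul_dvd_mul_right hDM₂ q),
      H88.wqHom_jdF q M₂ a₂ b₂ hab₂ hq D hDM₂]
  · have hdpos : 0 < d := by
      rcases Nat.eq_zero_or_pos d with h | h
      · exfalso; apply NeZero.ne (d * q); rw [h, zero_mul]
      · exact h
    haveI : NeZero d := ⟨hdpos.ne'⟩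
    have hdM : d ∣ M := ⟨e, he⟩
    have hdM₂ : d ∣ M₂ := hdM.trans hMM
    rw [H88.wqHom_jdF_mul q M a b hab hq d hdM,
      inclusion_jdF hle (d * q) hD (Nat.mul_dvd_mul_right hdM₂ q),
      inclusion_jdF hle d (Dvd.dvd.mul_right hdM q) (Dvd.dvd.mul_right hdM₂ q),
      H88.wqHom_jdF_mul q M₂ a₂ b₂ hab₂ hq d hdM₂]

include hMM in
/-- `w_q` of the levels `M q` and `M₂ q` are intertwined by the inclusion. -/
theorem wS_intertwines (hle : modularFunctionFieldBar (M * q) ≤ modularFunctionFieldBar (M₂ * q)) :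
    SemilinearAut.IntertwinesAlong
      ((IntermediateField.inclusion hle : ↥(FNbar (M * q)) →ₐ[AlgebraicClosure ℚ] ↥(FNbar (M₂ * q))) :
        ↥(FNbar (M * q)) →+* ↥(FNbar (M₂ * q)))
      (wS q M a b hab hq) (wS q M₂ a₂ b₂ hab₂ hq) := by
  intro x
  have h := congrArg (fun g : ↥(FNbar (M * q)) →ₐ[AlgebraicClosure ℚ] ↥(FNbar (M₂ * q)) => g x)
    (wqHom_inclusion q M M₂ a b a₂ b₂ hab hab₂ hq hMM hle)
  exact h

end W

/-! ## The Galois action and the inclusion of levels -/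

theorem galF_intertwines {N N₂ : ℕ}
    (hle : modularFunctionFieldBar N ≤ modularFunctionFieldBar N₂) (σ : GalQ) :
    SemilinearAut.IntertwinesAlong
      ((IntermediateField.inclusion hle : ↥(FNbar N) →ₐ[AlgebraicClosure ℚ] ↥(FNbar N₂)) :
        ↥(FNbar N) →+* ↥(FNbar N₂))
      (galF N σ) (galF N₂ σ) := by
  intro x
  apply Subtype.ext
  show ((galF N₂ σ • (IntermediateField.inclusion hle x) : ↥(FNbar N₂)) :
      LaurentSeries (AlgebraicClosure ℚ))
    = ((IntermediateField.inclusion hle (galF N σ • x) : ↥(FNbar N₂)) :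
      LaurentSeries (AlgebraicClosure ℚ))
  rw [IntermediateField.coe_inclusion, coe_arithmeticGalois_smul, coe_arithmeticGalois_smul,
    IntermediateField.coe_inclusion]

/-! ## The Gauss valuation and the inclusion of levels -/

/-- A Gauss unit of residue `1` of the level `N` is a Gauss unit of residue `1` of the level
`N₂`. -/
theorem gauss_pb {N N₂ : ℕ}
    (hle : modularFunctionFieldBar N ≤ modularFunctionFieldBar N₂)
    (A : ValuationSubring (AlgebraicClosure ℚ)) (f : ↥(gaussV A N)) (hres : gaussRes A N f = 1) :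
    ∃ hf' : (IntermediateField.inclusion hle (f : ↥(FNbar N)) : ↥(FNbar N₂)) ∈ gaussV A N₂,
      gaussRes A N₂ ⟨_, hf'⟩ = 1 := by
  set f' : ↥(FNbar N₂) := IntermediateField.inclusion hle (f : ↥(FNbar N)) with hf'
  have hcoe : ((f' : ↥(FNbar N₂)) : LaurentSeries (AlgebraicClosure ℚ))
      = ((f : ↥(FNbar N)) : LaurentSeries (AlgebraicClosure ℚ)) :=
    IntermediateField.coe_inclusion hle (f : ↥(FNbar N))
  have hfV : ((f : ↥(FNbar N)) : LaurentSeries (AlgebraicClosure ℚ)) ∈ gaussRingV A :=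
    (mem_gaussValSub_iff A (hasScale_laurentBaseChange A N) _).mp f.2
  have hf'V : f' ∈ gaussV A N₂ := by
    show ((f' : ↥(FNbar N₂)) : LaurentSeries (AlgebraicClosure ℚ)) ∈ gaussRingV A
    rw [hcoe]
    exact hfV
  refine ⟨hf'V, ?_⟩
  apply Subtype.ext
  have e1 : gaussResF A (hasScale_laurentBaseChange A N) f = 1 := congrArg Subtype.val hres
  rw [gaussResF_apply] at e1
  show gaussResF A (hasScale_laurentBaseChange A N₂) ⟨f', hf'V⟩ = 1
  rw [gaussResF_apply, ← e1]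
  congr 1

/-! ## FROB-DESC -/

/-- **Descent of FROB-T** from the level `(r M) q` to the level `M q`, `r ∣ 36`
(every prime `p`, every prime `q ∤ r M`). -/
theorem frobToricAt_descend {p : ℕ} (hp : p.Prime) (q r M : ℕ) (a b a₂ b₂ : ℤ)
    (hab : a * q + b * M = 1) (hab₂ : a₂ * (q : ℤ) + b₂ * ((r * M : ℕ) : ℤ) = 1) (hq : q.Prime)
    [NeZero (M * q)] [NeZero (r * M * q)] (hr36 : r ∣ 36)
    (A : ValuationSubring (AlgebraicClosure ℚ))
    (hT : FrobToricAt (-1) p q (r * M) a₂ b₂ hab₂ hq A) :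
    FrobToricAt (-1) p q M a b hab hq A := by
  intro σ hσ x hx0 hK hK'
  have hNN : M * q ∣ r * M * q := ⟨r, by ring⟩
  have hN36 : r * M * q ∣ 36 * (M * q) := by
    obtain ⟨k, hk⟩ := hr36
    exact ⟨k, by rw [hk]; ring⟩
  have hle : modularFunctionFieldBar (M * q) ≤ modularFunctionFieldBar (r * M * q) :=
    S18.modularFunctionFieldBar_mono hNN
  have hFFN := H95.stmt_HKA_isFF (M * q)
  have hFFN₂ := H95.stmt_HKA_isFF (r * M * q)
  set φ : ↥(FNbar (M * q)) →ₐ[AlgebraicClosure ℚ] ↥(FNbar (r * M * q)) :=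
    IntermediateField.inclusion hle with hφdef
  have hint : φ.toRingHom.IsIntegral := (H51.stmt_FFB_finite _ _ _ hFFN hFFN₂ φ).1
  haveI hPD : HasPrincipalDivisors (AlgebraicClosure ℚ) ↥(FNbar (r * M * q)) :=
    H51.stmt_FFB_principal _ _ hFFN₂
  have hFI : FundamentalIdentityAlong (AlgebraicClosure ℚ) φ hint :=
    H51.stmt_FFB_fundamental _ _ _ hFFN hFFN₂ φ hint hPD
  have H₂ : RED.H17.FFHyp (AlgebraicClosure ℚ) ↥(FNbar (r * M * q)) :=
    RED.H17.ffHyp_of_isFF _ _ hFFN₂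
  set W : SemilinearAut (AlgebraicClosure ℚ) ↥(FNbar (M * q)) := wS q M a b hab hq with hWdef
  set W₂ : SemilinearAut (AlgebraicClosure ℚ) ↥(FNbar (r * M * q)) :=
    wS q (r * M) a₂ b₂ hab₂ hq with hW₂def
  have hWint : SemilinearAut.IntertwinesAlong (φ : ↥(FNbar (M * q)) →+* ↥(FNbar (r * M * q)))
      W W₂ := wS_intertwines q M (r * M) a b a₂ b₂ hab hab₂ hq ⟨r, by ring⟩ hle
  have hσint : SemilinearAut.IntertwinesAlong
      (φ : ↥(FNbar (M * q)) →+* ↥(FNbar (r * M * q))) (galF (M * q) σ) (galF (r * M * q) σ) :=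
    galF_intertwines hle σ
  obtain ⟨D, f, rfl, hf1, hD⟩ := hK
  obtain ⟨D', f', hx', hf'1, hD'⟩ := hK'
  have hf0 : ((f : ↥(gaussV A (M * q))) : ↥(FNbar (M * q))) ≠ 0 := ne_zero_of_gaussRes_eq_one hf1
  -- the classes at the upper level
  obtain ⟨hfV, hfres⟩ := gauss_pb hle A f hf1
  obtain ⟨hf'V, hf'res⟩ := gauss_pb hle A f' hf'1
  set x₂ : JZero (r * M * q) := Pic0.mk (pbDZ φ hint hFI D) with hx₂
  have hx₂pb : x₂ = pbPic φ hint hFI (Pic0.mk D) := rfl
  have hx₂0 : (p : ℤ) • x₂ = 0 := by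
    rw [hx₂pb, ← map_zsmul, hx0, map_zero]
  have hK₂ : InK1 A (r * M * q) p x₂ :=
    ⟨pbDZ φ hint hFI D, ⟨_, hfV⟩, rfl, hfres, fun P' => pbDZ_ord φ hint hFI hD P'⟩
  have hWx₂ : W₂ • x₂ = Pic0.mk (pbDZ φ hint hFI D') := by
    rw [hx₂pb, ← pbPic_smul φ hint hFI W W₂ hWint, hx']
    rfl
  have hK₂' : InK1 A (r * M * q) p (W₂ • x₂) :=
    ⟨pbDZ φ hint hFI D', ⟨_, hf'V⟩, hWx₂, hf'res, fun P' => pbDZ_ord φ hint hFI hD' P'⟩
  -- FROB-T at the level `(r M) q`
  have hT' := hT σ hσ x₂ hx₂0 hK₂ hK₂'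
  have hcls : galF (r * M * q) σ • (Pic0.mk (pbDZ φ hint hFI D) : Pic0 (AlgebraicClosure ℚ)
        ↥(FNbar (r * M * q)))
      + (q : ℤ) • (W₂ • (Pic0.mk (pbDZ φ hint hFI D) : Pic0 (AlgebraicClosure ℚ)
        ↥(FNbar (r * M * q)))) = 0 := by
    have e1 : galF (r * M * q) σ • (Pic0.mk (pbDZ φ hint hFI D) : Pic0 (AlgebraicClosure ℚ)
        ↥(FNbar (r * M * q))) = σ • x₂ := rfl
    rw [e1, hT', neg_one_mul, neg_smul]
    exact neg_add_cancel _
  -- the descent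
  have hroot : ∀ c : AlgebraicClosure ℚ, ∃ d : AlgebraicClosure ℚ, d ^ p = c :=
    fun c => IsAlgClosed.exists_pow_nat_eq c hp.pos
  have hconst' : ∀ g : ↥(FNbar (r * M * q)), g ≠ 0 →
      (∀ P : Place (AlgebraicClosure ℚ) ↥(FNbar (r * M * q)), P.ord g = 0) →
      ∃ c : AlgebraicClosure ℚ, g = algebraMap (AlgebraicClosure ℚ) ↥(FNbar (r * M * q)) c :=
    fun g _ hg => H₂.const_of_regular (fun P => (hg P).ge)
  have hKD : ∀ g : ↥(FNbar (M * q)),
      (∀ P : Place (AlgebraicClosure ℚ) ↥(FNbar (M * q)), (p : ℤ) ∣ P.ord g) →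
      (∃ t' : ↥(FNbar (r * M * q)), t' ^ p = φ g) → ∃ t : ↥(FNbar (M * q)), t ^ p = g := by
    rintro g hdiv ⟨t', ht'⟩
    refine Fermat.Agent.RED.KD.H22.stmt_KD (M * q) (r * M * q) p hNN hN36 hp.pos g hdiv
      ⟨(t' : LaurentSeries (AlgebraicClosure ℚ)), t'.2, ?_⟩
    have h3 := congrArg (Subtype.val : ↥(FNbar (r * M * q)) → LaurentSeries (AlgebraicClosure ℚ)) ht'
    have h4 : ((t' ^ p : ↥(FNbar (r * M * q))) : LaurentSeries (AlgebraicClosure ℚ))
        = ((φ g : ↥(FNbar (r * M * q))) : LaurentSeries (AlgebraicClosure ℚ)) := h3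
    rw [IntermediateField.coe_pow, hφdef, IntermediateField.coe_inclusion] at h4
    exact h4
  have hsum := frobDesc_abs φ hint hFI hconst' p hp.ne_zero hroot q (galF (M * q) σ) W
    (galF (r * M * q) σ) W₂ hσint hWint hKD D (f : ↥(FNbar (M * q))) hf0 hD hcls
  have hfin : σ • (Pic0.mk D : JZero (M * q))
      = -((q : ℤ) • (W • (Pic0.mk D : JZero (M * q)))) :=
    eq_neg_of_add_eq_zero_left hsum
  rw [hfin, neg_one_mul, neg_smul]

/-- The data of the upper level `(r M) q`. -/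
theorem exists_upper (q r M : ℕ) (hq : q.Prime) [NeZero (M * q)] (hr0 : r ≠ 0)
    (hqrM : ¬ q ∣ r * M) :
    NeZero (r * M * q) ∧ ∃ a₂ b₂ : ℤ, a₂ * (q : ℤ) + b₂ * ((r * M : ℕ) : ℤ) = 1 := by
  have hN0 : M * q ≠ 0 := NeZero.ne (M * q)
  have hM0 : M ≠ 0 := fun h => hN0 (by rw [h, zero_mul])
  refine ⟨⟨Nat.mul_ne_zero (Nat.mul_ne_zero hr0 hM0) hq.pos.ne'⟩, ?_⟩
  have hcop : IsCoprime ((q : ℕ) : ℤ) (((r * M : ℕ)) : ℤ) :=
    Nat.isCoprime_iff_coprime.2 ((Nat.Prime.coprime_iff_not_dvd hq).2 hqrM)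
  obtain ⟨a₂, b₂, hab₂⟩ := hcop
  exact ⟨a₂, b₂, hab₂⟩

/-- **FROB-DESC**: FROB-T at the level `3 M`, `M` odd, from FROB-T at the tame levels. -/
theorem stmt_FrobDesc : Fermat.Agent.S43.BadQ.Stmt_FrobDesc := by
  intro hT p hp hp5 M a b hab hq _ h3p h2M hsq A hA
  have h3M : ¬ 3 ∣ M := H88.q_not_dvd_M 3 M a b hab hq
  have h3M₂ : ¬ 3 ∣ 2 * M := by omega
  obtain ⟨hne, a₂, b₂, hab₂⟩ := exists_upper 3 2 M hq (by norm_num) h3M₂
  haveI := hne
  exact frobToricAt_descend hp 3 2 M a b a₂ b₂ hab hab₂ hq (by norm_num) A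
    (hT p hp hp5 3 (2 * M) a₂ b₂ hab₂ hq h3p h3M₂ (Or.inr (Or.inl ⟨rfl, ⟨M, rfl⟩⟩)) A hA)

end Fermat.Agent.S43.H13
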