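/-
S43 (row 37), leaf RAM2 (helper37): the mod `p` representation of a Frey curve is RAMIFIED at `2`.

Needed by the final wiring `L.Pivot.s43_of` / `s43_of2` (helper3, helper76): the prime `2` is
never removed from the level.

Proof.  Model at `2` (S13/WP3): `y² + x y = x³ + a x² + b x`, `|a| ≤ 1`, `|b| = |2|^m < 1`,
`gcd(2 m, p) = 1`.
* (`eval_preΨ'_node`) At a node `(0, 0)` (`a₃ = a₄ = a₆ = 0`) all division polynomials
  `preΨ' n`, `n ≥ 3`, vanish; so the constant term of `preΨ' p` of our model lies in the maximal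
  ideal, while its leading coefficient `p` is a unit: some root `x₀` has `|x₀| < 1`, i.e. there
  is a point `Q = (x₀, y₀)` of order `p` outside `E₀`.
* If inertia at `A ∣ 2` acts trivially on `E[p]`, then `x₀` is fixed by inertia, so `|x₀|` is an
  integral power of `|2|` (`S36.NU.H41.valuation_eq_zpow_of_fixed`, helper41), and then
  `Q ∈ E₀` by `S13.WP3.H15.torsion_in_E0` (the component group has order prime to `p`).
-/
import Fermat.Agent.S13.WP3.NoFixedPoint
import Fermat.Agent.S36.NU.H41_DvrUr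
import Fermat.Agent.Lib.TorsionGen.Count
import Fermat.Agent.S04.H59_FreySemistable

set_option autoImplicit false

open Polynomial WeierstrassCurve

namespace Fermat.Agent.S43.H37

/-- An auxiliary elliptic sequence with `c = d = 0` vanishes from the index `3` on. -/
theorem preNormEDS'_zero_zero {R : Type*} [CommRing R] (b : R) (n : ℕ) (hn : 3 ≤ n) :
    preNormEDS' b 0 0 n = 0 := by
  induction n using Nat.strong_induction_on with
  | _ n ih =>
    rcases Nat.lt_or_ge n 5 with h5 | h5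
    · have : n = 3 ∨ n = 4 := by omega
      rcases this with rfl | rfl
      · exact preNormEDS'_three ..
      · exact preNormEDS'_four ..
    · rcases Nat.even_or_odd' n with ⟨k, rfl | rfl⟩
      · obtain ⟨m, rfl⟩ : ∃ m, k = m + 3 := ⟨k - 3, by omega⟩
        rw [preNormEDS'_even, ih (m + 3) (by omega) (by omega)]
        ring
      · obtain ⟨m, rfl⟩ : ∃ m, k = m + 2 := ⟨k - 2, by omega⟩
        rw [preNormEDS'_odd, ih (m + 4) (by omega) (by omega), ih (m + 3) (by omega) (by omega)]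
        ring

/-- At a singular point `(0, 0)` (`a₃ = a₄ = a₆ = 0`) the division polynomials `preΨ' n`,
`n ≥ 3`, vanish. -/
theorem eval_preΨ'_node {R : Type*} [CommRing R] (W : WeierstrassCurve R) (h₃ : W.a₃ = 0)
    (h₄ : W.a₄ = 0) (h₆ : W.a₆ = 0) (n : ℕ) (hn : 3 ≤ n) : (W.preΨ' n).eval 0 = 0 := by
  have h := map_preNormEDS' (evalRingHom (0 : R)) (W.Ψ₂Sq ^ 2) W.Ψ₃ W.preΨ₄ n
  rw [WeierstrassCurve.preΨ']
  rw [coe_evalRingHom] at h
  rw [h]
  have hc : W.Ψ₃.eval 0 = 0 := by
    simp [WeierstrassCurve.Ψ₃, WeierstrassCurve.b₈, h₃, h₄, h₆]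
  have hd : W.preΨ₄.eval 0 = 0 := by
    simp [WeierstrassCurve.preΨ₄, WeierstrassCurve.b₈, WeierstrassCurve.b₆, WeierstrassCurve.b₄,
      h₃, h₄, h₆]
  rw [hc, hd]
  exact preNormEDS'_zero_zero _ n hn

section Val

variable {L : Type*} [Field L] (A : ValuationSubring L)

/-- For a model with coefficients in `A`, `a₃ = a₆ = 0` and `|a₄| < 1`, the constant term of
`preΨ' n`, `n ≥ 3`, has valuation `< 1`. -/
theorem valuation_eval_preΨ'_lt_one (W : WeierstrassCurve L) (h₁ : W.a₁ ∈ A) (h₂ : W.a₂ ∈ A)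
    (h₃ : W.a₃ = 0) (h₄ : A.valuation W.a₄ < 1) (h₆ : W.a₆ = 0) (n : ℕ) (hn : 3 ≤ n) :
    A.valuation ((W.preΨ' n).eval 0) < 1 := by
  have h₄' : W.a₄ ∈ A := (A.valuation_le_one_iff _).1 h₄.le
  set WA : WeierstrassCurve A := ⟨⟨W.a₁, h₁⟩, ⟨W.a₂, h₂⟩, 0, ⟨W.a₄, h₄'⟩, 0⟩ with hWA
  have hmap : WA.map A.subtype = W := by
    ext <;> simp [hWA, WeierstrassCurve.map, h₃, h₆]
  have hev : (W.preΨ' n).eval 0 = A.subtype ((WA.preΨ' n).eval 0) := by
    rw [← hmap, WeierstrassCurve.map_preΨ']
    rw [Polynomial.eval_map, Polynomial.eval₂_at_zero, Polynomial.coeff_zero_eq_eval_zero]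
  rw [hev]
  show A.valuation (((WA.preΨ' n).eval 0 : A) : L) < 1
  rw [← A.valuation_lt_one_iff]
  -- reduce to the residue field
  rw [← Ideal.Quotient.eq_zero_iff_mem]
  have h4res : (Ideal.Quotient.mk (IsLocalRing.maximalIdeal A)) (⟨W.a₄, h₄'⟩ : A) = 0 := by
    rw [Ideal.Quotient.eq_zero_iff_mem, A.valuation_lt_one_iff]
    exact h₄
  have hk := eval_preΨ'_node (WA.map (Ideal.Quotient.mk (IsLocalRing.maximalIdeal A)))
    (by simp [hWA, WeierstrassCurve.map]) (by simpa [hWA, WeierstrassCurve.map] using h4res)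
    (by simp [hWA, WeierstrassCurve.map]) n hn
  rw [WeierstrassCurve.map_preΨ', Polynomial.eval_map, Polynomial.eval₂_at_zero,
    Polynomial.coeff_zero_eq_eval_zero] at hk
  exact hk

variable [IsAlgClosed L]

/-- A polynomial over an algebraically closed field whose leading coefficient is a unit of `A`
and whose constant term is in the maximal ideal has a root of valuation `< 1`. -/
theorem exists_root_valuation_lt_one (f : L[X]) (hlead : A.valuation f.leadingCoeff = 1)
    (h0 : A.valuation (f.eval 0) < 1) : ∃ x : L, f.IsRoot x ∧ A.valuation x < 1 := by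
  classical
  have hf0 : f ≠ 0 := by
    rintro rfl
    simp at hlead
  have hsplit := IsAlgClosed.splits f
  have hprod := hsplit.eq_prod_roots
  by_contra hcon
  push Not at hcon
  have hall : ∀ r ∈ f.roots, 1 ≤ A.valuation r := by
    intro r hr
    exact hcon r ((mem_roots hf0).1 hr)
  have heval : f.eval 0 = f.leadingCoeff * (f.roots.map (fun r => -r)).prod := by
    conv_lhs => rw [hprod]
    rw [eval_mul, eval_C, eval_multiset_prod, Multiset.map_map]
    congr 2
    apply Multiset.map_congr rfl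
    intro r _
    simp
  have hval : A.valuation (f.eval 0) = ((f.roots.map (fun r => A.valuation r)).prod) := by
    rw [heval, map_mul, hlead, one_mul, map_multiset_prod, Multiset.map_map]
    congr 1
    apply Multiset.map_congr rfl
    intro r _
    simp
  have hge : 1 ≤ (f.roots.map (fun r => A.valuation r)).prod := by
    apply Multiset.one_le_prod
    intro v hv
    obtain ⟨r, hr, rfl⟩ := Multiset.mem_map.1 hv
    exact hall r hr
  rw [hval] at h0
  exact absurd h0 (not_lt.2 hge)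

/-- **A point of order `p` outside `E₀`.**  Model `a₃ = a₆ = 0`, `a₁, a₂ ∈ A`, `|a₄| < 1`,
`Δ ≠ 0`; `p` an odd prime which is a unit of `A`.  Then there is a point `(x, y)` killed by `p`
with `|x| < 1`. -/
theorem exists_torsion_valuation_lt_one [DecidableEq L] (W : Affine L) (hΔ : W.Δ ≠ 0)
    (h₁ : W.a₁ ∈ A) (h₂ : W.a₂ ∈ A)
    (h₃ : W.a₃ = 0) (h₄ : A.valuation W.a₄ < 1) (h₆ : W.a₆ = 0) {p : ℕ} (hp : p.Prime)
    (hp2 : p ≠ 2) (hpA : A.valuation ((p : ℕ) : L) = 1) :
    ∃ (x y : L) (h : W.Nonsingular x y),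
      p • Affine.Point.some x y h = 0 ∧ A.valuation x < 1 := by
  have hodd : ¬ Even p := fun he => hp2 ((Nat.Prime.even_iff hp).mp he)
  have hp3 : 3 ≤ p := by have := hp.two_le; omega
  have hpL : ((p : ℕ) : L) ≠ 0 := by
    intro h0
    rw [h0, map_zero] at hpA
    exact zero_ne_one hpA
  have hlead : A.valuation (W.preΨ' p).leadingCoeff = 1 := by
    rw [WeierstrassCurve.leadingCoeff_preΨ' W hpL, if_neg hodd]
    exact hpA
  obtain ⟨x, hx, hx1⟩ := exists_root_valuation_lt_one A (W.preΨ' p) hlead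
    (valuation_eval_preΨ'_lt_one A W h₁ h₂ h₃ h₄ h₆ p hp3)
  obtain ⟨y, h, -⟩ := Fermat.Agent.Lib.Torsion35.exists_point_of_x W hΔ x
  exact ⟨x, y, h, (Fermat.Agent.Lib.TorsionGen.nsmul_eq_zero_iff_eval_preΨ' h hodd).mpr hx, hx1⟩

end Val

section Frey

open Fermat.Agent.S13 Fermat.Agent.S13.WP3
open WeierstrassCurve.Affine WeierstrassCurve.Affine.Point

/-- **RAM2**: the mod `p` representation of a Frey curve is ramified at `2`. -/
theorem ram2 (P : FreyPackage) : ¬ P.GaloisRepUnramifiedAt 2 := by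
  classical
  intro hunr
  obtain ⟨A, hA⟩ := Fermat.Agent.Lib.FrobExists.exists_liesOverPrime 2 Nat.prime_two
  obtain ⟨hyp, hp1, m, hm, hcop, hb⟩ := H15.arith2 P A hA
  have hp2 : P.p ≠ 2 := by have := P.hp5; omega
  have hΔ : (P.freyCurve⁄Qbar).Δ ≠ 0 := by
    have h1 : P.freyCurve.Δ ≠ 0 := by
      rw [← Fermat.Agent.S04.H59.freyCurveInt_map P, WeierstrassCurve.map_Δ]
      simpa using Fermat.Agent.S04.H59.freyCurveInt_Δ_ne_zero P
    change (P.freyCurve.map (algebraMap ℚ Qbar)).Δ ≠ 0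
    rw [WeierstrassCurve.map_Δ]
    exact (map_ne_zero_iff _ (algebraMap ℚ Qbar).injective).mpr h1
  obtain ⟨lam, hlam⟩ : ∃ lam : Qbar, lam ^ 2 + lam = (P.freyCurve⁄Qbar).a₂ := by
    obtain ⟨z, hz⟩ := IsAlgClosed.exists_root
      (Polynomial.X ^ 2 + Polynomial.X - Polynomial.C ((P.freyCurve⁄Qbar).a₂) :
        Polynomial Qbar) (by
        have : (Polynomial.X ^ 2 + Polynomial.X - Polynomial.C ((P.freyCurve⁄Qbar).a₂) :
            Polynomial Qbar).degree = 2 := by
          compute_degree!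
        rw [this]; norm_num)
    refine ⟨z, ?_⟩
    simp only [Polynomial.IsRoot.def, Polynomial.eval_sub, Polynomial.eval_add,
      Polynomial.eval_pow, Polynomial.eval_X, Polynomial.eval_C] at hz
    linear_combination hz
  obtain ⟨x, y, h, hQ, hx1⟩ := exists_torsion_valuation_lt_one A (P.freyCurve⁄Qbar) hΔ
    (by rw [hyp.a₁]; exact A.one_mem) ((A.valuation_le_one_iff _).1 hyp.a_le) hyp.a₃ hyp.b_lt
    hyp.a₆ P.pp hp2 hp1
  have hQt : (P.p : ℤ) • (Point.some x y h : (P.freyCurve⁄Qbar).Point) = 0 := by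
    rw [natCast_zsmul]
    exact hQ
  have hfix : ∀ σ ∈ A.inertiaSubgroupIn ℚ, σ x = x := by
    intro σ hσ
    have h1 := hunr A hA σ hσ ⟨Point.some x y h, by
      rw [Submodule.mem_torsionBy_iff]; exact hQt⟩
    have h2 : σ • (Point.some x y h : (P.freyCurve⁄Qbar).Point) = Point.some x y h :=
      congrArg Subtype.val h1
    rw [algEquiv_smul_def, Point.map_some] at h2
    injection h2 with h3 h4
  have hE0 : InE0 A (Point.some x y h : (P.freyCurve⁄Qbar).Point) := by
    refine H15.torsion_in_E0 stmt2_M1 M1.annulus A _ hyp lam hlam P.p m hm hcop hb _ hQt ?_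
    intro u v h' hQ' hu0
    have hux : x = u := by
      injection hQ' with h3 h4
    subst hux
    obtain ⟨k, hk⟩ := Fermat.Agent.S36.NU.H41.valuation_eq_zpow_of_fixed A 2 Nat.prime_two hA x
      hfix hu0
    exact ⟨k, by rw [hk]; norm_num⟩
  have : 1 ≤ A.valuation x := hE0
  exact absurd hx1 (not_lt.2 this)

end Frey

end Fermat.Agent.S43.H37
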