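/-
S43 (row 37): the current state of the wiring, version 2 (cluster L, helper37).
Plans: `NOTES/plan/L_S43_BADQ.md`, `NOTES/plan/L_PIVOT.md`.

Proved and plugged in: Tate package mod `p` (helper93), W-HECKE (helper88), FROB-T from the
modular datum (helper28, helper37), FROB-DESC (`S43.H13.stmt_FrobDesc`, helper13), OLD
(`S43.Old.stmt_Old_done`, helper75, helper35, helper78, helper46, helper37), RAM2
(`S43.H37.ram2`), Mazur's principle in the form `RemovesQ2` (helper76).

So the frozen statement S43 follows from

* `Stmt_S44T`         : the frozen S44 (row 38, helper93);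
* `Stmt_ModSSDW_tame` : the semistable Deuring datum with the Frobenius-swap clause at the tame
                        levels (helper91);
* `Stmt_CompEisOdd`   : the component group is Eisenstein (helper60);
* `Stmt_PivotFrey2`   : PIVOT, Frey form (item 66, helper3, helper76).
-/
import Fermat.Agent.S43.NonExc2
import Fermat.Agent.S43.H13_FrobDesc
import Fermat.Agent.S43.Old.OldDone

set_option autoImplicit false

open WeierstrassCurve WeierstrassCurve.Affine WeierstrassCurve.Affine.Point
open scoped WeierstrassCurve.Affine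

namespace Fermat.Agent.S43.BadQ

open Fermat.Agent.S44 Fermat.Agent.L.Pivot Fermat.Agent.L.Pivot.H76

/-- **S43 from the four open packages (version 2).**  The conclusion is the frozen statement
S43. -/
theorem result_of_open2 (h44 : Stmt_S44T) (hS : Stmt_ModSSDW_tame) (hC : Stmt_CompEisOdd)
    (hPF : Stmt_PivotFrey2)
    (P : FreyPackage) {N q : ℕ}
    (hcond : P.IsConductorLevel N) (hq : q.Prime) (hq2 : q ≠ 2) (hqp : q ≠ P.p) (hqN : q ∣ N)
    (hirr : GaloisRepIsIrreducible (K := AlgebraicClosure ℚ) ℚ P.freyCurve P.p)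
    (hmod : P.ModularRepOfLevel N) (hunr : P.GaloisRepUnramifiedAt q) :
    ∃ M : ℕ, M ∣ N ∧ ¬ q ∣ M ∧ P.ModularRepOfLevel M :=
  result_of_s44' h44 (frobToricOdd_of_modSSDW_tame hS Fermat.Agent.S43.H13.stmt_FrobDesc) hC
    (oldOdd_of Fermat.Agent.S43.Old.stmt_Old_done) hPF P hcond hq hq2 hqp hqN hirr hmod hunr

end Fermat.Agent.S43.BadQ
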