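/-
S43 (row 37): the current state of the wiring, version 3 (cluster L, helper37).
Plans: `NOTES/plan/L_S43_BADQ.md`, `NOTES/plan/L_PIVOT.md`.

Proved and plugged in (in addition to `Final2.lean`): the frozen S44 (`Fermat.Agent.S44.result`,
helper93 and the BAD_p team) and the semistable Deuring datum with the Frobenius-swap clause at
the tame levels (`S43.H91.stmt_ModSSDW_tame`, helper91).

So the frozen statement S43 follows from

* `Stmt_CompEisOdd` : the component group is Eisenstein (helper60);
* `Stmt_PivotFrey2` : PIVOT, Frey form (item 66, helper3, helper76).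
-/
import Fermat.Agent.S43.Final2
import Fermat.Agent.S43.H91_ModSSDW
import Fermat.Agent.S44

set_option autoImplicit false

open WeierstrassCurve WeierstrassCurve.Affine WeierstrassCurve.Affine.Point
open scoped WeierstrassCurve.Affine

namespace Fermat.Agent.S43.BadQ

open Fermat.Agent.L.Pivot Fermat.Agent.L.Pivot.H76

/-- The frozen S44 in the form consumed by the wiring. -/
theorem stmt_S44T_done : Stmt_S44T :=
  fun P _ hcond hpN hirr hmod => Fermat.Agent.S44.result P hcond hpN hirr hmod

/-- **S43 from the two open packages (version 3).**  The conclusion is the frozen statement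
S43. -/
theorem result_of_open3 (hC : Stmt_CompEisOdd) (hPF : Stmt_PivotFrey2)
    (P : FreyPackage) {N q : ℕ}
    (hcond : P.IsConductorLevel N) (hq : q.Prime) (hq2 : q ≠ 2) (hqp : q ≠ P.p) (hqN : q ∣ N)
    (hirr : GaloisRepIsIrreducible (K := AlgebraicClosure ℚ) ℚ P.freyCurve P.p)
    (hmod : P.ModularRepOfLevel N) (hunr : P.GaloisRepUnramifiedAt q) :
    ∃ M : ℕ, M ∣ N ∧ ¬ q ∣ M ∧ P.ModularRepOfLevel M :=
  result_of_open2 stmt_S44T_done Fermat.Agent.S43.H91.stmt_ModSSDW_tame hC hPF
    P hcond hq hq2 hqp hqN hirr hmod hunr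

end Fermat.Agent.S43.BadQ
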