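/-
S43 (row 37): the current state of the wiring, version 4 (cluster L, helper37).
Plans: `NOTES/plan/L_S43_BADQ.md`, `NOTES/plan/L_PIVOT.md`.

Proved and plugged in (in addition to `Final3.lean`): COMP-EIS
(`S43.CompEis.H60.stmt_CompEisOdd`, helper60 with helper9, helper21, helper57, helper80,
helper11, helper28).

So the frozen statement S43 follows from ONE open package:

* `Stmt_PivotFrey2` : PIVOT, Frey form (item 66, helper3, helper76).
-/
import Fermat.Agent.S43.Final3
import Fermat.Agent.S43.CompEis.H60_CompEis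

set_option autoImplicit false

open WeierstrassCurve WeierstrassCurve.Affine WeierstrassCurve.Affine.Point
open scoped WeierstrassCurve.Affine

namespace Fermat.Agent.S43.BadQ

open Fermat.Agent.L.Pivot Fermat.Agent.L.Pivot.H76

/-- Mazur's principle at the primes which are not exceptional, Frey form: DONE. -/
theorem stmt_NonExcFrey2_done : Stmt_NonExcFrey2 :=
  nonExcFrey2_of
    (badQ5odd_of_at
      (frobToricOdd_of_modSSDW_tame Fermat.Agent.S43.H91.stmt_ModSSDW_tame
        Fermat.Agent.S43.H13.stmt_FrobDesc)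
      Fermat.Agent.S43.CompEis.H60.stmt_CompEisOdd
      (oldOdd_of Fermat.Agent.S43.Old.stmt_Old_done))

/-- **S43 from PIVOT (version 4).**  The conclusion is the frozen statement S43. -/
theorem result_of_pivotFrey2 (hPF : Stmt_PivotFrey2)
    (P : FreyPackage) {N q : ℕ}
    (hcond : P.IsConductorLevel N) (hq : q.Prime) (hq2 : q ≠ 2) (hqp : q ≠ P.p) (hqN : q ∣ N)
    (hirr : GaloisRepIsIrreducible (K := AlgebraicClosure ℚ) ℚ P.freyCurve P.p)
    (hmod : P.ModularRepOfLevel N) (hunr : P.GaloisRepUnramifiedAt q) :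
    ∃ M : ℕ, M ∣ N ∧ ¬ q ∣ M ∧ P.ModularRepOfLevel M :=
  result_of_open3 Fermat.Agent.S43.CompEis.H60.stmt_CompEisOdd hPF
    P hcond hq hq2 hqp hqN hirr hmod hunr

end Fermat.Agent.S43.BadQ
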