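/-
S43 (row 37): the whole chain (helper37).

`BadQ.result_of_pivotFrey2 : Stmt_PivotFrey2 → <frozen S43>` (`S43/Final4.lean`) and PV-WIRE2
(`L.Pivot.H76.pivotFrey2_of_pivotCoreB`, helper76) reduce the frozen statement S43 to the PIVOT
core `L.Pivot.Stmt_PivotCoreB`.  The packages of PIVOT which are proved are plugged in here:

* PV-LOC (`H52.stmt_PVLoc_type`, `stmt_PVLoc_unr`, `stmt_PVLoc_dimS`, helper52), PV-PATCH
  (`H76.stmt_PVPatch`, helper76), PV-TAME (`H59.stmt_PVTame1`, helper59), PV-OLD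
  (`H50.stmt_PVOld`, helper50), top (`pivotCoreB_of`, helper3);
* PV-WIRE1 (`H19.stmt_PVWire1`, helper19) with PV-GAL (`H4.stmt_PVGalNB_of_open`, helper4, and
  `H72.stmt_PVGalAB`, helper72, on the Greenberg–Wiles package of S55/S56), DATUM, COND, PV-ASM
  (`H77.stmt_PVAsm`, helper77), PV-UNIP (`H76.stmt_PVUnip`), PV-NU (`H72.stmt_PVNU_of`,
  `H4.stmt_PVNUPoint_of`).

What is left:

* `S58.Stmt_S36`     : the frozen statement S36 (Carayol; row 35);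
* `L.Pivot.Stmt_PVGeom2` (or `L.Pivot.Geom.Stmt_PVDIV`) : PV-GEOM (helper59).
-/
import Fermat.Agent.S43.Final4
import Fermat.Agent.L.Pivot.H76_Wire2Final
import Fermat.Agent.L.Pivot.H19_Wire1
import Fermat.Agent.L.Pivot.H52_LocType
import Fermat.Agent.L.Pivot.H52_LocUnr
import Fermat.Agent.L.Pivot.H52_LocDimS
import Fermat.Agent.L.Pivot.H76_Patch
import Fermat.Agent.L.Pivot.H59_Tame1
import Fermat.Agent.L.Pivot.H50_StIFinal
import Fermat.Agent.L.Pivot.H4_GalNBFinal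
import Fermat.Agent.L.Pivot.H72_PVGalAB
import Fermat.Agent.L.Pivot.H77_Asm
import Fermat.Agent.L.Pivot.H76_PVUnip
import Fermat.Agent.L.Pivot.H72_PVNU
import Fermat.Agent.L.Pivot.H4_NUPoint
import Fermat.Agent.L.Pivot.Geom.H59_LayerA
import Fermat.Agent.S59.Datum.Final
import Fermat.Agent.S59.Asm.H7_CondUncond
import Fermat.Agent.S56.Wiring9
import Fermat.Agent.S55.CFT.GS.H24_GSFinal

set_option autoImplicit false

open WeierstrassCurve WeierstrassCurve.Affine WeierstrassCurve.Affine.Point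
open scoped WeierstrassCurve.Affine

namespace Fermat.Agent.S43.BadQ

open Fermat.Agent.L.Pivot

/-- PV-GAL-N for `cond 𝒪 p fl`: DONE (the Greenberg–Wiles package of S55/S56). -/
theorem stmt_PVGalNB_done : Stmt_PVGalNB :=
  H4.stmt_PVGalNB_of_open
    (Fermat.Agent.S55.H48.stmt_TopQ0_of_I4 Fermat.Agent.S55.CFT.GS.H24.stmt_I4)
    Fermat.Agent.S55.CFT.GS.H24.stmt_I2 Fermat.Agent.S55.CFT.GS.H24.stmt_I3
    Fermat.Agent.S55.CFT.GS.H24.stmt_I4
    (Fermat.Agent.S56.EC.H47T.stmt_EC_top Fermat.Agent.S55.CFT.GS.H24.stmt_I2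
      Fermat.Agent.S55.CFT.GS.H24.stmt_I3 Fermat.Agent.S55.CFT.GS.H24.stmt_I4)

/-- PV-GAL for `cond 𝒪 p fl`: DONE. -/
theorem stmt_PVGalB_done : Stmt_PVGalB :=
  stmt_PVGalB_of stmt_PVGalNB_done H72.stmt_PVGalAB

/-- The levels of PIVOT from S36 and PV-GEOM. -/
theorem pvLevelsB_of_s36_geom (h36 : Fermat.Agent.S58.Stmt_S36) (hG : Stmt_PVGeom2) :
    Stmt_PVLevelsB :=
  H19.stmt_PVWire1 stmt_PVGalB_done hG Fermat.Agent.S59.Datum.stmt_DATUM
    Fermat.Agent.S59.Asm.H7.stmt_COND H77.stmt_PVAsm H76.stmt_PVUnip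
    (H72.stmt_PVNU_of (H4.stmt_PVNUPoint_of h36))

/-- The PIVOT core from S36 and PV-GEOM. -/
theorem pivotCoreB_of_s36_geom (h36 : Fermat.Agent.S58.Stmt_S36) (hG : Stmt_PVGeom2) :
    Stmt_PivotCoreB :=
  pivotCoreB_of H52.stmt_PVLoc_type H52.stmt_PVLoc_unr H52.stmt_PVLoc_dimS H76.stmt_PVPatch
    (pvLevelsB_of_s36_geom h36 hG) H59.stmt_PVTame1 H50.stmt_PVOld

/-- **S43 from S36 and PV-GEOM.**  The conclusion is the frozen statement S43. -/
theorem result_of_s36_geom (h36 : Fermat.Agent.S58.Stmt_S36) (hG : Stmt_PVGeom2)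
    (P : FreyPackage) {N q : ℕ} (hcond : P.IsConductorLevel N) (hq : q.Prime) (hq2 : q ≠ 2)
    (hqp : q ≠ P.p) (hqN : q ∣ N)
    (hirr : GaloisRepIsIrreducible (K := AlgebraicClosure ℚ) ℚ P.freyCurve P.p)
    (hmod : P.ModularRepOfLevel N) (hunr : P.GaloisRepUnramifiedAt q) :
    ∃ M : ℕ, M ∣ N ∧ ¬ q ∣ M ∧ P.ModularRepOfLevel M :=
  result_of_pivotFrey2 (H76.pivotFrey2_of_pivotCoreB (pivotCoreB_of_s36_geom h36 hG))
    P hcond hq hq2 hqp hqN hirr hmod hunr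

/-- **S43 from S36 and PV-DIV.**  The conclusion is the frozen statement S43. -/
theorem result_of_s36_pvdiv (h36 : Fermat.Agent.S58.Stmt_S36) (hD : Geom.Stmt_PVDIV)
    (P : FreyPackage) {N q : ℕ} (hcond : P.IsConductorLevel N) (hq : q.Prime) (hq2 : q ≠ 2)
    (hqp : q ≠ P.p) (hqN : q ∣ N)
    (hirr : GaloisRepIsIrreducible (K := AlgebraicClosure ℚ) ℚ P.freyCurve P.p)
    (hmod : P.ModularRepOfLevel N) (hunr : P.GaloisRepUnramifiedAt q) :
    ∃ M : ℕ, M ∣ N ∧ ¬ q ∣ M ∧ P.ModularRepOfLevel M :=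
  result_of_s36_geom h36 (Geom.H59.stmt_PVGeom2_of_pvDiv hD) P hcond hq hq2 hqp hqN hirr hmod hunr

end Fermat.Agent.S43.BadQ
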