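import Fermat.Agent.GTor.H2_Equivariance
import Fermat.Prelude.Def_AlgebraicCurve_Correspondence

/-!
# S43, leaf FROB-DESC (helper13), abstract part

`φ : F → F'` a finite map of function fields over `K`.

* `pbDZ`, `pbPic` : the pullback of divisors of degree `0` and of classes along `φ`;
* `pbPic_smul` : the pullback is equivariant for intertwined semilinear automorphisms;
* `pbDZ_ord` : if `n D = div f` then `n φ^* D = div (φ f)`;
* `frobDesc_abs` : **Kummer descent of the relation `σ x + q W x = 0`** from `F'` to `F`: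
  if `p D = div f`, the relation holds for the class of `φ^* D` on `F'` and `p`-th roots of
  elements of `F` with divisor divisible by `p` descend from `F'` to `F`, then the relation holds
  for the class of `D`.
-/

set_option autoImplicit false
set_option linter.unusedSectionVars false
set_option linter.style.haveILetI false

noncomputable section

namespace Fermat.Agent.S43.H13

open AlgebraicCurve AlgebraicCurve.SemilinearAut

section Abs

variable {K F F' : Type*} [Field K] [Field F] [Field F'] [Algebra K F] [Algebra K F']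
variable [HasPrincipalDivisors K F']
variable (φ : F →ₐ[K] F') (hφ : φ.toRingHom.IsIntegral) (hFI : FundamentalIdentityAlong K φ hφ)

/-- The pullback of divisors of degree `0` along `φ`. -/
def pbDZ : Divisor.degZero (K := K) (F := F) →+ Divisor.degZero (K := K) (F := F') :=
  ((Divisor.pullbackAlong φ hφ).domRestrict (Divisor.degZero (K := K) (F := F))).codRestrict _
    (fun D => Divisor.pullbackAlong_mem_degZero φ hφ hFI D.2)

theorem coe_pbDZ (D : Divisor.degZero (K := K) (F := F)) :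
    (pbDZ φ hφ hFI D : Divisor K F') = Divisor.pullbackAlong φ hφ (D : Divisor K F) := rfl

/-- The pullback of divisor classes of degree `0` along `φ`. -/
def pbPic : Pic0 K F →+ Pic0 K F' :=
  QuotientAddGroup.map _ _ (pbDZ φ hφ hFI) (by
    rintro ⟨D, hD0⟩ hD
    simp only [AddSubgroup.mem_addSubgroupOf] at hD ⊢
    exact Divisor.isPrincipal_pullbackAlong φ hφ hD)

theorem pbPic_mk (D : Divisor.degZero (K := K) (F := F)) :
    pbPic φ hφ hFI (Pic0.mk D) = Pic0.mk (pbDZ φ hφ hFI D) := rfl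

/-- The pullback of classes is equivariant for intertwined semilinear automorphisms. -/
theorem pbPic_smul (g : SemilinearAut K F) (g' : SemilinearAut K F')
    (h : IntertwinesAlong (φ : F →+* F') g g') (x : Pic0 K F) :
    pbPic φ hφ hFI (g • x) = g' • pbPic φ hφ hFI x := by
  obtain ⟨D, rfl⟩ := Pic0.mk_surjective x
  rw [pic0_smul_mk, pbPic_mk, pbPic_mk, pic0_smul_mk]
  refine congrArg Pic0.mk (Subtype.ext ?_)
  rw [coe_pbDZ, coe_degZeroSMulHom, coe_degZeroSMulHom, coe_pbDZ]
  exact Fermat.Agent.GTor.H2.pullbackAlong_smul g g' φ hφ h (D : Divisor K F)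

/-- If `n D = div f` then `n φ^* D = div (φ f)`. -/
theorem pbDZ_ord {n : ℤ} {D : Divisor.degZero (K := K) (F := F)} {f : F}
    (hD : ∀ P : Place K F, n * (D : Divisor K F) P = P.ord f) (P' : Place K F') :
    n * (pbDZ φ hφ hFI D : Divisor K F') P' = P'.ord (φ f) := by
  rw [coe_pbDZ, Divisor.pullbackAlong_apply, Place.ord_restrictAlong φ hφ, ← hD]
  ring

end Abs

section Aux

variable {K F : Type*} [Field K] [Field F] [Algebra K F]

theorem ord_smul_eq' (g : SemilinearAut K F) (P : Place K F) (f : F) :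
    P.ord (g • f) = (g⁻¹ • P).ord f := by
  have h := SemilinearAut.ord_smul g (g⁻¹ • P) f
  rwa [smul_inv_smul] at h

theorem smul_ne_zero'' (g : SemilinearAut K F) {f : F} (hf : f ≠ 0) : g • f ≠ 0 := by
  intro h0
  apply hf
  have h1 := congrArg (fun z => g⁻¹ • z) h0
  simp only [inv_smul_smul, smul_zero] at h1
  exact h1

theorem ord_pow_nat' (P : Place K F) (f : F) (n : ℕ) : P.ord (f ^ n) = (n : ℤ) * P.ord f := by
  have := Place.ord_zpow P f (n : ℤ)
  rwa [zpow_natCast] at this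

end Aux

section Descent

variable {K F F' : Type*} [Field K] [Field F] [Field F'] [Algebra K F] [Algebra K F']
variable [HasPrincipalDivisors K F']
variable (φ : F →ₐ[K] F') (hφ : φ.toRingHom.IsIntegral) (hFI : FundamentalIdentityAlong K φ hφ)

/-- **Kummer descent of the relation `σ x + q W x = 0`** along `φ : F → F'`. -/
theorem frobDesc_abs
    (hconst' : ∀ g : F', g ≠ 0 → (∀ P : Place K F', P.ord g = 0) → ∃ c : K, g = algebraMap K F' c)
    (p : ℕ) (hp : p ≠ 0) (hroot : ∀ c : K, ∃ d : K, d ^ p = c) (q : ℕ)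
    (σ W : SemilinearAut K F) (σ' W' : SemilinearAut K F')
    (hσ : IntertwinesAlong (φ : F →+* F') σ σ') (hW : IntertwinesAlong (φ : F →+* F') W W')
    (hKD : ∀ g : F, (∀ P : Place K F, (p : ℤ) ∣ P.ord g) → (∃ t' : F', t' ^ p = φ g) →
      ∃ t : F, t ^ p = g)
    (D : Divisor.degZero (K := K) (F := F)) (f : F) (hf0 : f ≠ 0)
    (hD : ∀ P : Place K F, (p : ℤ) * (D : Divisor K F) P = P.ord f)
    (hcls : σ' • (Pic0.mk (pbDZ φ hφ hFI D) : Pic0 K F')
      + (q : ℤ) • (W' • (Pic0.mk (pbDZ φ hφ hFI D) : Pic0 K F')) = 0) :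
    σ • (Pic0.mk D : Pic0 K F) + (q : ℤ) • (W • (Pic0.mk D : Pic0 K F)) = 0 := by
  have hp0 : (p : ℤ) ≠ 0 := by exact_mod_cast hp
  set D₂ : Divisor.degZero (K := K) (F := F') := pbDZ φ hφ hFI D with hD₂
  have hD₂ord : ∀ P' : Place K F', (p : ℤ) * (D₂ : Divisor K F') P' = P'.ord (φ f) :=
    fun P' => pbDZ_ord φ hφ hFI hD P'
  have hφf0 : φ f ≠ 0 := by
    intro h0
    exact hf0 (φ.toRingHom.injective (by simpa using h0))
  -- the relation at the upper level is a function `t₂`
  set E₂ : Divisor.degZero (K := K) (F := F') :=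
    degZeroSMulHom σ' D₂ + q • degZeroSMulHom W' D₂ with hE₂
  have hE₂cls : (Pic0.mk E₂ : Pic0 K F') = 0 := by
    rw [← hcls, hE₂, Pic0.mk_add, pic0_smul_mk, pic0_smul_mk]
    congr 1
  have h3 := (QuotientAddGroup.eq_zero_iff _).1 hE₂cls
  rw [AddSubgroup.mem_addSubgroupOf] at h3
  obtain ⟨t₂, ht₂0, ht₂⟩ := h3
  have hE₂P : ∀ P' : Place K F', ((E₂ : Divisor.degZero (K := K) (F := F')) : Divisor K F') P'
      = (D₂ : Divisor K F') (σ'⁻¹ • P') + (q : ℤ) * (D₂ : Divisor K F') (W'⁻¹ • P') := by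
    intro P'
    rw [hE₂, AddSubgroup.coe_add, AddSubgroup.coe_nsmul, coe_degZeroSMulHom,
      coe_degZeroSMulHom, Finsupp.add_apply, Finsupp.smul_apply,
      divisor_smul_apply, divisor_smul_apply, nsmul_eq_mul]
  have hσf0 : σ' • φ f ≠ 0 := smul_ne_zero'' σ' hφf0
  have hWf0 : W' • φ f ≠ 0 := smul_ne_zero'' W' hφf0
  set g₂ : F' := (σ' • φ f) * (W' • φ f) ^ q with hg₂
  have hg₂0 : g₂ ≠ 0 := mul_ne_zero hσf0 (pow_ne_zero _ hWf0)
  have hg₂ord : ∀ P' : Place K F', P'.ord g₂ = (p : ℤ) * P'.ord t₂ := by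
    intro P'
    rw [hg₂, Place.ord_mul _ hσf0 (pow_ne_zero _ hWf0), ord_pow_nat', ord_smul_eq', ord_smul_eq',
      ← hD₂ord, ← hD₂ord, ← ht₂ P', hE₂P P']
    ring
  -- the constant
  have hGord : ∀ P' : Place K F', P'.ord (t₂ ^ p * g₂⁻¹) = 0 := by
    intro P'
    rw [Place.ord_mul _ (pow_ne_zero _ ht₂0) (inv_ne_zero hg₂0), Place.ord_inv, ord_pow_nat',
      hg₂ord P']
    ring
  obtain ⟨c, hc⟩ := hconst' _ (mul_ne_zero (pow_ne_zero _ ht₂0) (inv_ne_zero hg₂0)) hGord
  have hc0 : c ≠ 0 := by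
    rintro rfl
    rw [map_zero] at hc
    exact (mul_ne_zero (pow_ne_zero _ ht₂0) (inv_ne_zero hg₂0)) hc
  obtain ⟨d, hd⟩ := hroot c
  have hd0 : d ≠ 0 := by
    rintro rfl
    rw [zero_pow hp] at hd
    exact hc0 hd.symm
  have hdF : algebraMap K F' d ≠ 0 := by
    intro h0
    apply hd0
    exact (algebraMap K F').injective (by rw [h0, map_zero])
  -- the `p`-th root of `φ g` at the upper level
  set g : F := (σ • f) * (W • f) ^ q with hg
  have hφg : φ g = g₂ := by
    rw [hg, hg₂, map_mul, map_pow]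
    have e1 : φ (σ • f) = σ' • φ f := (hσ f).symm
    have e2 : φ (W • f) = W' • φ f := (hW f).symm
    rw [e1, e2]
  have hroot₂ : (t₂ * (algebraMap K F' d)⁻¹) ^ p = φ g := by
    rw [hφg, mul_pow, inv_pow, ← map_pow, hd, ← hc, mul_inv, inv_inv, ← mul_assoc,
      mul_inv_cancel₀ (pow_ne_zero _ ht₂0), one_mul]
  have hσf : σ • f ≠ 0 := smul_ne_zero'' σ hf0
  have hWf : W • f ≠ 0 := smul_ne_zero'' W hf0
  have hg0 : g ≠ 0 := mul_ne_zero hσf (pow_ne_zero _ hWf)
  have hgord : ∀ P : Place K F, P.ord g = (p : ℤ) * ((D : Divisor K F) (σ⁻¹ • P)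
      + (q : ℤ) * (D : Divisor K F) (W⁻¹ • P)) := by
    intro P
    rw [hg, Place.ord_mul _ hσf (pow_ne_zero _ hWf), ord_pow_nat', ord_smul_eq', ord_smul_eq',
      ← hD, ← hD]
    ring
  obtain ⟨t, ht⟩ := hKD g (fun P => ⟨_, hgord P⟩) ⟨_, hroot₂⟩
  have ht0 : t ≠ 0 := by
    rintro rfl
    rw [zero_pow hp] at ht
    exact hg0 ht.symm
  -- the divisor `σ D + q W D` is `div t`
  set E : Divisor.degZero (K := K) (F := F) :=
    degZeroSMulHom σ D + q • degZeroSMulHom W D with hE
  have hprin : ((E : Divisor.degZero (K := K) (F := F)) : Divisor K F) ∈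
      Divisor.principal (K := K) (F := F) := by
    refine ⟨t, ht0, fun P => ?_⟩
    have e : ((E : Divisor.degZero (K := K) (F := F)) : Divisor K F) P
        = (D : Divisor K F) (σ⁻¹ • P) + (q : ℤ) * (D : Divisor K F) (W⁻¹ • P) := by
      rw [hE, AddSubgroup.coe_add, AddSubgroup.coe_nsmul, coe_degZeroSMulHom,
        coe_degZeroSMulHom, Finsupp.add_apply, Finsupp.smul_apply,
        divisor_smul_apply, divisor_smul_apply, nsmul_eq_mul]
    rw [e]
    apply mul_left_cancel₀ hp0
    rw [← ord_pow_nat', ht, hgord P]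
  have hzero : (Pic0.mk E : Pic0 K F) = 0 :=
    (QuotientAddGroup.eq_zero_iff _).2 (AddSubgroup.mem_addSubgroupOf.2 hprin)
  rw [← hzero, hE, Pic0.mk_add, pic0_smul_mk, pic0_smul_mk]
  congr 1

end Descent

end Fermat.Agent.S43.H13
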