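/-
S43 (row 37): the FINAL wiring through helper3's `L.Pivot.s43_of` (cluster L, helper37).

helper3 (`L/Pivot/Frey.lean`): `s43_of : Stmt_S44T → Stmt_NonExcFrey → Stmt_PivotFrey → <frozen S43>`
(induction on the level; PIVOT needs the level prime to `p` and all unramified primes of the
level exceptional).  Here:

* `Stmt_Ram2`      : the mod `p` representation of a Frey curve is RAMIFIED at `2`
                     (`v₂(Δ) = 2 p v₂(b) - 8` is prime to `p`);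
* `lowerConcl_nonExc` : Mazur's principle at a non-exceptional odd prime `q ≠ p` (the second
                     branch of `lowerConcl_of5odd`, as a statement of its own);
* `nonExcFrey_of`  : `Stmt_BadQ5odd → Stmt_Ram2 → L.Pivot.Stmt_NonExcFrey`;
* `result_of_s44`  : the frozen S43 from S44, the three leaves of BAD_q, RAM2 and PIVOT (Frey
                     form).
-/
import Fermat.Agent.S43.BadQAt
import Fermat.Agent.L.Pivot.Frey

set_option autoImplicit false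
set_option synthInstance.maxHeartbeats 400000
set_option maxHeartbeats 1000000

noncomputable section

open AlgebraicCurve ModularCurve
open WeierstrassCurve WeierstrassCurve.Affine WeierstrassCurve.Affine.Point
open scoped WeierstrassCurve.Affine

namespace Fermat.Agent.S43.BadQ

open Fermat.Agent.BAD Fermat.Agent.S44 Fermat.Agent.L Fermat.Agent.L.Pivot

/-- **RAM2**: the mod `p` representation of a Frey curve is ramified at `2`. -/
def Stmt_Ram2 : Prop := ∀ P : FreyPackage, ¬ P.GaloisRepUnramifiedAt 2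

/-- **Mazur's principle at a non-exceptional odd prime** (Frey curve, `p ≥ 5`). -/
theorem lowerConcl_nonExc (h2 : Stmt_BadQ5odd)
    (P : FreyPackage) {N q : ℕ} (hcond : P.IsConductorLevel N) (hq : q.Prime) (hq2 : q ≠ 2)
    (hqp : q ≠ P.p) (hqN : q ∣ N)
    (hirr : GaloisRepIsIrreducible (K := AlgebraicClosure ℚ) ℚ P.freyCurve P.p)
    (hunr : P.GaloisRepUnramifiedAt q)
    (f : CuspForm (CongruenceSubgroup.Gamma0 N) 2) (W : WeierstrassCurve ℤ)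
    (𝔪 : Ideal (integralClosure ℤ ℂ)) (hf : f.IsNormalizedEigenform)
    (hW : W.IsIntegralModelOf P.freyCurve)
    (h𝔪 : 𝔪.IsMaximal) (hp𝔪 : (P.p : integralClosure ℤ ℂ) ∈ 𝔪)
    (hcong : ∀ ℓ : ℕ, ℓ.Prime → W.IsGoodPrimeFor ℓ → ¬ ℓ ∣ N → ℓ ≠ P.p →
      ∃ a : integralClosure ℤ ℂ, (a : ℂ) = ModularFormClass.qCoeff f ℓ ∧
        a - ((W.apOfModel ℓ : ℤ) : integralClosure ℤ ℂ) ∈ 𝔪)
    (A : ValuationSubring (AlgebraicClosure ℚ)) (hAq : A.LiesOverPrime q)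
    (hexc : ¬ IsExcAt P q A) :
    LowerConcl P.p N q W := by
  have hp : P.p.Prime := P.pp
  have hp5 : 5 ≤ P.p := P.hp5
  have hp2 : P.p ≠ 2 := by omega
  have hΔ : W.Δ ≠ 0 := integralModel_Δ_ne_zero P hW
  have : NeZero N := ⟨hcond.pos.ne'⟩
  obtain ⟨hcont, hES, hsupp⟩ := stmt_TateModP P.p hp hp2 N
  set S : Finset ℕ := W.Δ.natAbs.primeFactors with hS
  have hgood : ∀ ℓ : ℕ, ℓ.Prime → ℓ ∉ S → W.IsGoodPrimeFor ℓ := fun ℓ hℓ h =>
    prime_not_mem_of_good hℓ hΔ h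
  obtain ⟨x, hx0, hx⟩ := hsupp f 𝔪 S (fun ℓ => W.apOfModel ℓ) hf h𝔪 hp𝔪
    (fun ℓ hℓ hℓS hℓN hℓp => hcong ℓ hℓ (hgood ℓ hℓ hℓS) hℓN hℓp)
  obtain ⟨ι, hinj, hequiv, hT⟩ := Fermat.Agent.L.H52.recovery P.p hp hp2 N hcond.pos
    (jzModule N P.p) hcont hES P.freyCurve W hW hirr S hgood x hx0 hx
  have hNE : ∃ ℓ : ℕ, ℓ.Prime ∧ ℓ ∉ S ∧ ¬ ℓ ∣ N ∧ ℓ ≠ P.p ∧
      ((W.apOfModel ℓ : ℤ) : ZMod P.p) ≠ 1 + (ℓ : ZMod P.p) := by
    obtain ⟨ℓ, hℓ, hℓW, hℓN, hℓp, hne⟩ := stmt_NonEis P W hW N hcond.pos hirr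
    refine ⟨ℓ, hℓ, ?_, hℓN, hℓp, hne⟩
    intro hmem
    rw [hS, Nat.mem_primeFactors] at hmem
    exact hℓW (Int.natCast_dvd.mpr hmem.2.1)
  have hrem := removesQ_of_toric hp hp2 (jzModule N P.p) N q A
    (h2 P.p hp hp5 N q hq hq2 hqp hqN hcond.squarefree A hAq)
  obtain ⟨g, 𝔪', hg, h𝔪', hp𝔪', hgc⟩ := hrem (Tors P.freyCurve P.p)
    (galoisRepModuleEnd (S := ℚ) (K := AlgebraicClosure ℚ) P.freyCurve.toAffine P.p)
    ι S (fun ℓ => W.apOfModel ℓ)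
    (fun W' hW' => hirr.2 W' (fun σ x hx => hW' σ x hx))
    (fun σ hσ v => hunr A hAq σ hσ v)
    hexc hinj (fun σ v => hequiv σ v) hT hNE
  exact ⟨g, 𝔪', S, hg, h𝔪', hp𝔪', fun ℓ hℓ hℓS hℓN hℓp _ => hgc ℓ hℓ hℓS hℓN hℓp⟩

/-- **`Stmt_NonExcFrey`** (helper3's interface) from BAD_q at odd primes and RAM2. -/
theorem nonExcFrey_of (h2 : Stmt_BadQ5odd) (hR : Stmt_Ram2) : Stmt_NonExcFrey := by
  intro P N q hcond hq hqp hqN hirr hmod hunr hne
  have hq2 : q ≠ 2 := by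
    rintro rfl
    exact hR P hunr
  obtain ⟨f, W, 𝔪, hf, hW, h𝔪, hp𝔪, hcong⟩ := hmod
  obtain ⟨A, hAq⟩ := stmt_PlaceOver q hq
  exact result_of_lowerConcl P hcond hq hqN W hW
    (lowerConcl_nonExc h2 P hcond hq hq2 hqp hqN hirr hunr f W 𝔪 hf hW h𝔪 hp𝔪 hcong A hAq
      (hne A hAq))

/-- **S43 from S44, the leaves of BAD_q, RAM2 and PIVOT (Frey form).**  The conclusion is the
frozen statement S43. -/
theorem result_of_s44 (h44 : Stmt_S44T) (hF : Stmt_FrobToricOdd) (hC : Stmt_CompEisOdd)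
    (hO : Stmt_OldOdd) (hR : Stmt_Ram2) (hPF : Stmt_PivotFrey)
    (P : FreyPackage) {N q : ℕ}
    (hcond : P.IsConductorLevel N) (hq : q.Prime) (hq2 : q ≠ 2) (hqp : q ≠ P.p) (hqN : q ∣ N)
    (hirr : GaloisRepIsIrreducible (K := AlgebraicClosure ℚ) ℚ P.freyCurve P.p)
    (hmod : P.ModularRepOfLevel N) (hunr : P.GaloisRepUnramifiedAt q) :
    ∃ M : ℕ, M ∣ N ∧ ¬ q ∣ M ∧ P.ModularRepOfLevel M :=
  s43_of h44 (nonExcFrey_of (badQ5odd_of_at hF hC hO) hR) hPF P hcond hq hq2 hqp hqN hirr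
    hmod hunr

end Fermat.Agent.S43.BadQ
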